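import Fermat.Agent.S36.Inst.Orth
import Fermat.Agent.S36.Inst.Echelon
import Fermat.Agent.S36.Inst.Rat
import Fermat.Agent.S36.Inst.C3c
import Fermat.Agent.S36.Inst.BranchGen
import Fermat.Agent.S34.RedG2Cor
import Fermat.Agent.S18.PoleLemma

/-!
# S36, block (NEW), modular side: rational lifts with controlled poles at level `M`
-/

set_option autoImplicit false
set_option synthInstance.maxHeartbeats 400000
set_option linter.unusedSectionVars false

open AlgebraicCurve ModularCurve Polynomial CongruenceSubgroup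
open scoped IntermediateField

namespace Fermat.Agent.S36Lib

open Fermat.Agent.S18Lib Fermat.Agent.S24Lib Fermat.Agent.S28Lib Fermat.Agent.ESLib
  Fermat.Agent.S34Lib Fermat.Agent.FFLib

noncomputable section

/-- bounded coordinates on a finite dimensional subspace of `F0 A N` -/
theorem LM_coords (A : ValuationSubring Qb) {q : ℕ} (hq : q.Prime) (hA : A.LiesOverPrime q)
    {N : ℕ} [NeZero N] (U : Submodule (K0 A) (F0 A N)) [FiniteDimensional (K0 A) U] :
    ∃ c : F0 A N →ₗ[K0 A] (ℤ → K0 A), (∀ u, c u = 0 → u = 0) ∧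
      ∀ x ∈ U, eInf N (x : FB N) ∈ gRing A → ∀ s, c x s ∈ A0 A := by
  have hB₁ := isBranch_inf A hq hA N
  obtain ⟨Q, hQ, hQ0, hQU⟩ := ORTH_exists_den A U
  have hQfix : IsFix A N Q := isFix_of_mem_R0 hQ
  obtain ⟨a, ha, -⟩ := hB₁.disc Q hQ0 hQfix
  have hqF0 : qF N q ≠ 0 := hB₁.ne
  let y₀ : F0 A N := ⟨qF N q ^ (-a) * Q, ((isFix_qF N q).zpow (-a)).mul hQfix⟩
  have hy₀ : y₀ ≠ 0 := fun h =>
    (mul_ne_zero (zpow_ne_zero _ hqF0) hQ0) (congrArg Subtype.val h)
  refine ⟨(coefK0 A N).comp (LinearMap.mulLeft (K0 A) y₀), ?_, ?_⟩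
  · intro u h
    have h1 : y₀ * u = 0 := coefK0_injective A _ (by rw [map_zero]; exact h)
    exact (mul_eq_zero.1 h1).resolve_left hy₀
  · intro x hx hxO s
    rw [mem_A0_iff]
    show (((y₀ * x : F0 A N) : FB N) : LaurentSeries Qb).coeff s ∈ A
    have h1 : ((y₀ * x : F0 A N) : FB N) = qF N q ^ (-a) * ((x : FB N) * Q) := by
      show qF N q ^ (-a) * Q * (x : FB N) = _
      ring
    have h2 : eInf N (qF N q ^ (-a) * ((x : FB N) * Q)) ∈ gRing A := by
      have h3 : qF N q ^ (-a) * ((x : FB N) * Q) = (x : FB N) * (qF N q ^ (-a) * Q) := by ring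
      rw [h3, map_mul]
      exact (gRing A).mul_mem hxO ha
    rw [h1]
    exact (coeff_mem_of_mem_R0 A hq hA (hQU x hx) (-a) h2 s).1

variable (M : ℕ) [NeZero M] {q : ℕ} [hqF : Fact q.Prime] (hqM : ¬ q ∣ M)
  (A : ValuationSubring Qb) (hA : A.LiesOverPrime q)

/-- the reduction map on the integral elements of `F0 A M` -/
def LM_red : brO A M (eInf M) →+* FT A M :=
  (redC M hqM A hA).comp (RingHom.codRestrict ((iotaF0 A M).comp (brO A M (eInf M)).subtype)
    (OC M hqM A hA) (fun x => x.2))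

theorem LM_red_apply (x : brO A M (eInf M)) :
    LM_red M hqM A hA x = redC M hqM A hA ⟨((x : F0 A M) : FB M), x.2⟩ := rfl

theorem LM_const_mem (a : A0 A) : algebraMap (K0 A) (F0 A M) (a : K0 A) ∈ brO A M (eInf M) := by
  rw [mem_brO, coe_algebraMap_F0, eInf_apply, rr_coe_algebraMap]
  exact C_mem_gRing a.2

theorem LM_red_const (a : A0 A) :
    LM_red M hqM A hA ⟨_, LM_const_mem M A a⟩ = algebraMap (kk A) (FT A M) (resK0 A a) :=
  redC_algebraMap M hqM A hA ⟨((a : K0 A) : Qb), a.2⟩ _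

theorem LM_red_eq_zero_iff (x : brO A M (eInf M)) :
    LM_red M hqM A hA x = 0 ↔ (x : F0 A M) * (qF0 A M q)⁻¹ ∈ brO A M (eInf M) := by
  have hB := isBranch_inf A hqF.out hA M
  have hK : IsBrK A M M (eInf M) (qF0 A M q) := isBrK_of A M hB
    (fun y h => rr_gRed_mem_FT M hqM A hA ⟨_, h⟩ (y : FB M).2)
  rw [mem_brO, ← hK.zero_iff (x : F0 A M) x.2]
  constructor
  · intro h
    exact congrArg Subtype.val h
  · intro h
    exact Subtype.ext h

/-- no defect at level `M`, over `K0 A` -/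
theorem LM_exists_orth (U : Submodule (K0 A) (F0 A M)) [FiniteDimensional (K0 A) U] :
    ∃ b : Fin (Module.finrank (K0 A) U) → brO A M (eInf M),
      (∀ t, ((b t : brO A M (eInf M)) : F0 A M) ∈ U) ∧
      LinearIndependent (kk A) (fun t => LM_red M hqM A hA (b t)) := by
  classical
  have hq : q.Prime := hqF.out
  have hB := isBranch_inf A hq hA M
  have := isDiscreteValuationRing_A0 A hq hA
  obtain ⟨c, hc, hcO⟩ := LM_coords A hq hA U
  have hπ : (((q : ℕ) : A0 A)) ≠ 0 := by exact_mod_cast hq.ne_zero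
  have hπc : algebraMap (K0 A) (F0 A M) ((((q : ℕ) : A0 A) : A0 A) : K0 A) = qF0 A M q := by
    rw [PHI_qF0_eq]
    simp
  have hsc : ∀ x ∈ U, ∃ n : ℕ, algebraMap (K0 A) (F0 A M)
      (((((q : ℕ) : A0 A) : A0 A) : K0 A) ^ n) * x ∈ brO A M (eInf M) := by
    intro x _
    obtain ⟨n₁, h₁⟩ := ORTH_exists_pow A hA hB (x : FB M) x.2
    refine ⟨n₁, ?_⟩
    rw [map_pow, hπc, mem_brO]
    exact h₁ _ le_rfl
  obtain ⟨b, hbU, hdiv⟩ := abs_exists_orth (A0 A) ((q : ℕ) : A0 A) hπ (brO A M (eInf M))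
    (LM_const_mem M A) U hsc c (fun u _ => hc u) (fun x hx hxO => hcO x hx hxO)
  refine ⟨b, hbU, ?_⟩
  rw [Fintype.linearIndependent_iff]
  intro g hg t
  choose a' ha' using fun t => resK0_surjective A hq hA (g t)
  have h1 : LM_red M hqM A hA
      (∑ t, (⟨_, LM_const_mem M A (a' t)⟩ : brO A M (eInf M)) * b t) = 0 := by
    rw [map_sum, ← hg]
    refine Finset.sum_congr rfl fun t _ => ?_
    rw [map_mul, LM_red_const, ha', Algebra.smul_def]
  rw [LM_red_eq_zero_iff] at h1
  have e1 : ((∑ t, (⟨_, LM_const_mem M A (a' t)⟩ : brO A M (eInf M)) * b t :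
      brO A M (eInf M)) : F0 A M) =
      ∑ t, algebraMap (K0 A) (F0 A M) ((a' t : A0 A) : K0 A) *
        ((b t : brO A M (eInf M)) : F0 A M) := by
    rw [AddSubmonoidClass.coe_finsetSum]
    rfl
  rw [e1, ← hπc] at h1
  rw [← ha' t, resK0_eq_zero_iff A hq hA]
  exact hdiv a' h1 t

theorem LM_jBar_mem : ∃ h : jBar M ∈ OC M hqM A hA, redC M hqM A hA ⟨_, h⟩ = jT A M := by
  have hy : cE A (jqModC A) ∈ FB M := by
    have := uj_coe_jBar M A
    change ((jBar M : FB M) : LaurentSeries Qb) = cE A (jqModC A) at this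
    rw [← this]
    exact (jBar M).2
  obtain ⟨h, hred⟩ := rd_int M hqM A hA (jqModC A) hy
  have hx : (⟨cE A (jqModC A), hy⟩ : FB M) = jBar M :=
    Subtype.ext (uj_coe_jBar M A).symm
  have h' : jBar M ∈ OC M hqM A hA := hx ▸ h
  refine ⟨h', ?_⟩
  have e : (⟨jBar M, h'⟩ : OC M hqM A hA) = ⟨⟨cE A (jqModC A), hy⟩, h⟩ := Subtype.ext hx.symm
  rw [e]
  apply Subtype.ext
  refine hred.trans ?_
  change coeffMap (IsLocalRing.residue A) (jqModC A) = _
  rw [coeffMap_jqModC]
  rfl

set_option maxHeartbeats 2000000 in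
/-- **rational lifts with controlled poles** -/
theorem exists_fix_lift_L (hbase : 2 ∣ M ∨ 3 ∣ M) (n : ℕ) (u : FT A M)
    (hu : u ∈ riemannRochSpace (n • poleDiv (kk A) (jT A M))) :
    ∃ (n' : ℕ) (x : OC M hqM A hA), IsFix A M (x : FB M) ∧
      (x : FB M) ∈ riemannRochSpace (n' • poleDiv Qb (jBar M)) ∧ redC M hqM A hA x = u := by
  classical
  have hq : q.Prime := hqF.out
  have hk := isAlgClosed_kk A
  have hFt := isFF_FT A M
  have hF := isFF_FB M
  obtain ⟨c, hc⟩ := riemann_equality hFt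
  set n' : ℕ := max n (c.toNat + 1) with hn'
  have hψ : 0 < idx M := Nat.pos_of_ne_zero (D2_index_ne_zero M)
  have hdbar := finrank_jT_eq hqM A hA
  have hg := C3c_gS_le hqM A hA hbase
  -- the two dimensions
  have hdeg' : Divisor.degree (n' • poleDiv (kk A) (jT A M)) = (n' : ℤ) * (idx M : ℤ) := by
    rw [map_nsmul, degree_poleDiv hFt (transcendental_jT A M), hdbar, nsmul_eq_mul]
  have hdeg : Divisor.degree (n' • poleDiv Qb (jBar M)) = (n' : ℤ) * (idx M : ℤ) := by
    rw [map_nsmul, degree_poleDiv hF (transcendental_jBar M), finrank_eq_index, nsmul_eq_mul]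
    rfl
  have hell' : (FFLib.ell (n' • poleDiv (kk A) (jT A M)) : ℤ) =
      (n' : ℤ) * (idx M : ℤ) + 1 - (genusR (kk A) (FT A M) : ℤ) := by
    rw [← hdeg']
    apply hc
    rw [hdeg']
    have h1 : c ≤ (n' : ℤ) := by
      have := Int.self_le_toNat c
      have h2 : c.toNat + 1 ≤ n' := le_max_right _ _
      omega
    have h2 : (1 : ℤ) ≤ (idx M : ℤ) := by exact_mod_cast hψ
    have h3 : (0 : ℤ) ≤ (n' : ℤ) := Int.natCast_nonneg _
    nlinarith
  have hell : (n' : ℤ) * (idx M : ℤ) + 1 - (gS M : ℤ) ≤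
      (FFLib.ell (n' • poleDiv Qb (jBar M)) : ℤ) := by
    have h1 := riemann_lower M (n' • poleDiv Qb (jBar M))
    rw [hdeg, ell_eq_ell] at h1
    exact h1
  obtain ⟨hj, hjr⟩ := LM_jBar_mem M hqM A hA
  have : NeZero q := ⟨hq.ne_zero⟩
  -- the space
  set E : Divisor Qb (FB M) := maE Qb (JF M 1 (one_dvd _)) n' 0 + 0 with hE
  have hEeq : E = n' • poleDiv Qb (jBar M) := by
    rw [hE, add_zero, maE, zero_smul, add_zero, C3c_JF_one]
  let U₀ : Submodule (K0 A) (F0 A M) :=
    L0 (algebraMap (K0 A) Qb) (iotaF0 A M) (iotaF0_algebraMap A M) E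
  have hfin : FiniteDimensional Qb (riemannRochSpace E) := finiteDimensional_L hF E
  have h1 : Module.finrank Qb (riemannRochSpace E) ≤ Module.finrank (K0 A) U₀ :=
    finrank_le_of_stable A M (riemannRochSpace E)
      (fun σ hσ x hx => gal_mem_L A M n' 0 1 one_ne_zero 1 (isFix_one M) 0 (fun v => by simp)
        σ hσ x hx) U₀ (fun x => Iff.rfl)
  have hpos : 0 < Module.finrank Qb (riemannRochSpace E) := by
    rw [Module.finrank_pos_iff_exists_ne_zero]
    refine ⟨⟨1, ?_⟩, fun h => one_ne_zero (congrArg Subtype.val h)⟩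
    rw [hE, add_zero]
    exact ma_one_mem hF _ _ _
  have : FiniteDimensional (K0 A) U₀ := Module.finite_of_finrank_pos (lt_of_lt_of_le hpos h1)
  obtain ⟨b, hbU, hbli⟩ := LM_exists_orth M hqM A hA U₀
  set L' := riemannRochSpace (n' • poleDiv (kk A) (jT A M)) with hL'
  have hbL : ∀ t, LM_red M hqM A hA (b t) ∈ L' := by
    intro t
    have h2 := red_mem_L_pole_zero hF hFt (RM M q hqM A hA) ⟨jBar M, hj⟩
      (by
        show Transcendental (kk A) (redC M hqM A hA ⟨jBar M, hj⟩)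
        rw [hjr]
        exact transcendental_jT A M)
      (by
        show Module.finrank Qb⟮jBar M⟯ (FB M) ≤
          Module.finrank (kk A)⟮redC M hqM A hA ⟨jBar M, hj⟩⟯ (FT A M)
        rw [hjr, hdbar, finrank_eq_index]
        exact le_rfl)
      n' 0 ⟨(((b t : brO A M (eInf M)) : F0 A M) : FB M), (b t).2⟩
      (by
        show (((b t : brO A M (eInf M)) : F0 A M) : FB M) ∈
          riemannRochSpace (n' • poleDiv Qb (jBar M) + 0 • zeroDiv Qb (jBar M))
        rw [zero_smul, add_zero, ← hEeq]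
        exact hbU t)
    have h3 : LM_red M hqM A hA (b t) ∈ riemannRochSpace
        (n' • poleDiv (kk A) (redC M hqM A hA ⟨jBar M, hj⟩) +
          0 • zeroDiv (kk A) (redC M hqM A hA ⟨jBar M, hj⟩)) := h2
    rwa [zero_smul, add_zero, hjr] at h3
  have : FiniteDimensional (kk A) L' := finiteDimensional_L hFt _
  let r' : Fin (Module.finrank (K0 A) U₀) → L' := fun t => ⟨LM_red M hqM A hA (b t), hbL t⟩
  have hli' : LinearIndependent (kk A) r' := LinearIndependent.of_comp L'.subtype hbli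
  have hcard : Fintype.card (Fin (Module.finrank (K0 A) U₀)) = Module.finrank (kk A) L' := by
    apply le_antisymm hli'.fintype_card_le_finrank
    rw [Fintype.card_fin]
    have e1 : (Module.finrank (kk A) L' : ℤ) =
        (n' : ℤ) * (idx M : ℤ) + 1 - (genusR (kk A) (FT A M) : ℤ) := hell'
    have e2 : (n' : ℤ) * (idx M : ℤ) + 1 - (gS M : ℤ) ≤
        (Module.finrank Qb (riemannRochSpace E) : ℤ) := by
      rw [hEeq]
      exact hell
    have e3 : (gS M : ℤ) ≤ (genusR (kk A) (FT A M) : ℤ) := by exact_mod_cast hg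
    have e4 : (Module.finrank Qb (riemannRochSpace E) : ℤ) ≤ (Module.finrank (K0 A) U₀ : ℤ) := by
      exact_mod_cast h1
    have : (Module.finrank (kk A) L' : ℤ) ≤ (Module.finrank (K0 A) U₀ : ℤ) := by omega
    exact_mod_cast this
  have hspan := hli'.span_eq_top_of_card_eq_finrank' hcard
  have huL : u ∈ L' := by
    refine L_mono ?_ hu
    exact nsmul_le_nsmul_left (dg_poleDiv_nonneg hFt _) (le_max_left _ _)
  have hmem : (⟨u, huL⟩ : L') ∈ Submodule.span (kk A) (Set.range r') := by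
    rw [hspan]
    exact Submodule.mem_top
  obtain ⟨g, hg'⟩ := (Submodule.mem_span_range_iff_exists_fun (kk A)).1 hmem
  choose a' ha' using fun t => resK0_surjective A hq hA (g t)
  set x : brO A M (eInf M) := ∑ t, (⟨_, LM_const_mem M A (a' t)⟩ : brO A M (eInf M)) * b t with hx
  have e1 : (x : F0 A M) = ∑ t, algebraMap (K0 A) (F0 A M) ((a' t : A0 A) : K0 A) *
        ((b t : brO A M (eInf M)) : F0 A M) := by
    rw [hx, AddSubmonoidClass.coe_finsetSum]
    rfl
  refine ⟨n', ⟨((x : F0 A M) : FB M), x.2⟩, (x : F0 A M).2, ?_, ?_⟩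
  · have h4 : (x : F0 A M) ∈ U₀ := by
      rw [e1]
      refine U₀.sum_mem fun t _ => ?_
      rw [← Algebra.smul_def]
      exact U₀.smul_mem _ (hbU t)
    rw [← hEeq]
    exact h4
  · rw [← LM_red_apply, hx, map_sum]
    have h5 := congrArg Subtype.val hg'
    rw [AddSubmonoidClass.coe_finsetSum] at h5
    refine Eq.trans ?_ h5
    refine Finset.sum_congr rfl fun t _ => ?_
    rw [map_mul, LM_red_const, ha', ← Algebra.smul_def]
    rfl

end

end Fermat.Agent.S36Lib
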