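import Fermat.Agent.S36.New.Defs
import Fermat.Agent.S36.Inst.Defs
import Fermat.Agent.S36.Mod.BrDefs
import Fermat.Agent.S36.Mod.ValFix

/-!
# S36, block (NEW), modular side: definitions

* `NAf M q = aHom ∘ nrm aHom`, `NBf M q = bHom q ∘ nrm (bHom q)` on `FB (q² M)`
* `NAF0` : `NAf` on `F0 A (q² M)` (`WF0` is in `ND/W.lean`)
* `PiM i x = ∏_{a = 1}^{q - 1} i_a x`
-/

set_option autoImplicit false
set_option synthInstance.maxHeartbeats 400000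

open AlgebraicCurve ModularCurve

namespace Fermat.Agent.S36Lib

open Fermat.Agent.S18Lib Fermat.Agent.S24Lib Fermat.Agent.S28Lib Fermat.Agent.ESLib
  Fermat.Agent.S34Lib Fermat.Agent.FFLib

noncomputable section

theorem hNq (M q : ℕ) : q * M * q = q ^ 2 * M := by ring

variable (M q : ℕ) [NeZero M] [NeZero q]

/-- `aHom ∘ nrm aHom` -/
def NAf : FB (q ^ 2 * M) →* FB (q ^ 2 * M) :=
  ((aHom (Dvd.intro q (hNq M q)) : FB (q * M) →ₐ[Qb] FB (q ^ 2 * M)) :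
    FB (q * M) →* FB (q ^ 2 * M)).comp (nrm (aHom (Dvd.intro q (hNq M q))))

theorem NAf_apply (x : FB (q ^ 2 * M)) :
    NAf M q x = aHom (Dvd.intro q (hNq M q)) (nrm (aHom (Dvd.intro q (hNq M q))) x) := rfl

/-- `bHom q ∘ nrm (bHom q)` -/
def NBf : FB (q ^ 2 * M) →* FB (q ^ 2 * M) :=
  ((bHom q (dvd_of_eq (hNq M q)) : FB (q * M) →ₐ[Qb] FB (q ^ 2 * M)) :
    FB (q * M) →* FB (q ^ 2 * M)).comp (nrm (bHom q (dvd_of_eq (hNq M q))))

theorem NBf_apply (x : FB (q ^ 2 * M)) :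
    NBf M q x = bHom q (dvd_of_eq (hNq M q)) (nrm (bHom q (dvd_of_eq (hNq M q))) x) := rfl

variable {M q}

/-- `NAf` on `F₀` -/
def NAF0 (A : ValuationSubring Qb)
    (hfix : ∀ x : FB (q ^ 2 * M), IsFix A (q ^ 2 * M) x → IsFix A (q ^ 2 * M) (NAf M q x)) :
    F0 A (q ^ 2 * M) →* F0 A (q ^ 2 * M) where
  toFun x := ⟨NAf M q (x : FB (q ^ 2 * M)), hfix _ (mem_F0.1 x.2)⟩
  map_one' := Subtype.ext (map_one (NAf M q))
  map_mul' := fun _ _ => Subtype.ext (map_mul (NAf M q) _ _)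

theorem coe_NAF0 (A : ValuationSubring Qb)
    (hfix : ∀ x : FB (q ^ 2 * M), IsFix A (q ^ 2 * M) x → IsFix A (q ^ 2 * M) (NAf M q x))
    (x : F0 A (q ^ 2 * M)) :
    ((NAF0 A hfix x : F0 A (q ^ 2 * M)) : FB (q ^ 2 * M)) = NAf M q (x : FB (q ^ 2 * M)) := rfl

/-- `∏_{a = 1}^{q - 1} i_a x` -/
def PiM (i : ℕ → FB (q ^ 2 * M) →ₐ[Qb] LaurentSeries Qb) (x : FB (q ^ 2 * M)) :
    LaurentSeries Qb :=
  ∏ a ∈ Finset.range (q - 1), i (a + 1) x

/-- `x` is regular off the cusps -/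
def RegJ (N : ℕ) [NeZero N] (x : FB N) : Prop :=
  ∀ v : Place Qb (FB N), 0 ≤ v.ord (JF N 1 (one_dvd _)) → 0 ≤ v.ord x

/-- the pull-back of the rational part of `L(n (j)_∞)` of level `M` -/
def liftSp (A : ValuationSubring Qb) (M q : ℕ) [NeZero M] [NeZero q] (n : ℕ) :
    Submodule (K0 A) (F0 A (q ^ 2 * M)) where
  carrier := {x | ∃ y : FB M, IsFix A M y ∧ y ∈ riemannRochSpace (n • poleDiv Qb (jBar M)) ∧
    (x : FB (q ^ 2 * M)) = aHom (dvdM M q) y}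
  zero_mem' := ⟨0, isFix_zero M, Submodule.zero_mem _, by simp⟩
  add_mem' := by
    rintro a b ⟨y, hy, hyL, hay⟩ ⟨z, hz, hzL, hbz⟩
    exact ⟨y + z, hy.add hz, Submodule.add_mem _ hyL hzL, by
      rw [map_add, ← hay, ← hbz]; rfl⟩
  smul_mem' := by
    rintro c a ⟨y, hy, hyL, hay⟩
    refine ⟨(c : Qb) • y, ?_, Submodule.smul_mem _ _ hyL, ?_⟩
    · rw [Algebra.smul_def]
      exact (isFix_algebraMap A M c).mul hy
    · rw [Algebra.smul_def, Algebra.smul_def, map_mul, AlgHom.commutes, ← hay]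
      rfl

end

end Fermat.Agent.S36Lib
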