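import Fermat.Agent.S36.New.ModNA2
import Fermat.Agent.S36.Mod.Reg
import Fermat.Agent.S36.Mod.EtaL
import Fermat.Agent.S34.FFSup

/-!
# S36, block (NEW), modular side: `NA` preserves functions with poles only at the cusps
-/

set_option autoImplicit false
set_option synthInstance.maxHeartbeats 400000
set_option linter.style.haveILetI false
set_option linter.unusedSectionVars false

open AlgebraicCurve ModularCurve Polynomial

namespace Fermat.Agent.S36Lib

open Fermat.Agent.S18Lib Fermat.Agent.S24Lib Fermat.Agent.S28Lib Fermat.Agent.ESLib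
  Fermat.Agent.S34Lib Fermat.Agent.FFLib

noncomputable section

theorem NA_intOver_norm {K F E : Type*} [Field K] [Field F] [Field E] [CharZero F] [Algebra K F]
    [Algebra K E] (φ : F →ₐ[K] E)
    (hfin : letI := algebraAlong φ; FiniteDimensional F E) {x : F} {y : E}
    (h : IntOver K (φ x) y) : IntOver K x (letI := algebraAlong φ; Algebra.norm F y) := by
  letI := algebraAlong φ
  letI : Algebra K[X] F := ((aeval x : K[X] →ₐ[K] F) : K[X] →+* F).toAlgebra
  letI : Algebra K[X] E := ((aeval (φ x) : K[X] →ₐ[K] E) : K[X] →+* E).toAlgebra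
  haveI : IsScalarTower K[X] F E := IsScalarTower.of_algebraMap_eq (fun p => by
    show aeval (φ x) p = φ (aeval x p)
    rw [aeval_algHom_apply])
  haveI : FiniteDimensional F E := hfin
  exact Algebra.isIntegral_norm F (R := K[X]) h

variable {M q : ℕ} [NeZero M] [NeZero q]

theorem NA_regular {N : ℕ} [NeZero N] {n : ℕ} {x : FB N}
    (hx : x ∈ riemannRochSpace (n • poleDiv Qb (JF N 1 (one_dvd _)))) (v : Place Qb (FB N))
    (hv : 0 ≤ v.ord (JF N 1 (one_dvd _))) : 0 ≤ v.ord x := by
  rw [mem_L_iff] at hx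
  rcases hx v with h0 | h0
  · rw [h0]; simp
  · rw [Finsupp.smul_apply, poleDiv_apply (isFF_FB N), max_eq_right (by omega), smul_zero,
      neg_zero] at h0
    exact h0

theorem NAm_mem_L (hq : q.Prime) {n : ℕ} {x : FB (q ^ 2 * M)}
    (hx : x ∈ riemannRochSpace (n • poleDiv Qb (JF (q ^ 2 * M) 1 (one_dvd _)))) :
    ∃ n' : ℕ, NAm M q x ∈ riemannRochSpace (n' • poleDiv Qb (JF (q ^ 2 * M) 1 (one_dvd _))) := by
  have hj : aHom (Dvd.intro q (NA_h M q)) (JF (q * M) 1 (one_dvd _)) =
      JF (q ^ 2 * M) 1 (one_dvd _) := by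
    apply Subtype.ext
    rw [coe_aHom]
    rfl
  have ht : Transcendental Qb (JF (q ^ 2 * M) 1 (one_dvd _)) := by
    rw [DSC_JF_one]; exact transcendental_jBar _
  have ht' : Transcendental Qb (JF (q * M) 1 (one_dvd _)) := by
    rw [DSC_JF_one]; exact transcendental_jBar _
  have h1 : IntOver Qb (JF (q ^ 2 * M) 1 (one_dvd _)) x :=
    intOver_of_regular (isFF_FB _) ht (fun v hv => NA_regular hx v hv)
  rw [← hj] at h1
  have hfin : letI := algebraAlong (aHom (Dvd.intro q (NA_h M q)) :
      FB (q * M) →ₐ[Qb] FB (q ^ 2 * M)); FiniteDimensional (FB (q * M)) (FB (q ^ 2 * M)) := by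
    letI := algebraAlong (aHom (Dvd.intro q (NA_h M q)) : FB (q * M) →ₐ[Qb] FB (q ^ 2 * M))
    exact Module.finite_of_finrank_pos (by
      rw [finrank_aHom hq (NA_h M q) (Dvd.intro _ rfl)]; exact hq.pos)
  have h2 := NA_intOver_norm _ hfin h1
  obtain ⟨n', hn'⟩ := exists_mem_L_of_regular (isFF_FB (q * M)) ht'
    (nrm (aHom (Dvd.intro q (NA_h M q))) x)
    (fun P hP => Or.inr (regular_of_intOver h2 P hP))
  refine ⟨n', ?_⟩
  have h3 := EL_map_mem_L (aHom (Dvd.intro q (NA_h M q))) _ _ n' hn'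
  rw [hj] at h3
  exact h3

end

end Fermat.Agent.S36Lib
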