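import Fermat.Agent.S36.New.IsV
import Fermat.Agent.S18.RedAbs

/-!
# S36, block (NEW), (CV): constants
-/

set_option autoImplicit false

open AlgebraicCurve IntermediateField Polynomial Fermat.Agent.S24Lib Fermat.Agent.FFLib
  Fermat.Agent.S18Lib Fermat.Agent.S34Lib

namespace Fermat.Agent.S36Lib

variable {K₀ k : Type*} [Field K₀] [Field k] {A₀ : ValuationSubring K₀} {resK : A₀ →+* k}
  {K F₀ F κ Φ : Type*} [Field K] [Field F₀] [Field F] [Field κ] [Algebra K₀ F₀] [Algebra K F]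
  [Algebra k κ] [CommRing Φ] [Algebra k Φ] {C : Core3 A₀ resK K F₀ F κ Φ}

section CV

theorem CV_isV_zero {F₀ κ : Type*} [Field F₀] [Field κ] (v : DVal F₀ κ) {x : F₀} (h0 : x ≠ 0)
    (h : x ∈ v.O) (h' : x⁻¹ ∈ v.O) : v.IsV 0 x := by
  refine ⟨h0, ?_, ?_⟩
  · simpa using h
  · simpa using h'

/-- units of `A₀` are units of the three valuation rings, with constant reductions -/
theorem Core3.isV_unit_const (C : Core3 A₀ resK K F₀ F κ Φ) {u : K₀} (hu0 : u ≠ 0) (hu : u ∈ A₀)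
    (hu' : u⁻¹ ∈ A₀) :
    (C.v₁.IsV 0 (algebraMap K₀ F₀ u) ∧ C.v₂.IsV 0 (algebraMap K₀ F₀ u) ∧
      C.v₃.IsV 0 (algebraMap K₀ F₀ u)) ∧
    C.v₁.lead 0 (algebraMap K₀ F₀ u) = algebraMap k κ (resK ⟨u, hu⟩) ∧
    C.v₂.lead 0 (algebraMap K₀ F₀ u) = algebraMap k κ (resK ⟨u, hu⟩) ∧
    C.v₃.lead 0 (algebraMap K₀ F₀ u) = algebraMap k κ (resK ⟨u, hu⟩) ∧
    resK ⟨u, hu⟩ ≠ 0 := by
  have h1 := (C.mem_O _).1 ((C.R.algebraMap_mem_iff u).2 hu)
  have h2 := (C.mem_O _).1 ((C.R.algebraMap_mem_iff u⁻¹).2 hu')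
  rw [map_inv₀] at h2
  have h0 : algebraMap K₀ F₀ u ≠ 0 := (_root_.map_ne_zero _).2 hu0
  refine ⟨⟨CV_isV_zero _ h0 h1.1 h2.1, CV_isV_zero _ h0 h1.2.1 h2.2.1,
    CV_isV_zero _ h0 h1.2.2 h2.2.2⟩, ?_, ?_, ?_, ?_⟩
  · rw [C.v₁.lead_zero_eq h1.1]; exact C.const₁ ⟨u, hu⟩ h1.1
  · rw [C.v₂.lead_zero_eq h1.2.1]; exact C.const₂ ⟨u, hu⟩ h1.2.1
  · rw [C.v₃.lead_zero_eq h1.2.2]; exact C.const₃ ⟨u, hu⟩ h1.2.2
  · intro h
    have h3 : (⟨u, hu⟩ : A₀) * ⟨u⁻¹, hu'⟩ = 1 := Subtype.ext (mul_inv_cancel₀ hu0)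
    have h4 := congrArg resK h3
    rw [map_mul, h, zero_mul, map_one] at h4
    exact zero_ne_one h4

theorem Core3.ND.isV_ϖ (X : C.ND) :
    C.v₁.IsV 1 (algebraMap K₀ F₀ X.ϖ) ∧ C.v₂.IsV C.e (algebraMap K₀ F₀ X.ϖ) ∧
      C.v₃.IsV 1 (algebraMap K₀ F₀ X.ϖ) := by
  refine ⟨?_, X.val₂_ϖ, ?_⟩
  · rw [← X.π₁_eq]; exact C.v₁.isV_pi
  · rw [← X.π₃_eq]; exact C.v₃.isV_pi

theorem Core3.ND.const_val (X : C.ND) {c : K₀} (hc : c ≠ 0) :
    ∃ t : ℤ, C.v₁.IsV t (algebraMap K₀ F₀ c) ∧ C.v₂.IsV (C.e * t) (algebraMap K₀ F₀ c) ∧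
      C.v₃.IsV t (algebraMap K₀ F₀ c) := by
  obtain ⟨t, h1, h2⟩ := X.unif c hc
  have hu0 : c * X.ϖ ^ (-t) ≠ 0 := mul_ne_zero hc (zpow_ne_zero _ X.ϖ_ne)
  obtain ⟨⟨a1, a2, a3⟩, -⟩ := C.isV_unit_const hu0 h1 h2
  obtain ⟨b1, b2, b3⟩ := X.isV_ϖ
  have e : algebraMap K₀ F₀ c = algebraMap K₀ F₀ (c * X.ϖ ^ (-t)) * algebraMap K₀ F₀ X.ϖ ^ t := by
    rw [← map_zpow₀, ← map_mul, mul_assoc, ← zpow_add₀ X.ϖ_ne, neg_add_cancel, zpow_zero, mul_one]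
  refine ⟨t, ?_, ?_, ?_⟩
  · rw [e]; simpa using a1.mul (b1.zpow t)
  · rw [e]
    have := a2.mul (b2.zpow t)
    rwa [zero_add, mul_comm] at this
  · rw [e]; simpa using a3.mul (b3.zpow t)

/-- constants are `m`-th powers in `F` -/
theorem Core3.const_isPow [IsAlgClosed K] (C : Core3 A₀ resK K F₀ F κ Φ) {m : ℕ} (hm : 0 < m)
    {c : K₀} (hc : c ≠ 0) : ∃ G : F, G ≠ 0 ∧ C.ι (algebraMap K₀ F₀ c) = G ^ m := by
  obtain ⟨d, hd⟩ := IsAlgClosed.exists_pow_nat_eq (C.j c) hm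
  have hd0 : d ≠ 0 := by
    rintro rfl
    rw [zero_pow hm.ne'] at hd
    exact (_root_.map_ne_zero C.j).2 hc hd.symm
  exact ⟨algebraMap K F d, (_root_.map_ne_zero _).2 hd0, by rw [C.hι, ← hd, map_pow]⟩

/-- `F₀ ∩ K = K₀` (from `lin_disj`) -/
theorem Core3.desc_const (C : Core3 A₀ resK K F₀ F κ Φ) (y : F₀) (c : K)
    (h : C.ι y = algebraMap K F c) : ∃ c₀ : K₀, y = algebraMap K₀ F₀ c₀ := by
  by_contra hne
  push Not at hne
  have hli : LinearIndependent K₀ ![(1 : F₀), y] := by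
    rw [LinearIndependent.pair_iff]
    intro s t hst
    by_cases ht : t = 0
    · subst ht
      rw [zero_smul, add_zero, Algebra.smul_def, mul_one] at hst
      exact ⟨(_root_.map_eq_zero _).1 hst, rfl⟩
    · exfalso
      apply hne (-(s / t))
      have h1 : t • y = -(s • (1 : F₀)) := by
        rw [eq_neg_iff_add_eq_zero, add_comm]; exact hst
      rw [Algebra.smul_def, Algebra.smul_def, mul_one] at h1
      have ht' : algebraMap K₀ F₀ t ≠ 0 := (_root_.map_ne_zero _).2 ht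
      rw [map_neg, map_div₀, eq_neg_iff_add_eq_zero, eq_comm, ← sub_eq_zero]
      field_simp
      rw [mul_comm y, h1]
      ring
  have h2 := C.lin_disj 2 _ hli
  rw [Fintype.linearIndependent_iff] at h2
  have h3 := h2 ![c, -1] (by
    simp only [Fin.sum_univ_two, Matrix.cons_val_zero, Matrix.cons_val_one, map_one, h,
      Algebra.smul_def, mul_one]
    simp) 1
  simp at h3

/-- an element of `κ` whose `m`-th power is a constant is a constant -/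
theorem mem_range_of_pow_mem_range [IsAlgClosed k] {m : ℕ} (hm : 0 < m) {γ : κ} {a : k}
    (h : γ ^ m = algebraMap k κ a) : ∃ c : k, γ = algebraMap k κ c := by
  by_contra hnot
  have hnot' : γ ∉ (algebraMap k κ).range := fun ⟨c, hc⟩ => hnot ⟨c, hc.symm⟩
  have htr := transcendental_of_not_mem_range hnot'
  apply htr
  refine ⟨Polynomial.X ^ m - Polynomial.C a, Polynomial.X_pow_sub_C_ne_zero hm a, ?_⟩
  simp [h]

/-- `m` is a unit of `A₀` -/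
theorem exists_inv_natCast (hres : Function.Surjective resK) {m : ℕ} (hm : (m : k) ≠ 0) :
    ((m : K₀)⁻¹) ∈ A₀ := by
  by_contra hn
  have hmem : (m : K₀) ∈ A₀ := natCast_mem A₀ m
  have hnu : ¬ IsUnit (⟨(m : K₀), hmem⟩ : A₀) := by
    intro hu
    obtain ⟨u, hu⟩ := hu
    apply hn
    have h1 : ((u⁻¹ : A₀ˣ) : A₀) * ⟨(m : K₀), hmem⟩ = 1 := by rw [← hu]; simp
    have h2 := congrArg (fun z : A₀ => (z : K₀)) h1
    simp only [MulMemClass.coe_mul, OneMemClass.coe_one] at h2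
    have : (m : K₀)⁻¹ = (((u⁻¹ : A₀ˣ) : A₀) : K₀) := (eq_inv_of_mul_eq_one_left h2).symm
    rw [this]
    exact (((u⁻¹ : A₀ˣ) : A₀)).2
  have hker : (RingHom.ker resK).IsMaximal := RingHom.ker_isMaximal_of_surjective resK hres
  have heq : RingHom.ker resK = IsLocalRing.maximalIdeal A₀ := IsLocalRing.eq_maximalIdeal hker
  have h3 : (⟨(m : K₀), hmem⟩ : A₀) ∈ RingHom.ker resK := by
    rw [heq]
    exact (IsLocalRing.mem_maximalIdeal _).2 hnu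
  rw [RingHom.mem_ker] at h3
  apply hm
  have h4 : (⟨(m : K₀), hmem⟩ : A₀) = (m : A₀) := Subtype.ext (by simp)
  rw [h4, map_natCast] at h3
  exact h3

end CV

end Fermat.Agent.S36Lib
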