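import Fermat.Agent.S36.New.Defs
import Fermat.Agent.S36.Core.DVal
import Fermat.Agent.S36.Core.Bd
import Fermat.Agent.S36.Core.USpace
import Fermat.Agent.S36.Core.Twisted
import Fermat.Agent.S34.EvP

/-!
# S36, block (NEW), (GL): the values on the three branches agree on `supp Z`
-/

set_option autoImplicit false

open AlgebraicCurve IntermediateField Polynomial Fermat.Agent.S24Lib Fermat.Agent.FFLib
  Fermat.Agent.S18Lib Fermat.Agent.S34Lib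

namespace Fermat.Agent.S36Lib

variable {K₀ k : Type*} [Field K₀] [Field k] {A₀ : ValuationSubring K₀} {resK : A₀ →+* k}
  {K F₀ F κ Φ : Type*} [Field K] [Field F₀] [Field F] [Field κ] [Algebra K₀ F₀] [Algebra K F]
  [Algebra k κ] [CommRing Φ] [Algebra k Φ] {C : Core3 A₀ resK K F₀ F κ Φ}

/-! ## (GL) `S36/New/Glue.lean` : the values on the three branches agree on `supp Z` -/
section GLU

/-- from a bound `Bd` to an order at a point where `y` is regular -/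
theorem GL_of_Bd [IsAlgClosed k] (hκ : IsFF k κ) {y : κ} {a N : ℕ} {W : Divisor k κ} {u : κ}
    (h : Bd k y a 0 N W u) {P : Place k κ} (hP : 0 ≤ P.ord y) {n : ℤ}
    (hn : ∀ o : ℤ, W P ≤ N * o → n ≤ o) : D2_ge P n u := by
  rcases h with h | h
  · exact Or.inl h
  · right
    have h1 := h P
    rw [maE_apply hκ, max_eq_right (by omega : -P.ord y ≤ 0)] at h1
    apply hn
    simpa using h1

theorem Core3.GL_ge0 (C : Core3 A₀ resK K F₀ F κ Φ) {s : F₀} (hsO : s ∈ C.R.O) :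
    C.v₁.ge 0 s ∧ C.v₂.ge 0 s ∧ C.v₃.ge 0 s := by
  have h := (C.mem_O s).1 hsO
  exact ⟨(C.v₁.ge_zero_iff s).2 h.1, (C.v₂.ge_zero_iff s).2 h.2.1, (C.v₃.ge_zero_iff s).2 h.2.2⟩

/-- regularity of the reductions at the points of `supp Z` -/
theorem Core3.lead_regular [IsAlgClosed K] [IsAlgClosed k] (C : Core3 A₀ resK K F₀ F κ Φ)
    (hF : IsFF K F) (hκ : IsFF k κ) {m : ℕ} {f : C.R.O} {D : Divisor K F} (hT : C.IsTw m f D)
    {n : ℕ} {s : F₀} (hs : s ∈ C.U D n 0) (hsO : s ∈ C.R.O) {P : Place k κ} (hP : C.Z P ≠ 0) :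
    D2_ge P 0 (C.v₁.lead 0 s) ∧ D2_ge P 0 (C.v₂.lead 0 s) ∧ D2_ge P 0 (C.v₃.lead 0 s) := by
  obtain ⟨g1, g2, g3⟩ := C.GL_ge0 hsO
  have he : (0 : ℤ) < C.e := by exact_mod_cast C.e_pos
  refine ⟨GL_of_Bd hκ (C.tb₁ hF hκ hT n 0 0 0 0 s hs g1 g2 g3) (C.Z_fin₁ P hP) ?_,
    GL_of_Bd hκ (C.tb₂ hF hκ hT n 0 0 0 0 s hs g1 g2 g3) (C.Z_fin₂ P hP) ?_,
    GL_of_Bd hκ (C.tb₃ hF hκ hT n 0 0 0 0 s hs g1 g2 g3) (C.Z_fin₃ P hP) ?_⟩
  · intro o ho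
    simp only [Nat.cast_zero, add_zero, mul_zero, sub_zero, zero_smul, Finsupp.coe_zero,
      Pi.zero_apply, Nat.cast_ofNat] at ho
    omega
  · intro o ho
    simp only [Nat.cast_zero, add_zero, mul_zero, sub_zero, zero_smul, Finsupp.coe_zero,
      Pi.zero_apply, Nat.cast_mul, Nat.cast_ofNat] at ho
    by_contra hlt
    have : (12 * (C.e : ℤ)) * o < 0 := mul_neg_of_pos_of_neg (by positivity) (by omega)
    omega
  · intro o ho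
    simp only [Nat.cast_zero, add_zero, mul_zero, sub_zero, zero_smul, Finsupp.coe_zero,
      Pi.zero_apply, Nat.cast_ofNat] at ho
    omega

theorem Core3.lead_regular₀ [IsAlgClosed K] [IsAlgClosed k] (C : Core3 A₀ resK K F₀ F κ Φ)
    (hF : IsFF K F) (hκ : IsFF k κ) {n : ℕ} {s : F₀} (hs : s ∈ C.U 0 n 0) (hsO : s ∈ C.R.O)
    {P : Place k κ} (hP : C.Z P ≠ 0) :
    D2_ge P 0 (C.v₁.lead 0 s) ∧ D2_ge P 0 (C.v₂.lead 0 s) ∧ D2_ge P 0 (C.v₃.lead 0 s) := by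
  obtain ⟨g1, g2, g3⟩ := C.GL_ge0 hsO
  have he : (0 : ℤ) < C.e := by exact_mod_cast C.e_pos
  refine ⟨GL_of_Bd hκ (C.bx₁ hF hκ n 0 0 0 0 s hs g1 g2 g3) (C.Z_fin₁ P hP) ?_,
    GL_of_Bd hκ (C.bx₂ hF hκ n 0 0 0 0 s hs g1 g2 g3) (C.Z_fin₂ P hP) ?_,
    GL_of_Bd hκ (C.bx₃ hF hκ n 0 0 0 0 s hs g1 g2 g3) (C.Z_fin₃ P hP) ?_⟩
  · intro o ho
    simp only [Nat.cast_zero, add_zero, mul_zero, sub_zero, zero_smul, Finsupp.coe_zero,
      Pi.zero_apply, Nat.cast_ofNat] at ho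
    omega
  · intro o ho
    simp only [Nat.cast_zero, add_zero, mul_zero, sub_zero, zero_smul, Finsupp.coe_zero,
      Pi.zero_apply, Nat.cast_mul, Nat.cast_ofNat] at ho
    by_contra hlt
    have : (12 * (C.e : ℤ)) * o < 0 := mul_neg_of_pos_of_neg (by positivity) (by omega)
    omega
  · intro o ho
    simp only [Nat.cast_zero, add_zero, mul_zero, sub_zero, zero_smul, Finsupp.coe_zero,
      Pi.zero_apply, Nat.cast_ofNat] at ho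
    omega

/-- (BL): if one reduction vanishes, the two others vanish on `supp Z` -/
theorem Core3.evP_eq_zero_of_lead₁ [IsAlgClosed K] [IsAlgClosed k]
    (C : Core3 A₀ resK K F₀ F κ Φ) (hF : IsFF K F) (hκ : IsFF k κ) {n : ℕ} {b : F₀}
    (hb : b ∈ C.U 0 n 0) (hbO : b ∈ C.R.O) (h0 : C.v₁.lead 0 b = 0) {P : Place k κ}
    (hP : C.Z P ≠ 0) : D2_ge P 1 (C.v₂.lead 0 b) ∧ D2_ge P 1 (C.v₃.lead 0 b) := by
  obtain ⟨g1, g2, g3⟩ := C.GL_ge0 hbO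
  have g1' : C.v₁.ge 1 b := (C.v₁.lead_eq_zero_iff g1).1 h0
  have he : (0 : ℤ) < C.e := by exact_mod_cast C.e_pos
  have hZ : 0 < C.Z P := lt_of_le_of_ne (C.Z_nonneg P) (Ne.symm hP)
  refine ⟨GL_of_Bd hκ (C.bx₂ hF hκ n 0 1 0 0 b hb g1' g2 g3) (C.Z_fin₂ P hP) ?_,
    GL_of_Bd hκ (C.bx₃ hF hκ n 0 1 0 0 b hb g1' g2 g3) (C.Z_fin₃ P hP) ?_⟩
  · intro o ho
    simp only [Nat.cast_zero, Nat.cast_one, add_zero, mul_one, zero_smul, sub_zero,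
      Finsupp.smul_apply, smul_eq_mul, Nat.cast_mul, Nat.cast_ofNat] at ho
    by_contra hlt
    have h1 : (12 * (C.e : ℤ)) * o ≤ 0 :=
      mul_nonpos_of_nonneg_of_nonpos (by positivity) (by omega)
    have h2 : 0 < (C.e : ℤ) * C.Z P := mul_pos he hZ
    omega
  · intro o ho
    simp only [Nat.cast_zero, Nat.cast_one, zero_add, mul_zero, sub_zero, one_smul,
      Nat.cast_ofNat] at ho
    omega

theorem Core3.evP_eq_zero_of_lead₂ [IsAlgClosed K] [IsAlgClosed k]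
    (C : Core3 A₀ resK K F₀ F κ Φ) (hF : IsFF K F) (hκ : IsFF k κ) {n : ℕ} {b : F₀}
    (hb : b ∈ C.U 0 n 0) (hbO : b ∈ C.R.O) (h0 : C.v₂.lead 0 b = 0) {P : Place k κ}
    (hP : C.Z P ≠ 0) : D2_ge P 1 (C.v₁.lead 0 b) := by
  obtain ⟨g1, g2, g3⟩ := C.GL_ge0 hbO
  have g2' : C.v₂.ge 1 b := (C.v₂.lead_eq_zero_iff g2).1 h0
  have hZ : 0 < C.Z P := lt_of_le_of_ne (C.Z_nonneg P) (Ne.symm hP)
  refine GL_of_Bd hκ (C.bx₁ hF hκ n 0 0 1 0 b hb g1 g2' g3) (C.Z_fin₁ P hP) ?_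
  intro o ho
  simp only [Nat.cast_zero, Nat.cast_one, add_zero, mul_zero, sub_zero, one_smul,
    Nat.cast_ofNat] at ho
  omega

/-- the difference of two functions with the same `v₁`-reduction -/
theorem Core3.GL_sub₁ [IsAlgClosed K] [IsAlgClosed k]
    (C : Core3 A₀ resK K F₀ F κ Φ) (hF : IsFF K F) (hκ : IsFF k κ) {n n' : ℕ} {b y : F₀}
    (hb : b ∈ C.U 0 n 0) (hbO : b ∈ C.R.O) (hy : y ∈ C.U 0 n' 0) (hyO : y ∈ C.R.O)
    (h : C.v₁.lead 0 b = C.v₁.lead 0 y) {P : Place k κ} (hP : C.Z P ≠ 0) :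
    evP P (C.v₂.lead 0 b) = evP P (C.v₂.lead 0 y) ∧
      evP P (C.v₃.lead 0 b) = evP P (C.v₃.lead 0 y) := by
  obtain ⟨g1, g2, g3⟩ := C.GL_ge0 hbO
  obtain ⟨y1, y2, y3⟩ := C.GL_ge0 hyO
  have hb' : b ∈ C.U 0 (max n n') 0 := C.U_mono hF 0 (le_max_left _ _) le_rfl hb
  have hy' : y ∈ C.U 0 (max n n') 0 := C.U_mono hF 0 (le_max_right _ _) le_rfl hy
  have hd : b - y ∈ C.U 0 (max n n') 0 := Submodule.sub_mem _ hb' hy'
  have hdO : b - y ∈ C.R.O := C.R.O.sub_mem hbO hyO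
  have h0 : C.v₁.lead 0 (b - y) = 0 := by rw [C.v₁.lead_sub g1 y1, h, sub_self]
  obtain ⟨e2, e3⟩ := C.evP_eq_zero_of_lead₁ hF hκ hd hdO h0 hP
  rw [C.v₂.lead_sub g2 y2] at e2
  rw [C.v₃.lead_sub g3 y3] at e3
  obtain ⟨-, rb2, rb3⟩ := C.lead_regular₀ hF hκ hb hbO hP
  obtain ⟨-, ry2, ry3⟩ := C.lead_regular₀ hF hκ hy hyO hP
  constructor
  · have h1 := (evP_eq_zero_iff hκ P (D2.ge_sub P rb2 ry2)).2 e2
    have h2 := evP_add hκ P (D2.ge_sub P rb2 ry2) ry2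
    rw [sub_add_cancel, h1, zero_add] at h2
    exact h2
  · have h1 := (evP_eq_zero_iff hκ P (D2.ge_sub P rb3 ry3)).2 e3
    have h2 := evP_add hκ P (D2.ge_sub P rb3 ry3) ry3
    rw [sub_add_cancel, h1, zero_add] at h2
    exact h2

theorem Core3.ND.GL_W_mem_O (X : C.ND) {x : F₀} (hx : x ∈ C.R.O) : X.W x ∈ C.R.O := by
  obtain ⟨g1, g2, g3⟩ := C.GL_ge0 hx
  rw [C.mem_O]
  refine ⟨(C.v₁.ge_zero_iff _).1 ((X.W_ge₁ 0 x).2 g3), (C.v₂.ge_zero_iff _).1 (X.W_ge₂ 0 x g2),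
    (C.v₃.ge_zero_iff _).1 ((X.W_ge₁ 0 (X.W x)).1 ?_)⟩
  rw [X.W_W]
  exact g1

/-- **(GLUE)** -/
theorem Core3.ND.glue (X : C.ND) [IsAlgClosed K] [IsAlgClosed k] (hF : IsFF K F) (hκ : IsFF k κ) {n : ℕ}
    {b : F₀} (hb : b ∈ C.U 0 n 0) (hbO : b ∈ C.R.O) {P : Place k κ} (hP : C.Z P ≠ 0) :
    evP P (C.v₂.lead 0 b) = evP P (C.v₁.lead 0 b) ∧
      evP P (C.v₃.lead 0 b) = evP P (C.v₁.lead 0 b) := by
  obtain ⟨g1, g2, g3⟩ := C.GL_ge0 hbO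
  -- `u = lead₁ b` is in `L(n (x₁)_∞)`
  have hu : C.v₁.lead 0 b ∈ riemannRochSpace (maE k C.x₁ n 0) := by
    have h1 := C.bx₁ hF hκ n 0 0 0 0 b hb g1 g2 g3
    rw [mem_L_iff]
    intro Q
    rcases h1 with h1 | h1
    · exact Or.inl h1
    · right
      have h2 := h1 Q
      simp only [Nat.cast_zero, add_zero, mul_zero, sub_zero, zero_smul, Finsupp.coe_zero,
        Pi.zero_apply, Nat.cast_ofNat] at h2
      omega
  obtain ⟨n', y, hy, hyO, hy1, hy2⟩ := X.lift n _ hu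
  obtain ⟨y1, y2, y3⟩ := C.GL_ge0 hyO
  obtain ⟨e2, e3⟩ := C.GL_sub₁ hF hκ hb hbO hy hyO hy1.symm hP
  -- `y - W y`
  obtain ⟨n'', hWy⟩ := X.W_U n' y hy
  have hWyO : X.W y ∈ C.R.O := X.GL_W_mem_O hyO
  obtain ⟨w1, w2, w3⟩ := C.GL_ge0 hWyO
  have hy' : y ∈ C.U 0 (max n' n'') 0 := C.U_mono hF 0 (le_max_left _ _) le_rfl hy
  have hWy' : X.W y ∈ C.U 0 (max n' n'') 0 := C.U_mono hF 0 (le_max_right _ _) le_rfl hWy
  have hd : y - X.W y ∈ C.U 0 (max n' n'') 0 := Submodule.sub_mem _ hy' hWy'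
  have hdO : y - X.W y ∈ C.R.O := C.R.O.sub_mem hyO hWyO
  have h0 : C.v₂.lead 0 (y - X.W y) = 0 := by
    rw [C.v₂.lead_sub y2 w2, X.W_lead₂ 0 y y2, pow_zero, one_mul, sub_self]
  have e1 := C.evP_eq_zero_of_lead₂ hF hκ hd hdO h0 hP
  rw [C.v₁.lead_sub y1 w1, X.W_lead₁] at e1
  obtain ⟨ry1, -, ry3⟩ := C.lead_regular₀ hF hκ hy hyO hP
  have h1 := (evP_eq_zero_iff hκ P (D2.ge_sub P ry1 ry3)).2 e1
  have h2 := evP_add hκ P (D2.ge_sub P ry1 ry3) ry3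
  rw [sub_add_cancel, h1, zero_add] at h2
  refine ⟨by rw [e2, hy2], by rw [e3, ← h2, hy1]⟩

end GLU

end Fermat.Agent.S36Lib
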