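import Fermat.Agent.S36.New.Defs
import Fermat.Agent.S36.Core.DVal

/-!
# S36, block (NEW), (IV): API of `DVal.IsV`
-/

set_option autoImplicit false

namespace Fermat.Agent.S36Lib

section IV

variable {F₀ κ : Type*} [Field F₀] [Field κ] (v : DVal F₀ κ)

theorem DVal.isV_one : v.IsV 0 1 := by
  refine ⟨one_ne_zero, ?_, ?_⟩ <;> simp [v.O.one_mem]

theorem DVal.isV_pi : v.IsV 1 v.π := by
  have h : v.π * v.π ^ (-1 : ℤ) = 1 := by
    rw [zpow_neg_one, mul_inv_cancel₀ v.π_ne]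
  refine ⟨v.π_ne, ?_, ?_⟩
  · rw [h]; exact v.O.one_mem
  · rw [h, inv_one]; exact v.O.one_mem

variable {v}

theorem DVal.IsV.mul {n n' : ℤ} {x y : F₀} (hx : v.IsV n x) (hy : v.IsV n' y) :
    v.IsV (n + n') (x * y) := by
  have h : x * y * v.π ^ (-(n + n')) = (x * v.π ^ (-n)) * (y * v.π ^ (-n')) := by
    rw [neg_add, zpow_add₀ v.π_ne]
    ring
  refine ⟨mul_ne_zero hx.1 hy.1, ?_, ?_⟩
  · rw [h]; exact v.O.mul_mem hx.2.1 hy.2.1
  · rw [h, mul_inv]; exact v.O.mul_mem hx.2.2 hy.2.2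

theorem DVal.IsV.inv {n : ℤ} {x : F₀} (hx : v.IsV n x) : v.IsV (-n) x⁻¹ := by
  have h : x⁻¹ * v.π ^ (-(-n)) = (x * v.π ^ (-n))⁻¹ := by
    rw [mul_inv, ← zpow_neg]
  refine ⟨inv_ne_zero hx.1, ?_, ?_⟩
  · rw [h]; exact hx.2.2
  · rw [h, inv_inv]; exact hx.2.1

theorem DVal.IsV.pow {n : ℤ} {x : F₀} (hx : v.IsV n x) (r : ℕ) : v.IsV (r * n) (x ^ r) := by
  induction r with
  | zero => simpa using v.isV_one
  | succ r ih =>
    have := ih.mul hx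
    rw [← pow_succ] at this
    convert this using 1
    push_cast
    ring

theorem DVal.IsV.zpow {n : ℤ} {x : F₀} (hx : v.IsV n x) (r : ℤ) : v.IsV (r * n) (x ^ r) := by
  obtain ⟨r, rfl | rfl⟩ := r.eq_nat_or_neg
  · rw [zpow_natCast]; exact hx.pow r
  · rw [zpow_neg, zpow_natCast, neg_mul]; exact (hx.pow r).inv

theorem IV_pi_inv_not_mem (v : DVal F₀ κ) : v.π⁻¹ ∉ v.O := by
  intro h
  have h1 := (v.red_eq_zero_iff 1).2 (by simpa using h)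
  rw [map_one] at h1
  exact one_ne_zero h1

theorem IV_pow_mem (v : DVal F₀ κ) (d : ℕ) : v.π ^ d ∈ v.O := v.O.pow_mem v.π_mem d

/-- `π ^ (d + 1)` is not a unit -/
theorem IV_not_unit (v : DVal F₀ κ) (d : ℕ) : (v.π ^ (d + 1))⁻¹ ∉ v.O := by
  intro h
  apply IV_pi_inv_not_mem v
  have : v.π⁻¹ = (v.π ^ (d + 1))⁻¹ * v.π ^ d := by
    rw [pow_succ, mul_inv, mul_assoc, mul_comm v.π⁻¹, ← mul_assoc, inv_mul_cancel₀
      (pow_ne_zero d v.π_ne), one_mul]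
  rw [this]
  exact v.O.mul_mem h (IV_pow_mem v d)

theorem IV_le {n n' : ℤ} {x : F₀} (hx : v.IsV n x) (hx' : v.IsV n' x) : n ≤ n' := by
  by_contra hlt
  rw [not_le] at hlt
  obtain ⟨d, hd⟩ : ∃ d : ℕ, n = n' + (d + 1) := ⟨(n - n' - 1).toNat, by omega⟩
  -- `(x π^{-n})⁻¹ * (x π^{-n'}) = π ^ (n - n')`, and its inverse also is in `O`
  apply IV_not_unit v d
  have : (v.π ^ (d + 1))⁻¹ = (x * v.π ^ (-n)) * (x * v.π ^ (-n'))⁻¹ := by
    rw [hd, neg_add, zpow_add₀ v.π_ne, mul_inv, ← mul_assoc]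
    have hx0 := hx.1
    have hp : v.π ^ (-n') ≠ 0 := zpow_ne_zero _ v.π_ne
    have e : v.π ^ (-((d : ℤ) + 1)) = (v.π ^ (d + 1))⁻¹ := by
      rw [zpow_neg]
      congr 1
      exact_mod_cast zpow_natCast v.π (d + 1)
    rw [e]
    field_simp
  rw [this]
  exact v.O.mul_mem hx.2.1 hx'.2.2

/-- `π` is not a unit -/
theorem DVal.IsV.unique {n n' : ℤ} {x : F₀} (hx : v.IsV n x) (hx' : v.IsV n' x) : n = n' :=
  le_antisymm (IV_le hx hx') (IV_le hx' hx)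

theorem DVal.IsV.ge {n : ℤ} {x : F₀} (hx : v.IsV n x) {a : ℕ} (ha : (a : ℤ) ≤ n) : v.ge a x := by
  obtain ⟨d, hd⟩ : ∃ d : ℕ, n = a + d := ⟨(n - a).toNat, by omega⟩
  unfold DVal.ge
  have : x * v.π⁻¹ ^ a = (x * v.π ^ (-n)) * v.π ^ d := by
    rw [hd, neg_add, zpow_add₀ v.π_ne, zpow_neg, zpow_neg, zpow_natCast, zpow_natCast, inv_pow]
    have hp : v.π ^ d ≠ 0 := pow_ne_zero _ v.π_ne
    field_simp
  rw [this]
  exact v.O.mul_mem hx.2.1 (IV_pow_mem v d)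

theorem DVal.IsV.mem_O {n : ℤ} {x : F₀} (hx : v.IsV n x) (hn : 0 ≤ n) : x ∈ v.O :=
  (v.ge_zero_iff x).1 (hx.ge (a := 0) (by simpa using hn))

theorem IV_eq (v : DVal F₀ κ) (n : ℕ) (x : F₀) : x * v.π ^ (-(n : ℤ)) = x * v.π⁻¹ ^ n := by
  rw [zpow_neg, zpow_natCast, inv_pow]

theorem DVal.IsV.lead_ne_zero {n : ℕ} {x : F₀} (hx : v.IsV n x) : v.lead n x ≠ 0 := by
  have hge : v.ge n x := hx.ge le_rfl
  rw [v.lead_of_ge hge]
  intro h0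
  have h2 := hx.2.2
  rw [IV_eq] at h2
  have h3 : (⟨x * v.π⁻¹ ^ n, hge⟩ : v.O) * ⟨(x * v.π⁻¹ ^ n)⁻¹, h2⟩ = 1 := by
    apply Subtype.ext
    show x * v.π⁻¹ ^ n * (x * v.π⁻¹ ^ n)⁻¹ = 1
    exact mul_inv_cancel₀ (mul_ne_zero hx.1 (pow_ne_zero _ (inv_ne_zero v.π_ne)))
  have h4 := congrArg v.red h3
  rw [map_mul, h0, zero_mul, map_one] at h4
  exact zero_ne_one h4

theorem IV_lead_zero (v : DVal F₀ κ) (n : ℕ) : v.lead n 0 = 0 := by
  rw [v.lead_of_ge (v.ge_zero' n)]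
  have : (⟨0 * v.π⁻¹ ^ n, v.ge_zero' n⟩ : v.O) = 0 := Subtype.ext (zero_mul _)
  rw [this, map_zero]

theorem IV_ge_of_lead_ne_zero {n : ℕ} {x : F₀} (hx : v.lead n x ≠ 0) : v.ge n x := by
  by_contra h
  exact hx (by rw [DVal.lead, dif_neg h])

/-- uses that `v` is a valuation ring -/
theorem DVal.isV_of_lead_ne_zero (hv : ∀ x : F₀, x ≠ 0 → ∃ n : ℤ, v.IsV n x) {n : ℕ} {x : F₀}
    (hx : v.lead n x ≠ 0) : v.IsV n x := by
  have hx0 : x ≠ 0 := by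
    rintro rfl
    exact hx (IV_lead_zero v n)
  have hge := IV_ge_of_lead_ne_zero hx
  obtain ⟨n', hn'⟩ := hv x hx0
  rcases lt_trichotomy n' (n : ℤ) with h | h | h
  · -- `n' < n`: then `v.ge (n'+1)`-like contradiction with the unit
    exfalso
    obtain ⟨d, hd⟩ : ∃ d : ℕ, (n : ℤ) = n' + (d + 1) := ⟨((n : ℤ) - n' - 1).toNat, by omega⟩
    apply IV_not_unit v d
    have : (v.π ^ (d + 1))⁻¹ = (x * v.π⁻¹ ^ n) * (x * v.π ^ (-n'))⁻¹ := by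
      rw [← IV_eq, hd, neg_add, zpow_add₀ v.π_ne, mul_inv, ← mul_assoc]
      have hp : v.π ^ (-n') ≠ 0 := zpow_ne_zero _ v.π_ne
      have e : v.π ^ (-((d : ℤ) + 1)) = (v.π ^ (d + 1))⁻¹ := by
        rw [zpow_neg]
        congr 1
        exact_mod_cast zpow_natCast v.π (d + 1)
      rw [e]
      field_simp
    rw [this]
    exact v.O.mul_mem hge hn'.2.2
  · rw [← h]; exact hn'
  · exfalso
    have h1 : v.ge (n + 1) x := hn'.ge (by push_cast; omega)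
    exact hx ((v.lead_eq_zero_iff hge).2 h1)

theorem DVal.IsV.lead_inv {x : F₀} (hx : v.IsV 0 x) : v.lead 0 x⁻¹ = (v.lead 0 x)⁻¹ := by
  have h1 : v.ge 0 x := hx.ge (a := 0) (by simp)
  have hi := hx.inv
  rw [neg_zero] at hi
  have h2 : v.ge 0 x⁻¹ := hi.ge (a := 0) (by simp)
  have h3 := v.lead_mul h1 h2
  rw [mul_inv_cancel₀ hx.1, add_zero, v.lead_one] at h3
  exact (eq_inv_of_mul_eq_one_right h3.symm)

theorem DVal.IsV.of_pow (hv : ∀ x : F₀, x ≠ 0 → ∃ n : ℤ, v.IsV n x) {m : ℕ} (hm : 0 < m) {n : ℤ}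
    {x : F₀} (hx : v.IsV (m * n) (x ^ m)) : v.IsV n x := by
  have hx0 : x ≠ 0 := by
    rintro rfl
    exact hx.1 (zero_pow hm.ne')
  obtain ⟨n', hn'⟩ := hv x hx0
  have h := (hn'.pow m).unique hx
  have hm' : (m : ℤ) ≠ 0 := by exact_mod_cast hm.ne'
  rw [← mul_left_cancel₀ hm' h]
  exact hn'

/-- `v(x + y) = v(y)` if `v(x) > v(y)` -/
theorem DVal.IsV.add_of_ge (hv : ∀ x : F₀, x ≠ 0 → ∃ n : ℤ, v.IsV n x) {n : ℕ} {x y : F₀}
    (hx : v.ge (n + 1) x) (hy : v.IsV n y) : v.IsV n (x + y) := by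
  apply DVal.isV_of_lead_ne_zero hv
  have hx' := v.ge_succ hx
  rw [v.lead_add hx' (hy.ge le_rfl), (v.lead_eq_zero_iff hx').2 hx, zero_add]
  exact hy.lead_ne_zero

end IV

end Fermat.Agent.S36Lib
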