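import Fermat.Agent.S36.New.Defs
import Fermat.Agent.S36.New.IsV
import Fermat.Agent.S36.New.Const
import Fermat.Agent.S36.Core.DVal
import Fermat.Agent.S18.GoodReduction
import Fermat.Agent.S24.PlaceBasic

/-!
# S36, block (NEW), abstract part, (NH): API of `NewH`, `Eqv`, formulas for `NB`
-/

set_option autoImplicit false

open AlgebraicCurve IntermediateField Polynomial Fermat.Agent.S24Lib Fermat.Agent.FFLib
  Fermat.Agent.S18Lib Fermat.Agent.S34Lib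

namespace Fermat.Agent.S36Lib

variable {K₀ k : Type*} [Field K₀] [Field k] {A₀ : ValuationSubring K₀} {resK : A₀ →+* k}
  {K F₀ F κ Φ : Type*} [Field K] [Field F₀] [Field F] [Field κ] [Algebra K₀ F₀] [Algebra K F]
  [Algebra k κ] [CommRing Φ] [Algebra k Φ] {C : Core3 A₀ resK K F₀ F κ Φ}

/-! ## (NH) `S36/New/NewH.lean` : API of `NewH`, `Eqv`, formulas for `NB` -/
section NH

theorem Core3.Eqv.refl (C : Core3 A₀ resK K F₀ F κ Φ) (m : ℕ) (x : F₀) : C.Eqv m x x :=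
  ⟨1, one_ne_zero, by rw [one_pow, one_mul]⟩

theorem Core3.Eqv.trans {m : ℕ} {x y z : F₀} (h : C.Eqv m x y) (h' : C.Eqv m y z) :
    C.Eqv m x z := by
  obtain ⟨G, hG, e⟩ := h
  obtain ⟨G', hG', e'⟩ := h'
  exact ⟨G * G', mul_ne_zero hG hG', by rw [e, e', mul_pow, mul_assoc]⟩

theorem Core3.Eqv.pow {m : ℕ} {x y : F₀} (h : C.Eqv m x y) (r : ℕ) :
    C.Eqv m (x ^ r) (y ^ r) := by
  obtain ⟨G, hG, e⟩ := h
  exact ⟨G ^ r, pow_ne_zero _ hG, by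
    rw [map_pow, e, _root_.mul_pow, map_pow, ← pow_mul, ← pow_mul, mul_comm m r]⟩

/-- `x ~ x h ^ m` -/
theorem Core3.Eqv.mul_pow (C : Core3 A₀ resK K F₀ F κ Φ) (m : ℕ) (x : F₀) {h : F₀} (hh : h ≠ 0) :
    C.Eqv m x (x * h ^ m) := by
  have h0 : C.ι h ≠ 0 := (map_ne_zero C.ι).2 hh
  refine ⟨(C.ι h)⁻¹, inv_ne_zero h0, ?_⟩
  rw [map_mul, map_pow, inv_pow]
  field_simp

/-- `x ~ x c` -/
theorem Core3.Eqv.mul_const [IsAlgClosed K] (C : Core3 A₀ resK K F₀ F κ Φ) {m : ℕ} (hm : 0 < m)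
    (x : F₀) {c : K₀} (hc : c ≠ 0) : C.Eqv m x (x * algebraMap K₀ F₀ c) := by
  obtain ⟨G, hG, e⟩ := C.const_isPow hm hc
  refine ⟨G⁻¹, inv_ne_zero hG, ?_⟩
  rw [map_mul, e, inv_pow]
  field_simp

theorem Core3.Eqv.isPow {m : ℕ} {x y : F₀} (h : C.Eqv m x y) (hy : ∃ g : F, C.ι y = g ^ m) :
    ∃ g : F, C.ι x = g ^ m := by
  obtain ⟨G, -, e⟩ := h
  obtain ⟨g, hg⟩ := hy
  exact ⟨G * g, by rw [e, hg, _root_.mul_pow]⟩

theorem Core3.ND.W_ge₃ (X : C.ND) (n : ℕ) (x : F₀) : C.v₃.ge n (X.W x) ↔ C.v₁.ge n x := by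
  have := X.W_ge₁ n (X.W x)
  rw [X.W_W] at this
  exact this.symm

theorem Core3.ND.W_lead₃ (X : C.ND) (n : ℕ) (x : F₀) : C.v₃.lead n (X.W x) = C.v₁.lead n x := by
  have := X.W_lead₁ n (X.W x)
  rw [X.W_W] at this
  exact this.symm

theorem Core3.ND.W_mem_O (X : C.ND) {x : F₀} (hx : x ∈ C.R.O) : X.W x ∈ C.R.O := by
  rw [C.mem_O] at hx ⊢
  simp only [← DVal.ge_zero_iff] at hx ⊢
  exact ⟨(X.W_ge₁ 0 x).2 hx.2.2, X.W_ge₂ 0 x hx.2.1, (X.W_ge₃ 0 x).2 hx.1⟩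

theorem Core3.ND.NA_mem_O (X : C.ND) {x : F₀} (hx : x ∈ C.R.O) : X.NA x ∈ C.R.O := by
  have hx' := (C.mem_O x).1 hx
  simp only [← DVal.ge_zero_iff] at hx'
  rw [C.mem_O]
  refine ⟨?_, X.NA_mem₂ x hx, ?_⟩
  · exact (C.v₁.ge_zero_iff _).1 (X.NA_lead₁ 0 0 x hx'.1 hx'.2.1).1
  · have := (X.NA_lead₃ 0 x hx'.2.2).1
    rw [mul_zero] at this
    exact (C.v₃.ge_zero_iff _).1 this

theorem Core3.ND.NB_mem_O (X : C.ND) {x : F₀} (hx : x ∈ C.R.O) : X.NB x ∈ C.R.O :=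
  X.W_mem_O (X.NA_mem_O (X.W_mem_O hx))

theorem Core3.ND.NB_const (X : C.ND) (c : K₀) :
    X.NB (algebraMap K₀ F₀ c) = algebraMap K₀ F₀ (c ^ (C.e + 1)) := by
  rw [X.NB_apply, X.W_const, X.NA_const, X.W_const]

theorem Core3.ND.NB_lead₁ (X : C.ND) (a : ℕ) (x : F₀) (h : C.v₁.ge a x) :
    C.v₁.ge ((C.e + 1) * a) (X.NB x) ∧
      C.v₁.lead ((C.e + 1) * a) (X.NB x) = C.v₁.lead a x ^ (C.e + 1) := by
  obtain ⟨h1, h2⟩ := X.NA_lead₃ a (X.W x) ((X.W_ge₃ a x).2 h)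
  rw [X.NB_apply]
  exact ⟨(X.W_ge₁ _ _).2 h1, by rw [X.W_lead₁, h2, X.W_lead₃]⟩

theorem Core3.ND.NB_lead₃ (X : C.ND) (b c : ℕ) (x : F₀) (h₃ : C.v₃.ge b x) (h₂ : C.v₂.ge c x) :
    C.v₃.ge (b + c) (X.NB x) ∧
      C.v₃.lead (b + c) (X.NB x) =
        C.v₃.lead b x * ((-1) ^ c * C.v₂.lead c x) ^ C.e * X.ρ ^ c := by
  obtain ⟨h1, h2⟩ := X.NA_lead₁ b c (X.W x) ((X.W_ge₁ b x).2 h₃) (X.W_ge₂ c x h₂)
  rw [X.NB_apply]
  exact ⟨(X.W_ge₃ _ _).2 h1, by rw [X.W_lead₃, h2, X.W_lead₁, X.W_lead₂ c x h₂]⟩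

theorem Core3.ND.NB_U (X : C.ND) (n : ℕ) (x : F₀) (hx : x ∈ C.U 0 n 0) : ∃ n' : ℕ, X.NB x ∈ C.U 0 n' 0 := by
  obtain ⟨n₁, h1⟩ := X.W_U n x hx
  obtain ⟨n₂, h2⟩ := X.NA_U n₁ _ h1
  exact X.W_U n₂ _ h2

theorem Core3.ND.NewH.mul {X : C.ND} {m : ℕ} {x y : F₀} (hx : X.NewH m x) (hy : X.NewH m y) :
    X.NewH m (x * y) where
  ne := mul_ne_zero hx.ne hy.ne
  kum v := by
    rw [map_mul, v.ord_mul ((map_ne_zero C.ι).2 hx.ne) ((map_ne_zero C.ι).2 hy.ne)]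
    exact dvd_add (hx.kum v) (hy.kum v)
  powA := by
    obtain ⟨G, hG⟩ := hx.powA
    obtain ⟨G', hG'⟩ := hy.powA
    exact ⟨G * G', by rw [map_mul, map_mul, hG, hG', mul_pow]⟩
  powB := by
    obtain ⟨G, hG⟩ := hx.powB
    obtain ⟨G', hG'⟩ := hy.powB
    exact ⟨G * G', by rw [map_mul, map_mul, hG, hG', mul_pow]⟩

theorem Core3.ND.NewH.pow {X : C.ND} {m : ℕ} {x : F₀} (hx : X.NewH m x) (r : ℕ) : X.NewH m (x ^ r) where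
  ne := pow_ne_zero _ hx.ne
  kum v := by
    rw [map_pow, ma_ord_pow]
    exact Dvd.dvd.mul_left (hx.kum v) _
  powA := by
    obtain ⟨G, hG⟩ := hx.powA
    exact ⟨G ^ r, by rw [map_pow, map_pow, hG, ← pow_mul, ← pow_mul, mul_comm]⟩
  powB := by
    obtain ⟨G, hG⟩ := hx.powB
    exact ⟨G ^ r, by rw [map_pow, map_pow, hG, ← pow_mul, ← pow_mul, mul_comm]⟩

theorem Core3.ND.NewH.of_pow (X : C.ND) (m : ℕ) {h : F₀} (hh : h ≠ 0) : X.NewH m (h ^ m) where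
  ne := pow_ne_zero _ hh
  kum v := by
    rw [map_pow, ma_ord_pow]
    exact Dvd.intro _ rfl
  powA := ⟨C.ι (X.NA h), by rw [map_pow, map_pow]⟩
  powB := ⟨C.ι (X.NB h), by rw [map_pow, map_pow]⟩

theorem Core3.ND.NewH.const [IsAlgClosed K] (X : C.ND) {m : ℕ} (hm : 0 < m) {c : K₀}
    (hc : c ≠ 0) : X.NewH m (algebraMap K₀ F₀ c) where
  ne := (_root_.map_ne_zero _).2 hc
  kum v := by
    rw [C.hι, ord_algebraMap]
    exact dvd_zero _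
  powA := by
    obtain ⟨G, -, e⟩ := C.const_isPow hm (pow_ne_zero (C.e + 1) hc)
    exact ⟨G, by rw [X.NA_const, e]⟩
  powB := by
    obtain ⟨G, -, e⟩ := C.const_isPow hm (pow_ne_zero (C.e + 1) hc)
    exact ⟨G, by rw [X.NB_const, e]⟩

end NH

end Fermat.Agent.S36Lib
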