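import Fermat.Agent.S36.New.Defs
import Fermat.Agent.S36.New.IsV
import Fermat.Agent.S36.New.Const
import Fermat.Agent.S36.Core.DVal

/-!
# S36, block (NEW), abstract part, (S3): the nilpotent part
-/

set_option autoImplicit false

open AlgebraicCurve IntermediateField Polynomial Fermat.Agent.S24Lib Fermat.Agent.FFLib
  Fermat.Agent.S18Lib Fermat.Agent.S34Lib

namespace Fermat.Agent.S36Lib

variable {K₀ k : Type*} [Field K₀] [Field k] {A₀ : ValuationSubring K₀} {resK : A₀ →+* k}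
  {K F₀ F κ Φ : Type*} [Field K] [Field F₀] [Field F] [Field κ] [Algebra K₀ F₀] [Algebra K F]
  [Algebra k κ] [CommRing Φ] [Algebra k Φ] {C : Core3 A₀ resK K F₀ F κ Φ}

/-! ## (S3) `S36/New/Nilp.lean` : the nilpotent part -/
section S3

theorem S3_one_add_pow {S : Type*} [CommRing S] (t : S) (m : ℕ) :
    ∃ w : S, (1 + t) ^ m = 1 + m * t + t ^ 2 * w := by
  induction m with
  | zero => exact ⟨0, by simp⟩
  | succ m ih =>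
    obtain ⟨w, hw⟩ := ih
    refine ⟨m + w + t * w, ?_⟩
    rw [pow_succ, hw]
    push_cast
    ring

/-- in a commutative ring: `(1 + ε) (1 - c ε) ^ m = 1 + ε² w` if `m c = 1` -/
theorem exists_sq_mul {S : Type*} [CommRing S] (m : ℕ) (c ε : S) (hc : (m : S) * c = 1) :
    ∃ w : S, (1 + ε) * (1 - c * ε) ^ m = 1 + ε ^ 2 * w := by
  obtain ⟨w, hw⟩ := S3_one_add_pow (-(c * ε)) m
  refine ⟨-1 + c ^ 2 * w * (1 + ε), ?_⟩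
  rw [sub_eq_add_neg, hw]
  linear_combination (-(1 + ε) * ε) * hc

/-- `x ≡ 1` for one valuation -/
theorem DVal.S3_lead_eq_one_iff {F₀ κ : Type*} [Field F₀] [Field κ] (v : DVal F₀ κ) (x : F₀) :
    (x ∈ v.O ∧ v.lead 0 x = 1) ↔ v.ge 1 (x - 1) := by
  constructor
  · rintro ⟨hx, h1⟩
    have hx0 : v.ge 0 x := (v.ge_zero_iff x).2 hx
    have h10 : v.ge 0 1 := (v.ge_zero_iff 1).2 v.O.one_mem
    have h2 : v.lead 0 (x - 1) = 0 := by rw [v.lead_sub hx0 h10, h1, v.lead_one, sub_self]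
    exact (v.lead_eq_zero_iff (v.ge_sub hx0 h10)).1 h2
  · intro h
    have h0 : v.ge 0 (x - 1) := v.ge_succ h
    have h10 : v.ge 0 1 := (v.ge_zero_iff 1).2 v.O.one_mem
    have hx0 : v.ge 0 x := by
      have := v.ge_add h0 h10
      rwa [sub_add_cancel] at this
    refine ⟨(v.ge_zero_iff x).1 hx0, ?_⟩
    have h2 : v.lead 0 (x - 1) = 0 := (v.lead_eq_zero_iff h0).2 h
    rw [v.lead_sub hx0 h10, v.lead_one, sub_eq_zero] at h2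
    exact h2

/-- one step -/
theorem Core3.nilp_step (C : Core3 A₀ resK K F₀ F κ Φ) (hres : Function.Surjective resK) {m : ℕ}
    (hm : (m : k) ≠ 0) {z : F₀} {a : ℕ} (ha : 1 ≤ a) (h₁ : C.v₁.ge 1 (z - 1))
    (h₂ : C.v₂.ge a (z - 1)) (h₃ : C.v₃.ge 1 (z - 1)) :
    ∃ r : F₀, C.v₁.ge 1 (r - 1) ∧ C.v₂.ge 1 (r - 1) ∧ C.v₃.ge 1 (r - 1) ∧
      C.v₁.ge 1 (z * r ^ m - 1) ∧ C.v₂.ge (a + 1) (z * r ^ m - 1) ∧
      C.v₃.ge 1 (z * r ^ m - 1) := by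
  have hcA : ((m : K₀)⁻¹) ∈ A₀ := exists_inv_natCast hres hm
  have hm0 : (m : K₀) ≠ 0 := by
    intro h0
    apply hm
    have : resK ((m : ℕ) : A₀) = 0 := by
      have h1 : ((m : ℕ) : A₀) = 0 := Subtype.ext (by simpa using h0)
      rw [h1, map_zero]
    rwa [map_natCast] at this
  have hεO : z - 1 ∈ C.R.O := (C.mem_O _).2
    ⟨(C.v₁.ge_zero_iff _).1 (C.v₁.ge_mono (Nat.zero_le _) h₁),
      (C.v₂.ge_zero_iff _).1 (C.v₂.ge_mono (Nat.zero_le _) h₂),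
      (C.v₃.ge_zero_iff _).1 (C.v₃.ge_mono (Nat.zero_le _) h₃)⟩
  have hcO : algebraMap K₀ F₀ ((m : K₀)⁻¹) ∈ C.R.O := (C.R.algebraMap_mem_iff _).2 hcA
  obtain ⟨w, hw⟩ := exists_sq_mul (S := C.R.O) m ⟨_, hcO⟩ ⟨_, hεO⟩ (by
    apply Subtype.ext
    show ((m : ℕ) : F₀) * algebraMap K₀ F₀ ((m : K₀)⁻¹) = 1
    rw [← map_natCast (algebraMap K₀ F₀), ← map_mul, mul_inv_cancel₀ hm0, map_one])
  have hw' : (1 + (z - 1)) * (1 - algebraMap K₀ F₀ ((m : K₀)⁻¹) * (z - 1)) ^ m =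
      1 + (z - 1) ^ 2 * (w : F₀) := congrArg (fun y : C.R.O => (y : F₀)) hw
  have hwO := (C.mem_O _).1 w.2
  have hcO' := (C.mem_O _).1 hcO
  have e1 : (1 - algebraMap K₀ F₀ ((m : K₀)⁻¹) * (z - 1)) - 1 =
      -(algebraMap K₀ F₀ ((m : K₀)⁻¹) * (z - 1)) := by ring
  have e2 : z * (1 - algebraMap K₀ F₀ ((m : K₀)⁻¹) * (z - 1)) ^ m - 1 =
      (w : F₀) * ((z - 1) * (z - 1)) := by
    have h1 : (1 + (z - 1)) = z := by ring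
    rw [h1] at hw'
    rw [hw']
    ring
  refine ⟨1 - algebraMap K₀ F₀ ((m : K₀)⁻¹) * (z - 1), ?_, ?_, ?_, ?_, ?_, ?_⟩
  · rw [e1]
    exact C.v₁.ge_neg (C.v₁.ge_mul_left hcO'.1 h₁)
  · rw [e1]
    exact C.v₂.ge_neg (C.v₂.ge_mul_left hcO'.2.1 (C.v₂.ge_mono ha h₂))
  · rw [e1]
    exact C.v₃.ge_neg (C.v₃.ge_mul_left hcO'.2.2 h₃)
  · rw [e2]
    exact C.v₁.ge_mul_left hwO.1 (C.v₁.ge_mono (by omega) (C.v₁.ge_mul h₁ h₁))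
  · rw [e2]
    exact C.v₂.ge_mul_left hwO.2.1 (C.v₂.ge_mono (by omega) (C.v₂.ge_mul h₂ h₂))
  · rw [e2]
    exact C.v₃.ge_mul_left hwO.2.2 (C.v₃.ge_mono (by omega) (C.v₃.ge_mul h₃ h₃))

/-- `x ≡ 1` -/
theorem Core3.lead_eq_one_iff (C : Core3 A₀ resK K F₀ F κ Φ) (x : F₀) :
    (x ∈ C.R.O ∧ C.v₁.lead 0 x = 1 ∧ C.v₂.lead 0 x = 1 ∧ C.v₃.lead 0 x = 1) ↔
      (C.v₁.ge 1 (x - 1) ∧ C.v₂.ge 1 (x - 1) ∧ C.v₃.ge 1 (x - 1)) := by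
  rw [← C.v₁.S3_lead_eq_one_iff, ← C.v₂.S3_lead_eq_one_iff, ← C.v₃.S3_lead_eq_one_iff, C.mem_O]
  tauto

theorem Core3.S3_mul (C : Core3 A₀ resK K F₀ F κ Φ) {x y : F₀}
    (hx : C.v₁.ge 1 (x - 1) ∧ C.v₂.ge 1 (x - 1) ∧ C.v₃.ge 1 (x - 1))
    (hy : C.v₁.ge 1 (y - 1) ∧ C.v₂.ge 1 (y - 1) ∧ C.v₃.ge 1 (y - 1)) :
    C.v₁.ge 1 (x * y - 1) ∧ C.v₂.ge 1 (x * y - 1) ∧ C.v₃.ge 1 (x * y - 1) := by
  have hxO := (C.mem_O _).1 ((C.lead_eq_one_iff x).2 hx).1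
  have e : x * y - 1 = x * (y - 1) + (x - 1) := by ring
  rw [e]
  exact ⟨C.v₁.ge_add (C.v₁.ge_mul_left hxO.1 hy.1) hx.1,
    C.v₂.ge_add (C.v₂.ge_mul_left hxO.2.1 hy.2.1) hx.2.1,
    C.v₃.ge_add (C.v₃.ge_mul_left hxO.2.2 hy.2.2) hx.2.2⟩

theorem Core3.S3_iter (C : Core3 A₀ resK K F₀ F κ Φ) (hres : Function.Surjective resK)
    {m : ℕ} (hm : (m : k) ≠ 0) {z : F₀}
    (hz : C.v₁.ge 1 (z - 1) ∧ C.v₂.ge 1 (z - 1) ∧ C.v₃.ge 1 (z - 1)) (a : ℕ) :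
    ∃ r : F₀, (C.v₁.ge 1 (r - 1) ∧ C.v₂.ge 1 (r - 1) ∧ C.v₃.ge 1 (r - 1)) ∧
      C.v₁.ge 1 (z * r ^ m - 1) ∧ C.v₂.ge (a + 1) (z * r ^ m - 1) ∧
      C.v₃.ge 1 (z * r ^ m - 1) := by
  induction a with
  | zero =>
    refine ⟨1, ?_, ?_⟩
    · rw [sub_self]
      exact ⟨C.v₁.ge_zero' _, C.v₂.ge_zero' _, C.v₃.ge_zero' _⟩
    · rw [one_pow, mul_one]
      exact hz
  | succ a ih =>
    obtain ⟨r, hr, h₁, h₂, h₃⟩ := ih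
    obtain ⟨r', hr₁, hr₂, hr₃, g₁, g₂, g₃⟩ := C.nilp_step hres hm (Nat.succ_pos a) h₁ h₂ h₃
    refine ⟨r * r', C.S3_mul hr ⟨hr₁, hr₂, hr₃⟩, ?_⟩
    rw [mul_pow, ← mul_assoc]
    exact ⟨g₁, g₂, g₃⟩

theorem Core3.exists_red_one (C : Core3 A₀ resK K F₀ F κ Φ) (hres : Function.Surjective resK)
    {m : ℕ} (hm : (m : k) ≠ 0) {z : F₀} (hz : z ∈ C.R.O) (h₁ : C.v₁.lead 0 z = 1)
    (h₂ : C.v₂.lead 0 z = 1) (h₃ : C.v₃.lead 0 z = 1) :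
    ∃ r : F₀, r ∈ C.R.O ∧ C.v₁.lead 0 r = 1 ∧ C.v₂.lead 0 r = 1 ∧ C.v₃.lead 0 r = 1 ∧
      ∃ h : z * r ^ m ∈ C.R.O, C.R.red ⟨z * r ^ m, h⟩ = 1 := by
  obtain ⟨r, hr, g₁, g₂, g₃⟩ := C.S3_iter hres hm ((C.lead_eq_one_iff z).1 ⟨hz, h₁, h₂, h₃⟩) C.e
  obtain ⟨hrO, r₁, r₂, r₃⟩ := (C.lead_eq_one_iff r).2 hr
  have hO : z * r ^ m ∈ C.R.O := C.R.O.mul_mem hz (C.R.O.pow_mem hrO m)
  refine ⟨r, hrO, r₁, r₂, r₃, hO, ?_⟩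
  have h0 : C.R.red (⟨z * r ^ m, hO⟩ - 1) = 0 :=
    (C.red_eq_zero _).2 ⟨g₁, C.v₂.ge_mono (Nat.le_succ _) g₂, g₃⟩
  rw [map_sub, map_one, sub_eq_zero] at h0
  exact h0

end S3

end Fermat.Agent.S36Lib
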