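import Fermat.Agent.S36.New.Defs
import Fermat.Agent.S36.New.IsV
import Fermat.Agent.S36.New.Const
import Fermat.Agent.S36.New.NewH
import Fermat.Agent.S36.Core.DVal

/-!
# S36, block (NEW), abstract part, (RT): `m`-th roots
-/

set_option autoImplicit false

open AlgebraicCurve IntermediateField Polynomial Fermat.Agent.S24Lib Fermat.Agent.FFLib
  Fermat.Agent.S18Lib Fermat.Agent.S34Lib

namespace Fermat.Agent.S36Lib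

variable {K₀ k : Type*} [Field K₀] [Field k] {A₀ : ValuationSubring K₀} {resK : A₀ →+* k}
  {K F₀ F κ Φ : Type*} [Field K] [Field F₀] [Field F] [Field κ] [Algebra K₀ F₀] [Algebra K F]
  [Algebra k κ] [CommRing Φ] [Algebra k Φ] {C : Core3 A₀ resK K F₀ F κ Φ}

/-! ## (RT) `S36/New/Root.lean` : `m`-th roots -/
section RT

theorem DVal.RT_isV_zero_iff {F₀ κ : Type*} [Field F₀] [Field κ] (v : DVal F₀ κ) (x : F₀) :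
    v.IsV 0 x ↔ x ≠ 0 ∧ x ∈ v.O ∧ x⁻¹ ∈ v.O := by
  unfold DVal.IsV
  rw [neg_zero, zpow_zero, mul_one]

theorem Core3.ND.exists_root (X : C.ND) {m : ℕ} (hm : 0 < m) {x : F₀} (hx : x ≠ 0)
    (h : ∃ G : F, C.ι x = G ^ m) :
    ∃ (c : K₀) (G₁ : F₀), c ≠ 0 ∧ G₁ ≠ 0 ∧ x = algebraMap K₀ F₀ c * G₁ ^ m := by
  obtain ⟨G, hG⟩ := h
  obtain ⟨c, G₁, hc⟩ := X.root_desc m x G hm hx hG.symm
  have hιx : C.ι x ≠ 0 := (_root_.map_ne_zero C.ι).2 hx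
  have hG0 : G ≠ 0 := by
    rintro rfl
    rw [zero_pow hm.ne'] at hG
    exact hιx hG
  have hG₁ : G₁ ≠ 0 := by
    rintro rfl
    rw [map_zero, mul_zero] at hc
    exact hG0 hc
  have hιG₁ : C.ι G₁ ≠ 0 := (_root_.map_ne_zero C.ι).2 hG₁
  obtain ⟨c₀, hc₀⟩ := C.desc_const (x * (G₁ ^ m)⁻¹) (c ^ m) (by
    rw [map_mul, map_inv₀, map_pow, hG, hc, mul_pow, map_pow]
    field_simp)
  have hx' : x = algebraMap K₀ F₀ c₀ * G₁ ^ m := by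
    rw [← hc₀]
    field_simp
  refine ⟨c₀, G₁, ?_, hG₁, hx'⟩
  rintro rfl
  rw [map_zero, zero_mul] at hx'
  exact hx hx'

/-- the valuations of an `m`-th power of `F` -/
theorem Core3.ND.val_of_isPow (X : C.ND) {m : ℕ} (hm : 0 < m) {x : F₀} (hx : x ≠ 0)
    (h : ∃ G : F, C.ι x = G ^ m) {n₁ n₃ : ℤ} (h₁ : C.v₁.IsV n₁ x) (h₃ : C.v₃.IsV n₃ x) :
    (m : ℤ) ∣ n₁ - n₃ := by
  obtain ⟨c, G₁, hc, hG₁, rfl⟩ := X.exists_root hm hx h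
  obtain ⟨t, t₁, -, t₃⟩ := X.const_val hc
  obtain ⟨g₁, hg₁⟩ := X.val₁ G₁ hG₁
  obtain ⟨g₃, hg₃⟩ := X.val₃ G₁ hG₁
  have e₁ := h₁.unique (t₁.mul (hg₁.pow m))
  have e₃ := h₃.unique (t₃.mul (hg₃.pow m))
  exact ⟨g₁ - g₃, by rw [e₁, e₃]; ring⟩

theorem Core3.ND.exists_unit_root (X : C.ND) {m : ℕ} (hm : 0 < m) {x : F₀}
    (h : ∃ G : F, C.ι x = G ^ m) (h₁ : C.v₁.IsV 0 x) (h₂ : C.v₂.IsV 0 x) (h₃ : C.v₃.IsV 0 x) :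
    ∃ (u : K₀) (G : F₀), u ≠ 0 ∧ u ∈ A₀ ∧ u⁻¹ ∈ A₀ ∧ x = algebraMap K₀ F₀ u * G ^ m ∧
      C.v₁.IsV 0 G ∧ C.v₂.IsV 0 G ∧ C.v₃.IsV 0 G := by
  obtain ⟨c, G₁, hc, hG₁, hx⟩ := X.exists_root hm h₁.1 h
  obtain ⟨t, hu, hu'⟩ := X.unif c hc
  have hϖ := X.ϖ_ne
  have hu0 : c * X.ϖ ^ (-t) ≠ 0 := mul_ne_zero hc (zpow_ne_zero _ hϖ)
  obtain ⟨⟨u₁, u₂, u₃⟩, -⟩ := C.isV_unit_const hu0 hu hu'
  obtain ⟨g₁, hg₁⟩ := X.val₁ G₁ hG₁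
  have hce : c = c * X.ϖ ^ (-t) * X.ϖ ^ t := by
    rw [mul_assoc, ← zpow_add₀ hϖ, neg_add_cancel, zpow_zero, mul_one]
  -- `t = - m g₁`
  have ht : t = -(m * g₁) := by
    have e1 : C.v₁.IsV (0 + t * 1 + m * g₁) x := by
      rw [hx]
      refine DVal.IsV.mul ?_ (hg₁.pow m)
      rw [hce, map_mul, map_zpow₀]
      exact u₁.mul (X.isV_ϖ.1.zpow t)
    have := h₁.unique e1
    omega
  have hAϖ : algebraMap K₀ F₀ X.ϖ ≠ 0 := (_root_.map_ne_zero _).2 hϖ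
  have hxe : x = algebraMap K₀ F₀ (c * X.ϖ ^ (-t)) * (G₁ * algebraMap K₀ F₀ X.ϖ ^ (-g₁)) ^ m := by
    rw [hx]
    conv_lhs => rw [hce]
    rw [map_mul, map_zpow₀ _ _ t, mul_pow, ← zpow_natCast (algebraMap K₀ F₀ X.ϖ ^ (-g₁)) m,
      ← zpow_mul, ht]
    have : -g₁ * (m : ℤ) = -(m * g₁) := by ring
    rw [this]
    ring
  have hAu : algebraMap K₀ F₀ (c * X.ϖ ^ (-t)) ≠ 0 := (_root_.map_ne_zero _).2 hu0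
  have hGm : (G₁ * algebraMap K₀ F₀ X.ϖ ^ (-g₁)) ^ m =
      x * (algebraMap K₀ F₀ (c * X.ϖ ^ (-t)))⁻¹ := by
    rw [eq_mul_inv_iff_mul_eq₀ hAu, mul_comm]
    exact hxe.symm
  refine ⟨c * X.ϖ ^ (-t), G₁ * algebraMap K₀ F₀ X.ϖ ^ (-g₁), hu0, hu, hu', hxe, ?_, ?_, ?_⟩
  · apply DVal.IsV.of_pow X.val₁ hm
    rw [hGm]
    have := h₁.mul u₁.inv
    simpa using this
  · apply DVal.IsV.of_pow X.val₂ hm
    rw [hGm]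
    have := h₂.mul u₂.inv
    simpa using this
  · apply DVal.IsV.of_pow X.val₃ hm
    rw [hGm]
    have := h₃.mul u₃.inv
    simpa using this

/-- the reductions of an `m`-th power of `F` are `m`-th powers -/
theorem Core3.ND.lead_isPow (X : C.ND) [IsAlgClosed k] {m : ℕ} (hm : 0 < m) {x : F₀}
    (h : ∃ G : F, C.ι x = G ^ m) (h₁ : C.v₁.IsV 0 x) (h₂ : C.v₂.IsV 0 x) (h₃ : C.v₃.IsV 0 x) :
    (∃ ψ : κ, C.v₁.lead 0 x = ψ ^ m) ∧ (∃ ψ : κ, C.v₃.lead 0 x = ψ ^ m) := by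
  obtain ⟨u, G, hu0, hu, hu', rfl, g₁, g₂, g₃⟩ := X.exists_unit_root hm h h₁ h₂ h₃
  obtain ⟨⟨u₁, u₂, u₃⟩, l₁, l₂, l₃, -⟩ := C.isV_unit_const hu0 hu hu'
  obtain ⟨d, hd⟩ := IsAlgClosed.exists_pow_nat_eq (resK ⟨u, hu⟩) hm
  constructor
  · refine ⟨algebraMap k κ d * C.v₁.lead 0 G, ?_⟩
    have a1 : C.v₁.ge 0 (algebraMap K₀ F₀ u) := u₁.ge le_rfl
    have a2 : C.v₁.ge 0 G := g₁.ge le_rfl
    have a3 := C.v₁.lead_mul a1 (C.v₁.ge_pow a2 m)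
    rw [C.v₁.lead_pow a2 m, mul_zero, add_zero] at a3
    rw [a3, l₁, mul_pow, ← map_pow, hd]
  · refine ⟨algebraMap k κ d * C.v₃.lead 0 G, ?_⟩
    have a1 : C.v₃.ge 0 (algebraMap K₀ F₀ u) := u₃.ge le_rfl
    have a2 : C.v₃.ge 0 G := g₃.ge le_rfl
    have a3 := C.v₃.lead_mul a1 (C.v₃.ge_pow a2 m)
    rw [C.v₃.lead_pow a2 m, mul_zero, add_zero] at a3
    rw [a3, l₃, mul_pow, ← map_pow, hd]

theorem Core3.RT_isV_of_mem (C : Core3 A₀ resK K F₀ F κ Φ) {y y' : F₀} (hy : y ∈ C.R.O)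
    (hy' : y' ∈ C.R.O) (h : y * y' = 1) :
    C.v₁.IsV 0 y ∧ C.v₂.IsV 0 y ∧ C.v₃.IsV 0 y := by
  have hy0 : y ≠ 0 := left_ne_zero_of_mul_eq_one h
  have e : y⁻¹ = y' := (eq_inv_of_mul_eq_one_right h).symm
  have a := (C.mem_O y).1 hy
  have a' := (C.mem_O y').1 hy'
  simp only [DVal.RT_isV_zero_iff, e]
  exact ⟨⟨hy0, a.1, a'.1⟩, ⟨hy0, a.2.1, a'.2.1⟩, ⟨hy0, a.2.2, a'.2.2⟩⟩

theorem Core3.RT_mem_of_isV (C : Core3 A₀ resK K F₀ F κ Φ) {x : F₀} (h₁ : C.v₁.IsV 0 x)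
    (h₂ : C.v₂.IsV 0 x) (h₃ : C.v₃.IsV 0 x) : x ∈ C.R.O ∧ x⁻¹ ∈ C.R.O := by
  rw [DVal.RT_isV_zero_iff] at h₁ h₂ h₃
  exact ⟨(C.mem_O _).2 ⟨h₁.2.1, h₂.2.1, h₃.2.1⟩, (C.mem_O _).2 ⟨h₁.2.2, h₂.2.2, h₃.2.2⟩⟩

/-- `NA`, `NB` of a unit are units -/
theorem Core3.ND.isV_NA (X : C.ND) {x : F₀} (h₁ : C.v₁.IsV 0 x) (h₂ : C.v₂.IsV 0 x) (h₃ : C.v₃.IsV 0 x) :
    C.v₁.IsV 0 (X.NA x) ∧ C.v₂.IsV 0 (X.NA x) ∧ C.v₃.IsV 0 (X.NA x) := by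
  obtain ⟨a, a'⟩ := C.RT_mem_of_isV h₁ h₂ h₃
  exact C.RT_isV_of_mem (X.NA_mem_O a) (X.NA_mem_O a')
    (by rw [← map_mul, mul_inv_cancel₀ h₁.1, map_one])

theorem Core3.ND.isV_NB (X : C.ND) {x : F₀} (h₁ : C.v₁.IsV 0 x) (h₂ : C.v₂.IsV 0 x) (h₃ : C.v₃.IsV 0 x) :
    C.v₁.IsV 0 (X.NB x) ∧ C.v₂.IsV 0 (X.NB x) ∧ C.v₃.IsV 0 (X.NB x) := by
  obtain ⟨a, a'⟩ := C.RT_mem_of_isV h₁ h₂ h₃
  exact C.RT_isV_of_mem (X.NB_mem_O a) (X.NB_mem_O a')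
    (by rw [← map_mul, mul_inv_cancel₀ h₁.1, map_one])

end RT

end Fermat.Agent.S36Lib
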