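import Fermat.Agent.S36.New.Defs
import Fermat.Agent.S36.New.IsV
import Fermat.Agent.S36.New.Const
import Fermat.Agent.S36.New.NewH
import Fermat.Agent.S36.New.Root
import Fermat.Agent.S36.Core.DVal

/-!
# S36, block (NEW), abstract part, (S2): the reductions are killed by `q - 1 = e`
-/

set_option autoImplicit false

open AlgebraicCurve IntermediateField Polynomial Fermat.Agent.S24Lib Fermat.Agent.FFLib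
  Fermat.Agent.S18Lib Fermat.Agent.S34Lib

namespace Fermat.Agent.S36Lib

variable {K₀ k : Type*} [Field K₀] [Field k] {A₀ : ValuationSubring K₀} {resK : A₀ →+* k}
  {K F₀ F κ Φ : Type*} [Field K] [Field F₀] [Field F] [Field κ] [Algebra K₀ F₀] [Algebra K F]
  [Algebra k κ] [CommRing Φ] [Algebra k Φ] {C : Core3 A₀ resK K F₀ F κ Φ}

/-! ## (S2) `S36/New/Red.lean` : the reductions are killed by `q - 1 = e` -/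
section S2

/-- in a field: `a ^ q` an `m`-th power, `(q, m) = 1` ⟹ `a` is an `m`-th power -/
theorem isPow_of_pow_coprime {L : Type*} [Field L] {q m : ℕ} (hm : 0 < m) (h : Nat.Coprime q m) {a : L}
    (ha : ∃ ψ : L, a ^ q = ψ ^ m) : ∃ ψ : L, a = ψ ^ m := by
  rcases eq_or_ne a 0 with rfl | ha0
  · exact ⟨0, (zero_pow hm.ne').symm⟩
  obtain ⟨ψ, hψ⟩ := ha
  obtain ⟨u, v, huv⟩ := (Nat.isCoprime_iff_coprime.2 h)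
  refine ⟨ψ ^ u * a ^ v, ?_⟩
  have e1 : a = a ^ (u * (q : ℤ) + v * (m : ℤ)) := by rw [huv, zpow_one]
  rw [mul_pow, ← zpow_natCast (ψ ^ u) m, ← zpow_natCast (a ^ v) m, ← zpow_mul, ← zpow_mul,
    mul_comm u (m : ℤ), zpow_mul, zpow_natCast, ← hψ, ← zpow_natCast a q, ← zpow_mul,
    ← zpow_add₀ ha0, mul_comm (q : ℤ) u]
  exact e1

theorem Core3.ND.leads_isPow (X : C.ND) [IsAlgClosed k] {m : ℕ} (hm : 0 < m)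
    (hcop : Nat.Coprime (C.e + 1) m) {y : F₀} (hy : X.NewH m y) (h₁ : C.v₁.IsV 0 y)
    (h₂ : C.v₂.IsV 0 y) (h₃ : C.v₃.IsV 0 y) :
    (∃ ψ : κ, C.v₁.lead 0 y = ψ ^ m) ∧ (∃ ψ : κ, C.v₂.lead 0 y ^ C.e = ψ ^ m) ∧
      (∃ ψ : κ, C.v₃.lead 0 y = ψ ^ m) := by
  have g₁ : C.v₁.ge 0 y := h₁.ge le_rfl
  have g₂ : C.v₂.ge 0 y := h₂.ge le_rfl
  have g₃ : C.v₃.ge 0 y := h₃.ge le_rfl
  obtain ⟨a₁, a₂, a₃⟩ := X.isV_NA h₁ h₂ h₃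
  obtain ⟨b₁, b₂, b₃⟩ := X.isV_NB h₁ h₂ h₃
  obtain ⟨⟨ψA₁, hA₁⟩, ⟨ψA₃, hA₃⟩⟩ := X.lead_isPow hm hy.powA a₁ a₂ a₃
  obtain ⟨⟨ψB₁, hB₁⟩, -⟩ := X.lead_isPow hm hy.powB b₁ b₂ b₃
  have eA₁ := (X.NA_lead₁ 0 0 y g₁ g₂).2
  have eA₃ := (X.NA_lead₃ 0 y g₃).2
  have eB₁ := (X.NB_lead₁ 0 y g₁).2
  rw [add_zero, pow_zero, mul_one, hA₁] at eA₁
  rw [mul_zero, hA₃] at eA₃
  rw [mul_zero, hB₁] at eB₁
  obtain ⟨ψ₁, hψ₁⟩ := isPow_of_pow_coprime hm hcop ⟨ψB₁, eB₁.symm⟩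
  obtain ⟨ψ₃, hψ₃⟩ := isPow_of_pow_coprime hm hcop ⟨ψA₃, eA₃.symm⟩
  have hl₁ : C.v₁.lead 0 y ≠ 0 := DVal.IsV.lead_ne_zero (n := 0) h₁
  have hψ₁0 : ψ₁ ≠ 0 := by
    rintro rfl
    rw [zero_pow hm.ne'] at hψ₁
    exact hl₁ hψ₁
  refine ⟨⟨ψ₁, hψ₁⟩, ⟨ψA₁ * ψ₁⁻¹, ?_⟩, ⟨ψ₃, hψ₃⟩⟩
  rw [mul_pow, eA₁, hψ₁, inv_pow]
  field_simp

theorem Core3.ND.exists_lead_one (X : C.ND) [IsAlgClosed k] {m : ℕ} (hm : 0 < m)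
    (hcop : Nat.Coprime (C.e + 1) m) {y : F₀} (hy : X.NewH m y) (h₁ : C.v₁.IsV 0 y)
    (h₂ : C.v₂.IsV 0 y) (h₃ : C.v₃.IsV 0 y) :
    ∃ z : F₀, X.NewH m z ∧ C.Eqv m (y ^ C.e) z ∧ z ∈ C.R.O ∧ C.v₁.lead 0 z = 1 ∧
      C.v₂.lead 0 z = 1 ∧ C.v₃.lead 0 z = 1 := by
  have g₁ : C.v₁.ge 0 y := h₁.ge le_rfl
  have g₂ : C.v₂.ge 0 y := h₂.ge le_rfl
  have g₃ : C.v₃.ge 0 y := h₃.ge le_rfl
  have hl₁ : C.v₁.lead 0 y ≠ 0 := DVal.IsV.lead_ne_zero (n := 0) h₁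
  have hl₂ : C.v₂.lead 0 y ≠ 0 := DVal.IsV.lead_ne_zero (n := 0) h₂
  have hl₃ : C.v₃.lead 0 y ≠ 0 := DVal.IsV.lead_ne_zero (n := 0) h₃
  obtain ⟨⟨ψ₁, hψ₁⟩, ⟨ψ₂, hψ₂⟩, ⟨ψ₃, hψ₃⟩⟩ := X.leads_isPow hm hcop hy h₁ h₂ h₃
  obtain ⟨h, hO, e₁, e₂, e₃⟩ := X.wa ((ψ₁ ^ C.e)⁻¹) ψ₂⁻¹ ((ψ₃ ^ C.e)⁻¹)
  have hψ₁0 : ψ₁ ≠ 0 := by
    rintro rfl
    rw [zero_pow hm.ne'] at hψ₁
    exact hl₁ hψ₁
  have hψ₂0 : ψ₂ ≠ 0 := by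
    rintro rfl
    rw [zero_pow hm.ne'] at hψ₂
    exact pow_ne_zero _ hl₂ hψ₂
  have hψ₃0 : ψ₃ ≠ 0 := by
    rintro rfl
    rw [zero_pow hm.ne'] at hψ₃
    exact hl₃ hψ₃
  have hO' := (C.mem_O h).1 hO
  have k₁ : C.v₁.ge 0 h := (C.v₁.ge_zero_iff h).2 hO'.1
  have k₂ : C.v₂.ge 0 h := (C.v₂.ge_zero_iff h).2 hO'.2.1
  have k₃ : C.v₃.ge 0 h := (C.v₃.ge_zero_iff h).2 hO'.2.2
  have hh0 : h ≠ 0 := by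
    rintro rfl
    have : C.v₂.lead 0 0 = 0 := by
      rw [C.v₂.lead_zero_eq C.v₂.O.zero_mem]
      exact map_zero C.v₂.red
    rw [this] at e₂
    exact inv_ne_zero hψ₂0 e₂.symm
  have hyO : y ∈ C.R.O := (C.RT_mem_of_isV h₁ h₂ h₃).1
  refine ⟨y ^ C.e * h ^ m, (hy.pow C.e).mul (Core3.ND.NewH.of_pow X m hh0),
    Core3.Eqv.mul_pow C m _ hh0, C.R.O.mul_mem (C.R.O.pow_mem hyO _) (C.R.O.pow_mem hO _),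
    ?_, ?_, ?_⟩
  · have a := C.v₁.lead_mul (C.v₁.ge_pow g₁ C.e) (C.v₁.ge_pow k₁ m)
    rw [C.v₁.lead_pow g₁, C.v₁.lead_pow k₁, mul_zero, mul_zero, add_zero] at a
    rw [a, e₁, hψ₁, ← pow_mul, inv_pow, ← pow_mul, mul_comm m C.e,
      mul_inv_cancel₀ (pow_ne_zero _ hψ₁0)]
  · have a := C.v₂.lead_mul (C.v₂.ge_pow g₂ C.e) (C.v₂.ge_pow k₂ m)
    rw [C.v₂.lead_pow g₂, C.v₂.lead_pow k₂, mul_zero, mul_zero, add_zero] at a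
    rw [a, e₂, hψ₂, ← mul_pow, mul_inv_cancel₀ hψ₂0, one_pow]
  · have a := C.v₃.lead_mul (C.v₃.ge_pow g₃ C.e) (C.v₃.ge_pow k₃ m)
    rw [C.v₃.lead_pow g₃, C.v₃.lead_pow k₃, mul_zero, mul_zero, add_zero] at a
    rw [a, e₃, hψ₃, ← pow_mul, inv_pow, ← pow_mul, mul_comm m C.e,
      mul_inv_cancel₀ (pow_ne_zero _ hψ₃0)]

end S2

end Fermat.Agent.S36Lib
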