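import Fermat.Agent.S36.New.Defs
import Fermat.Agent.S36.New.IsV
import Fermat.Agent.S36.New.Const
import Fermat.Agent.S36.New.NewH
import Fermat.Agent.S36.New.Root
import Fermat.Agent.S36.New.Glue
import Fermat.Agent.S36.Core.Chain
import Fermat.Agent.S36.Core.Count

/-!
# S36, block (NEW), (CP): the gluing constants
-/

set_option autoImplicit false

open AlgebraicCurve IntermediateField Polynomial Fermat.Agent.S24Lib Fermat.Agent.FFLib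
  Fermat.Agent.S18Lib Fermat.Agent.S34Lib

namespace Fermat.Agent.S36Lib

variable {K₀ k : Type*} [Field K₀] [Field k] {A₀ : ValuationSubring K₀} {resK : A₀ →+* k}
  {K F₀ F κ Φ : Type*} [Field K] [Field F₀] [Field F] [Field κ] [Algebra K₀ F₀] [Algebra K F]
  [Algebra k κ] [CommRing Φ] [Algebra k Φ] {C : Core3 A₀ resK K F₀ F κ Φ}

/-! ## (CP) `S36/New/Rel.lean` : the gluing constants -/
section CP

/-- a section with `v₁`-reduction `1` -/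
theorem Core3.exists_section [IsAlgClosed K] [IsAlgClosed k] (C : Core3 A₀ resK K F₀ F κ Φ)
    (hF : IsFF K F) (hκ : IsFF k κ) (hres : Function.Surjective resK) {m : ℕ} {f : C.R.O}
    {D : Divisor K F} (hT : C.IsTw m f D) :
    ∃ (n : ℕ) (s : F₀), s ∈ C.U D n 0 ∧ s ∈ C.R.O ∧ C.v₁.lead 0 s = 1 := by
  obtain ⟨n₀, h⟩ := C.tight hF hκ hres
  have h1 : (1 : κ) ∈ riemannRochSpace (C.E 0 n₀ 0) := by
    have e : C.E 0 n₀ 0 = EE k C.x₁ n₀ 0 12 0 := by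
      simp [Core3.E, Core3.y, Core3.NN, Core3.WW]
    rw [e, mem_L_EE_iff (by norm_num)]
    right
    intro P
    rw [P.ord_one]
    have := maE_nonneg hκ C.x₁ n₀ 0 P
    simp only [Finsupp.coe_zero, Pi.zero_apply, Nat.cast_ofNat, zero_add]
    omega
  obtain ⟨s, hs, hsF, hs1⟩ := (h hT n₀ 0 (by omega)).1 0 (by omega) 1 h1
  exact ⟨n₀, s, hs, (C.Fge_zero_iff s).1 hsF, by rw [← C.FL_ld_zero]; exact hs1⟩

/-- an `m`-th root of a function with poles at the poles of `x` only -/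
theorem Core3.mem_U_of_pow_mem [IsAlgClosed K] (C : Core3 A₀ resK K F₀ F κ Φ) (hF : IsFF K F)
    {m : ℕ} (hm : 0 < m) {n : ℕ} {b : F₀} {u : K₀} (hu : u ≠ 0)
    (h : algebraMap K₀ F₀ u * b ^ m ∈ C.U 0 n 0) : b ∈ C.U 0 n 0 := by
  rw [Core3.mem_U, mem_L_iff] at h ⊢
  intro P
  by_cases hb : b = 0
  · left; rw [hb, map_zero]
  have hb' : C.ι b ≠ 0 := (map_ne_zero C.ι).2 hb
  have hu' : algebraMap K F (C.j u) ≠ 0 := by
    rw [← C.hι]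
    exact (map_ne_zero C.ι).2 ((map_ne_zero (algebraMap K₀ F₀)).2 hu)
  right
  have h1 := h P
  rw [map_mul, map_pow, C.hι] at h1
  rcases h1 with h1 | h1
  · exact absurd h1 (mul_ne_zero hu' (pow_ne_zero _ hb'))
  rw [P.ord_mul hu' (pow_ne_zero _ hb'), ord_algebraMap, zero_add, ma_ord_pow] at h1
  rw [add_zero] at h1 ⊢
  have h2 := maE_nonneg hF (C.ι C.x) n 0 P
  by_contra hlt
  rw [not_le] at hlt
  have hm' : (1 : ℤ) ≤ m := by exact_mod_cast hm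
  have h3 : (m : ℤ) * P.ord (C.ι b) ≤ 1 * P.ord (C.ι b) :=
    mul_le_mul_of_nonpos_right hm' (by omega)
  omega

/-- the gluing constants are `m`-th roots of unity -/
theorem Core3.ND.values_pow (X : C.ND) [IsAlgClosed K] [IsAlgClosed k] (hF : IsFF K F) (hκ : IsFF k κ)
    {m : ℕ} {f : C.R.O} {D : Divisor K F} (hT : C.IsTw m f D) {n : ℕ} {s : F₀}
    (hs : s ∈ C.U D n 0) (hsO : s ∈ C.R.O) (hs1 : C.v₁.lead 0 s = 1) {P : Place k κ}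
    (hP : C.Z P ≠ 0) :
    evP P (C.v₂.lead 0 s) ^ m = 1 ∧ evP P (C.v₃.lead 0 s) ^ m = 1 := by
  obtain ⟨g1, g2, g3⟩ := C.GL_ge0 hsO
  have hf := C.TB_f hT
  have hb : s ^ m * (f : F₀) ∈ C.U 0 (m * n) 0 := by
    have := C.pow_mul_mem_U hF hT hs
    rwa [mul_zero] at this
  have hbO : s ^ m * (f : F₀) ∈ C.R.O := C.R.O.mul_mem (C.R.O.pow_mem hsO m) f.2
  obtain ⟨e2, e3⟩ := X.glue hF hκ hb hbO hP
  have l1 := (TB_pow_mul C.v₁ hf.1 m 0 g1).2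
  have l2 := (TB_pow_mul C.v₂ hf.2.1 m 0 g2).2
  have l3 := (TB_pow_mul C.v₃ hf.2.2 m 0 g3).2
  rw [mul_zero] at l1 l2 l3
  obtain ⟨r1, r2, r3⟩ := C.lead_regular hF hκ hT hs hsO hP
  rw [l1, l2, hs1, one_pow, evP_pow hκ P r2] at e2
  rw [l1, l3, hs1, one_pow, evP_pow hκ P r3] at e3
  have h1 : evP P (1 : κ) = 1 := by
    have := evP_algebraMap (Ft := κ) P (1 : k)
    rwa [map_one] at this
  rw [h1] at e2 e3
  exact ⟨e2, e3⟩

theorem Core3.ND.CP_isV_f (X : C.ND) {m : ℕ} {f : C.R.O} {D : Divisor K F} (hT : C.IsTw m f D) :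
    C.v₁.IsV 0 (f : F₀) ∧ C.v₂.IsV 0 (f : F₀) ∧ C.v₃.IsV 0 (f : F₀) := by
  obtain ⟨l1, l2, l3⟩ := C.lead_f hT
  refine ⟨?_, ?_, ?_⟩
  · have := DVal.isV_of_lead_ne_zero X.val₁ (n := 0) (x := (f : F₀)) (by rw [l1]; exact one_ne_zero)
    simpa using this
  · have := DVal.isV_of_lead_ne_zero X.val₂ (n := 0) (x := (f : F₀)) (by rw [l2]; exact one_ne_zero)
    simpa using this
  · have := DVal.isV_of_lead_ne_zero X.val₃ (n := 0) (x := (f : F₀)) (by rw [l3]; exact one_ne_zero)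
    simpa using this

/-- a constant `m`-th root -/
theorem CP_const_root [IsAlgClosed k] {m : ℕ} (hm : 0 < m) {g : κ} {a : k}
    (h : algebraMap k κ a * g ^ m = 1) : ∃ c : k, c ≠ 0 ∧ g = algebraMap k κ c := by
  have h1 : g ^ m = algebraMap k κ a⁻¹ := by
    rw [map_inv₀]
    exact eq_inv_of_mul_eq_one_right h
  obtain ⟨c, hc⟩ := mem_range_of_pow_mem_range hm h1
  refine ⟨c, ?_, hc⟩
  rintro rfl
  rw [map_zero] at hc
  rw [hc, zero_pow hm.ne', mul_zero] at h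
  exact zero_ne_one h

/-- the common part of the two relations -/
theorem Core3.ND.CP_rel (X : C.ND) [IsAlgClosed K] [IsAlgClosed k] (hF : IsFF K F) (hκ : IsFF k κ)
    {m : ℕ} {f : C.R.O} {D : Divisor K F} (hT : C.IsTw m f D) {n : ℕ}
    {s : F₀} (hs : s ∈ C.U D n 0) (Nm : F₀ →* F₀)
    (hpow : ∃ G : F, C.ι (Nm (f : F₀)) = G ^ m)
    (hV : C.v₁.IsV 0 (Nm (f : F₀)) ∧ C.v₂.IsV 0 (Nm (f : F₀)) ∧ C.v₃.IsV 0 (Nm (f : F₀)))
    (hU : ∀ (n : ℕ) (x : F₀), x ∈ C.U 0 n 0 → ∃ n' : ℕ, Nm x ∈ C.U 0 n' 0)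
    (hO : Nm s ∈ C.R.O) (hf1 : C.v₁.lead 0 (Nm (f : F₀)) = 1)
    (hf3 : C.v₃.lead 0 (Nm (f : F₀)) = 1) :
    ∃ c₁ c₃ : k, c₁ ≠ 0 ∧ c₃ ≠ 0 ∧ ∀ P : Place k κ, C.Z P ≠ 0 →
      evP P (C.v₃.lead 0 (Nm s) * algebraMap k κ c₃) =
        evP P (C.v₁.lead 0 (Nm s) * algebraMap k κ c₁) := by
  have hm0 : 0 < m := UU_m_pos hT.m_ne
  obtain ⟨u, G, hu0, hu, hu', hfG, G1, G2, G3⟩ := X.exists_unit_root hm0 hpow hV.1 hV.2.1 hV.2.2
  obtain ⟨⟨U1, U2, U3⟩, lu1, lu2, lu3, hru⟩ := C.isV_unit_const hu0 hu hu'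
  have hGO : G ∈ C.R.O := by
    rw [C.mem_O]
    exact ⟨G1.mem_O le_rfl, G2.mem_O le_rfl, G3.mem_O le_rfl⟩
  obtain ⟨gG1, gG2, gG3⟩ := C.GL_ge0 hGO
  obtain ⟨gN1, gN2, gN3⟩ := C.GL_ge0 hO
  have hb : s ^ m * (f : F₀) ∈ C.U 0 (m * n) 0 := by
    have := C.pow_mul_mem_U hF hT hs
    rwa [mul_zero] at this
  obtain ⟨n', hn'⟩ := hU _ _ hb
  have hbU : Nm s * G ∈ C.U 0 n' 0 := by
    apply C.mem_U_of_pow_mem hF hm0 hu0
    have : algebraMap K₀ F₀ u * (Nm s * G) ^ m = Nm (s ^ m * (f : F₀)) := by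
      rw [map_mul, map_pow, hfG]; ring
    rw [this]
    exact hn'
  have hbO : Nm s * G ∈ C.R.O := C.R.O.mul_mem hO hGO
  -- the leads of `G` are constants
  have gu1 : C.v₁.ge 0 (algebraMap K₀ F₀ u) := (C.v₁.ge_zero_iff _).2 (U1.mem_O le_rfl)
  have gu3 : C.v₃.ge 0 (algebraMap K₀ F₀ u) := (C.v₃.ge_zero_iff _).2 (U3.mem_O le_rfl)
  have k1 : algebraMap k κ (resK ⟨u, hu⟩) * C.v₁.lead 0 G ^ m = 1 := by
    have a1 := C.v₁.lead_mul gu1 (C.v₁.ge_pow gG1 m)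
    have a2 := C.v₁.lead_pow gG1 m
    rw [mul_zero] at a1 a2
    rw [add_zero, ← hfG, hf1, lu1, a2] at a1
    exact a1.symm
  have k3 : algebraMap k κ (resK ⟨u, hu⟩) * C.v₃.lead 0 G ^ m = 1 := by
    have a1 := C.v₃.lead_mul gu3 (C.v₃.ge_pow gG3 m)
    have a2 := C.v₃.lead_pow gG3 m
    rw [mul_zero] at a1 a2
    rw [add_zero, ← hfG, hf3, lu3, a2] at a1
    exact a1.symm
  obtain ⟨c₁, hc₁, e₁⟩ := CP_const_root hm0 k1
  obtain ⟨c₃, hc₃, e₃⟩ := CP_const_root hm0 k3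
  refine ⟨c₁, c₃, hc₁, hc₃, fun P hP => ?_⟩
  obtain ⟨-, e3⟩ := X.glue hF hκ hbU hbO hP
  have m1 := C.v₁.lead_mul gN1 gG1
  have m3 := C.v₃.lead_mul gN3 gG3
  rw [add_zero] at m1 m3
  rw [m1, m3, e₁, e₃] at e3
  exact e3

theorem CP_evP_mul_const [IsAlgClosed k] (hκ : IsFF k κ) (P : Place k κ) {a : κ}
    (ha : D2_ge P 0 a) (c : k) : evP P (a * algebraMap k κ c) = evP P a * c := by
  rw [evP_mul hκ P ha (Or.inr (ord_algebraMap P _).ge), evP_algebraMap]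

/-- the relation coming from `NA` -/
theorem Core3.ND.relA (X : C.ND) [IsAlgClosed K] [IsAlgClosed k] (hF : IsFF K F) (hκ : IsFF k κ)
    {m : ℕ} {f : C.R.O} {D : Divisor K F} (hT : C.IsTw m f D) (hN : X.NewH m (f : F₀)) {n : ℕ}
    {s : F₀} (hs : s ∈ C.U D n 0) (hsO : s ∈ C.R.O) (hs1 : C.v₁.lead 0 s = 1) :
    ∃ θ : k, θ ≠ 0 ∧ ∀ P : Place k κ, C.Z P ≠ 0 →
      evP P (C.v₂.lead 0 s) ^ C.e = θ * evP P (C.v₃.lead 0 s) ^ (C.e + 1) := by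
  obtain ⟨V1, V2, V3⟩ := X.CP_isV_f hT
  obtain ⟨l1, l2, l3⟩ := C.lead_f hT
  obtain ⟨f1, f2, f3⟩ := C.GL_ge0 f.2
  obtain ⟨g1, g2, g3⟩ := C.GL_ge0 hsO
  have hf1 : C.v₁.lead 0 (X.NA (f : F₀)) = 1 := by
    have := (X.NA_lead₁ 0 0 _ f1 f2).2
    rwa [add_zero, l1, l2, one_pow, pow_zero, mul_one, mul_one] at this
  have hf3 : C.v₃.lead 0 (X.NA (f : F₀)) = 1 := by
    have := (X.NA_lead₃ 0 _ f3).2
    rwa [mul_zero, l3, one_pow] at this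
  have hs1' : C.v₁.lead 0 (X.NA s) = C.v₂.lead 0 s ^ C.e := by
    have := (X.NA_lead₁ 0 0 _ g1 g2).2
    rwa [add_zero, hs1, pow_zero, mul_one, one_mul] at this
  have hs3' : C.v₃.lead 0 (X.NA s) = C.v₃.lead 0 s ^ (C.e + 1) := by
    have := (X.NA_lead₃ 0 _ g3).2
    rwa [mul_zero] at this
  obtain ⟨c₁, c₃, hc₁, hc₃, h⟩ := X.CP_rel hF hκ hT hs X.NA hN.powA (X.isV_NA V1 V2 V3) X.NA_U
    (X.NA_mem_O hsO) hf1 hf3
  refine ⟨c₃ / c₁, div_ne_zero hc₃ hc₁, fun P hP => ?_⟩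
  obtain ⟨r1, r2, r3⟩ := C.lead_regular hF hκ hT hs hsO hP
  have h1 := h P hP
  rw [hs1', hs3', CP_evP_mul_const hκ P (ev_ge_pow P r3 _), CP_evP_mul_const hκ P (ev_ge_pow P r2 _),
    evP_pow hκ P r3, evP_pow hκ P r2] at h1
  field_simp
  rw [← h1]; ring

/-- the relation coming from `NB` -/
theorem Core3.ND.relB (X : C.ND) [IsAlgClosed K] [IsAlgClosed k] (hF : IsFF K F) (hκ : IsFF k κ)
    {m : ℕ} {f : C.R.O} {D : Divisor K F} (hT : C.IsTw m f D) (hN : X.NewH m (f : F₀)) {n : ℕ}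
    {s : F₀} (hs : s ∈ C.U D n 0) (hsO : s ∈ C.R.O) (hs1 : C.v₁.lead 0 s = 1) :
    ∃ θ : k, θ ≠ 0 ∧ ∀ P : Place k κ, C.Z P ≠ 0 →
      evP P (C.v₃.lead 0 s) * evP P (C.v₂.lead 0 s) ^ C.e = θ := by
  obtain ⟨V1, V2, V3⟩ := X.CP_isV_f hT
  obtain ⟨l1, l2, l3⟩ := C.lead_f hT
  obtain ⟨f1, f2, f3⟩ := C.GL_ge0 f.2
  obtain ⟨g1, g2, g3⟩ := C.GL_ge0 hsO
  have hf1 : C.v₁.lead 0 (X.NB (f : F₀)) = 1 := by
    have := (X.NB_lead₁ 0 _ f1).2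
    rwa [mul_zero, l1, one_pow] at this
  have hf3 : C.v₃.lead 0 (X.NB (f : F₀)) = 1 := by
    have := (X.NB_lead₃ 0 0 _ f3 f2).2
    rwa [add_zero, l3, l2, pow_zero, pow_zero, mul_one, mul_one, one_pow, mul_one] at this
  have hs1' : C.v₁.lead 0 (X.NB s) = 1 := by
    have := (X.NB_lead₁ 0 _ g1).2
    rwa [mul_zero, hs1, one_pow] at this
  have hs3' : C.v₃.lead 0 (X.NB s) = C.v₃.lead 0 s * C.v₂.lead 0 s ^ C.e := by
    have := (X.NB_lead₃ 0 0 _ g3 g2).2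
    rwa [add_zero, pow_zero, pow_zero, one_mul, mul_one] at this
  obtain ⟨c₁, c₃, hc₁, hc₃, h⟩ := X.CP_rel hF hκ hT hs X.NB hN.powB (X.isV_NB V1 V2 V3) X.NB_U
    (X.NB_mem_O hsO) hf1 hf3
  refine ⟨c₁ / c₃, div_ne_zero hc₁ hc₃, fun P hP => ?_⟩
  obtain ⟨r1, r2, r3⟩ := C.lead_regular hF hκ hT hs hsO hP
  have h1 := h P hP
  have r32 : D2_ge P 0 (C.v₃.lead 0 s * C.v₂.lead 0 s ^ C.e) := by
    simpa using D2.ge_mul P r3 (ev_ge_pow P r2 C.e)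
  rw [hs1', hs3', CP_evP_mul_const hκ P r32, one_mul, evP_algebraMap,
    evP_mul hκ P r3 (ev_ge_pow P r2 _), evP_pow hκ P r2] at h1
  field_simp
  exact h1

/-- the `e (e + 2)`-th powers of the gluing constants do not depend on `P` -/
theorem Core3.ND.exists_const (X : C.ND) [IsAlgClosed K] [IsAlgClosed k] (hF : IsFF K F) (hκ : IsFF k κ)
    {m : ℕ} {f : C.R.O} {D : Divisor K F} (hT : C.IsTw m f D) (hN : X.NewH m (f : F₀)) {n : ℕ}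
    {s : F₀} (hs : s ∈ C.U D n 0) (hsO : s ∈ C.R.O) (hs1 : C.v₁.lead 0 s = 1) :
    ∃ a₂ a₃ : k, a₂ ^ m = 1 ∧ a₃ ^ m = 1 ∧ ∀ P : Place k κ, C.Z P ≠ 0 →
      evP P (C.v₂.lead 0 s) ^ (C.e * (C.e + 2)) = a₂ ∧
      evP P (C.v₃.lead 0 s) ^ (C.e * (C.e + 2)) = a₃ := by
  obtain ⟨θA, hθA, hA⟩ := X.relA hF hκ hT hN hs hsO hs1
  obtain ⟨θB, hθB, hB⟩ := X.relB hF hκ hT hN hs hsO hs1
  by_cases hex : ∃ P₀ : Place k κ, C.Z P₀ ≠ 0
  · obtain ⟨P₀, hP₀⟩ := hex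
    obtain ⟨p2, p3⟩ := X.values_pow hF hκ hT hs hsO hs1 hP₀
    -- the key identities at any point
    have key : ∀ P : Place k κ, C.Z P ≠ 0 →
        evP P (C.v₃.lead 0 s) ^ (C.e + 2) = θB / θA ∧
        evP P (C.v₂.lead 0 s) ^ (C.e * (C.e + 2)) = θB ^ (C.e + 2) * (θA / θB) := by
      intro P hP
      have a := hA P hP
      have b := hB P hP
      set c₂ := evP P (C.v₂.lead 0 s) with hc₂
      set c₃ := evP P (C.v₃.lead 0 s) with hc₃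
      have h3 : c₃ ^ (C.e + 2) = θB / θA := by
        rw [eq_div_iff hθA, ← b, a]; ring
      refine ⟨h3, ?_⟩
      have hc3 : c₃ ≠ 0 := by
        intro h0
        rw [h0, zero_mul] at b
        exact hθB b.symm
      have h2 : c₂ ^ C.e = θB / c₃ := by
        rw [eq_div_iff hc3, ← b]; ring
      rw [pow_mul, h2, div_pow, h3]
      field_simp
    refine ⟨evP P₀ (C.v₂.lead 0 s) ^ (C.e * (C.e + 2)), evP P₀ (C.v₃.lead 0 s) ^ (C.e * (C.e + 2)),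
      ?_, ?_, fun P hP => ⟨?_, ?_⟩⟩
    · rw [← pow_mul, mul_comm, pow_mul, p2, one_pow]
    · rw [← pow_mul, mul_comm, pow_mul, p3, one_pow]
    · rw [(key P hP).2, (key P₀ hP₀).2]
    · rw [mul_comm C.e, pow_mul, pow_mul, (key P hP).1, (key P₀ hP₀).1]
  · exact ⟨1, 1, one_pow _, one_pow _, fun P hP => absurd ⟨P, hP⟩ hex⟩

end CP

end Fermat.Agent.S36Lib
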