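import Fermat.Agent.S36.New.Defs
import Fermat.Agent.S36.New.IsV
import Fermat.Agent.S36.New.Const
import Fermat.Agent.S36.New.NewH
import Fermat.Agent.S36.New.Nilp
import Fermat.Agent.S36.New.Glue
import Fermat.Agent.S36.New.Rel

/-!
# S36, block (NEW), (TW): twisting by constants
-/

set_option autoImplicit false

open AlgebraicCurve IntermediateField Polynomial Fermat.Agent.S24Lib Fermat.Agent.FFLib
  Fermat.Agent.S18Lib Fermat.Agent.S34Lib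

namespace Fermat.Agent.S36Lib

variable {K₀ k : Type*} [Field K₀] [Field k] {A₀ : ValuationSubring K₀} {resK : A₀ →+* k}
  {K F₀ F κ Φ : Type*} [Field K] [Field F₀] [Field F] [Field κ] [Algebra K₀ F₀] [Algebra K F]
  [Algebra k κ] [CommRing Φ] [Algebra k Φ] {C : Core3 A₀ resK K F₀ F κ Φ}

/-! ## (TW) `S36/New/Twist.lean` : twisting by constants -/
section TW

/-- a Kummer generator `≡ 1` is a twist datum -/
theorem Core3.ND.exists_isTw (X : C.ND) [IsAlgClosed K] (hF : IsFF K F) {m : ℕ} (hm : (m : k) ≠ 0)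
    {f : C.R.O} (hf : C.R.red f = 1) (hf0 : (f : F₀) ≠ 0)
    (hk : ∀ v : Place K F, (m : ℤ) ∣ v.ord (C.ι (f : F₀))) :
    ∃ D : Divisor K F, C.IsTw m f D := by
  have hm0 : 0 < m := UU_m_pos hm
  have hdiv : ∀ v : Place K F, v.ord (C.ι (f : F₀)) =
      m * ((divOf K (C.ι (f : F₀))).mapRange (fun n => n / (m : ℤ)) (by simp)) v := by
    intro v
    rw [Finsupp.mapRange_apply, divOf_apply hF, Int.mul_ediv_cancel' (hk v)]
  exact ⟨_, ⟨hm, hf, hdiv, X.rat m f _ hm0 hf0 hdiv⟩⟩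

theorem Core3.ND.isTw_zero' (X : C.ND) [IsAlgClosed K] (hF : IsFF K F) {m : ℕ} (hm : (m : k) ≠ 0) :
    C.IsTw m 1 0 := by
  refine C.isTw_zero m hm (X.rat m 1 0 (UU_m_pos hm) one_ne_zero ?_)
  intro v
  rw [map_one, v.ord_one]
  simp

/-- transport of sections -/
theorem Core3.mem_U_twist [IsAlgClosed K] (C : Core3 A₀ resK K F₀ F κ Φ) (hF : IsFF K F)
    {m : ℕ} (hm : 0 < m) {f f' : F₀} {D D' : Divisor K F}
    (hD : ∀ v : Place K F, v.ord (C.ι f) = m * D v)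
    (hD' : ∀ v : Place K F, v.ord (C.ι f') = m * D' v) {E : ℕ} {h : F₀} (hh : h ≠ 0)
    (hf : f ≠ 0) (hff' : f' = f ^ E * h ^ m) {n : ℕ} {s : F₀} (hs : s ∈ C.U D n 0) :
    s ^ E * h⁻¹ ∈ C.U D' (E * n) 0 := by
  rw [Core3.mem_U, mem_L_iff] at hs ⊢
  intro v
  have hh' : C.ι h ≠ 0 := (map_ne_zero C.ι).2 hh
  have hf' : C.ι f ≠ 0 := (map_ne_zero C.ι).2 hf
  have hm' : (m : ℤ) ≠ 0 := by exact_mod_cast hm.ne'
  -- `D' = E D + ord h`
  have e1 : D' v = E * D v + v.ord (C.ι h) := by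
    have h1 := hD' v
    rw [hff', map_mul, map_pow, map_pow, v.ord_mul (pow_ne_zero _ hf') (pow_ne_zero _ hh'),
      ma_ord_pow, ma_ord_pow, hD v] at h1
    have h2 : (m : ℤ) * D' v = m * (E * D v + v.ord (C.ι h)) := by rw [← h1]; ring
    exact mul_left_cancel₀ hm' h2
  have e2 : maE K (C.ι C.x) (E * n) 0 v = E * maE K (C.ι C.x) n 0 v := by
    rw [maE_apply hF, maE_apply hF]; push_cast; ring
  rw [map_mul, map_pow, map_inv₀]
  have hinv : D2_ge v (-v.ord (C.ι h)) (C.ι h)⁻¹ := Or.inr (by rw [v.ord_inv])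
  rcases Nat.eq_zero_or_pos E with rfl | hE
  · rw [pow_zero, one_mul]
    refine D2.ge_mono v (le_of_eq ?_) hinv
    rw [Finsupp.add_apply, e1, e2]; simp
  · have h1 := D2.ge_mul v (ma_ge_pow v (hs v) E hE) hinv
    refine D2.ge_mono v (le_of_eq ?_) h1
    rw [Finsupp.add_apply, Finsupp.add_apply, e1, e2]; ring

theorem TW_evP_one [IsAlgClosed k] (P : Place k κ) : evP P (1 : κ) = 1 := by
  have := evP_algebraMap (Ft := κ) P (1 : k)
  rwa [map_one] at this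

theorem Core3.ND.exists_GC (X : C.ND) [IsAlgClosed K] [IsAlgClosed k] (hF : IsFF K F) (hκ : IsFF k κ)
    (hres : Function.Surjective resK) {m : ℕ} {f : C.R.O} {D : Divisor K F}
    (hT : C.IsTw m f D) (hN : X.NewH m (f : F₀)) :
    ∃ (f' : C.R.O) (D' : Divisor K F), C.IsTw m f' D' ∧ C.GC D' ∧
      C.Eqv m ((f : F₀) ^ (C.e * (C.e + 2))) (f' : F₀) := by
  have hm0 : 0 < m := UU_m_pos hT.m_ne
  set E : ℕ := C.e * (C.e + 2) with hE
  obtain ⟨n, s, hs, hsO, hs1⟩ := C.exists_section hF hκ hres hT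
  obtain ⟨a₂, a₃, ha₂, ha₃, hconst⟩ := X.exists_const hF hκ hT hN hs hsO hs1
  have ha₂0 : a₂ ≠ 0 := by
    rintro rfl
    rw [zero_pow hm0.ne'] at ha₂
    exact zero_ne_one ha₂
  have ha₃0 : a₃ ≠ 0 := by
    rintro rfl
    rw [zero_pow hm0.ne'] at ha₃
    exact zero_ne_one ha₃
  obtain ⟨h, hhO, h1, h2, h3⟩ := X.wa 1 (algebraMap k κ a₂) (algebraMap k κ a₃)
  obtain ⟨gh1, gh2, gh3⟩ := C.GL_ge0 hhO
  obtain ⟨gf1, gf2, gf3⟩ := C.GL_ge0 f.2
  obtain ⟨gs1, gs2, gs3⟩ := C.GL_ge0 hsO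
  obtain ⟨l1, l2, l3⟩ := C.lead_f hT
  -- `z = f ^ E h ^ m`
  have hzO : (f : F₀) ^ E * h ^ m ∈ C.R.O :=
    C.R.O.mul_mem (C.R.O.pow_mem f.2 E) (C.R.O.pow_mem hhO m)
  have lead_z : ∀ (v : DVal F₀ κ), v.ge 0 (f : F₀) → v.ge 0 h → v.lead 0 (f : F₀) = 1 →
      v.lead 0 h ^ m = 1 → v.lead 0 ((f : F₀) ^ E * h ^ m) = 1 := by
    intro v vf vh lf lh
    have a1 := v.lead_mul (v.ge_pow vf E) (v.ge_pow vh m)
    have a2 := v.lead_pow vf E
    have a3 := v.lead_pow vh m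
    rw [mul_zero] at a1 a2 a3
    rw [mul_zero] at a1
    rw [add_zero, a2, a3, lf, lh, one_pow, one_mul] at a1
    exact a1
  have z1 := lead_z C.v₁ gf1 gh1 l1 (by rw [h1, one_pow])
  have z2 := lead_z C.v₂ gf2 gh2 l2 (by rw [h2, ← map_pow, ha₂, map_one])
  have z3 := lead_z C.v₃ gf3 gh3 l3 (by rw [h3, ← map_pow, ha₃, map_one])
  obtain ⟨r, hrO, r1, r2, r3, hO, hred⟩ := C.exists_red_one hres hT.m_ne hzO z1 z2 z3
  obtain ⟨gr1, gr2, gr3⟩ := C.GL_ge0 hrO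
  -- `h r` is a unit with constant leads
  have hrO' : h * r ∈ C.R.O := C.R.O.mul_mem hhO hrO
  have lead_hr : ∀ (v : DVal F₀ κ), v.ge 0 h → v.ge 0 r → v.lead 0 r = 1 →
      v.lead 0 (h * r) = v.lead 0 h := by
    intro v vh vr lr
    have a1 := v.lead_mul vh vr
    rwa [add_zero, lr, mul_one] at a1
  have q1 : C.v₁.lead 0 (h * r) = 1 := by rw [lead_hr C.v₁ gh1 gr1 r1, h1]
  have q2 : C.v₂.lead 0 (h * r) = algebraMap k κ a₂ := by rw [lead_hr C.v₂ gh2 gr2 r2, h2]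
  have q3 : C.v₃.lead 0 (h * r) = algebraMap k κ a₃ := by rw [lead_hr C.v₃ gh3 gr3 r3, h3]
  have V1 : C.v₁.IsV 0 (h * r) := by
    have := DVal.isV_of_lead_ne_zero X.val₁ (n := 0) (x := h * r) (by rw [q1]; exact one_ne_zero)
    simpa using this
  have V2 : C.v₂.IsV 0 (h * r) := by
    have := DVal.isV_of_lead_ne_zero X.val₂ (n := 0) (x := h * r)
      (by rw [q2]; exact (_root_.map_ne_zero _).2 ha₂0)
    simpa using this
  have V3 : C.v₃.IsV 0 (h * r) := by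
    have := DVal.isV_of_lead_ne_zero X.val₃ (n := 0) (x := h * r)
      (by rw [q3]; exact (_root_.map_ne_zero _).2 ha₃0)
    simpa using this
  have hhr0 : h * r ≠ 0 := V1.1
  have hcoe : (f : F₀) ^ E * h ^ m * r ^ m = (f : F₀) ^ E * (h * r) ^ m := by
    rw [mul_pow, mul_assoc]
  have hN' : X.NewH m ((f : F₀) ^ E * h ^ m * r ^ m) := by
    rw [hcoe]
    exact (hN.pow E).mul (Core3.ND.NewH.of_pow X m hhr0)
  obtain ⟨D', hT'⟩ := X.exists_isTw hF hT.m_ne (f := ⟨(f : F₀) ^ E * h ^ m * r ^ m, hO⟩) hred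
    hN'.ne hN'.kum
  refine ⟨⟨(f : F₀) ^ E * h ^ m * r ^ m, hO⟩, D', hT', ?_, ?_⟩
  · -- the section
    have I1 : C.v₁.IsV 0 (h * r)⁻¹ := by simpa using V1.inv
    have I2 : C.v₂.IsV 0 (h * r)⁻¹ := by simpa using V2.inv
    have I3 : C.v₃.IsV 0 (h * r)⁻¹ := by simpa using V3.inv
    have hiO : (h * r)⁻¹ ∈ C.R.O := by
      rw [C.mem_O]
      exact ⟨I1.mem_O le_rfl, I2.mem_O le_rfl, I3.mem_O le_rfl⟩
    obtain ⟨gi1, gi2, gi3⟩ := C.GL_ge0 hiO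
    have lead_s : ∀ (v : DVal F₀ κ), v.ge 0 s → v.ge 0 (h * r)⁻¹ → v.IsV 0 (h * r) →
        v.lead 0 (s ^ E * (h * r)⁻¹) = v.lead 0 s ^ E * (v.lead 0 (h * r))⁻¹ := by
      intro v vs vi vV
      have a1 := v.lead_mul (v.ge_pow vs E) vi
      have a2 := v.lead_pow vs E
      rw [mul_zero] at a1 a2
      rw [add_zero, a2, vV.lead_inv] at a1
      exact a1
    refine ⟨E * n, s ^ E * (h * r)⁻¹, ?_, C.R.O.mul_mem (C.R.O.pow_mem hsO E) hiO, ?_, ?_⟩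
    · exact C.mem_U_twist hF hm0 hT.div_f hT'.div_f hhr0 hN.ne hcoe hs
    · rw [lead_s C.v₁ gs1 gi1 V1, hs1, q1, one_pow, inv_one, mul_one]
    · intro P hP
      obtain ⟨c2, c3⟩ := hconst P hP
      obtain ⟨-, t2, t3⟩ := C.lead_regular hF hκ hT hs hsO hP
      rw [lead_s C.v₂ gs2 gi2 V2, lead_s C.v₃ gs3 gi3 V3, q2, q3, ← map_inv₀, ← map_inv₀,
        CP_evP_mul_const hκ P (ev_ge_pow P t2 _), CP_evP_mul_const hκ P (ev_ge_pow P t3 _),
        evP_pow hκ P t2, evP_pow hκ P t3, c2, c3]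
      exact ⟨mul_inv_cancel₀ ha₂0, mul_inv_cancel₀ ha₃0⟩
  · show C.Eqv m ((f : F₀) ^ E) ((f : F₀) ^ E * h ^ m * r ^ m)
    rw [hcoe]
    exact Core3.Eqv.mul_pow C m _ hhr0

end TW

end Fermat.Agent.S36Lib
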