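import Fermat.Agent.S36.New.Defs
import Fermat.Agent.S36.New.IsV
import Fermat.Agent.S36.New.Const
import Fermat.Agent.S36.New.NewH
import Fermat.Agent.S36.New.Root
import Fermat.Agent.S36.New.Nilp
import Fermat.Agent.S36.Core.DVal

/-!
# S36, block (NEW), abstract part, (S1): the valuations are killed by `q + 1 = e + 2`
-/

set_option autoImplicit false

open AlgebraicCurve IntermediateField Polynomial Fermat.Agent.S24Lib Fermat.Agent.FFLib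
  Fermat.Agent.S18Lib Fermat.Agent.S34Lib

namespace Fermat.Agent.S36Lib

variable {K₀ k : Type*} [Field K₀] [Field k] {A₀ : ValuationSubring K₀} {resK : A₀ →+* k}
  {K F₀ F κ Φ : Type*} [Field K] [Field F₀] [Field F] [Field κ] [Algebra K₀ F₀] [Algebra K F]
  [Algebra k κ] [CommRing Φ] [Algebra k Φ] {C : Core3 A₀ resK K F₀ F κ Φ}

/-! ## (S1) `S36/New/Val.lean` : the valuations are killed by `q + 1 = e + 2` -/
section S1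

theorem DVal.S1_ge_mul {F₀ κ : Type*} [Field F₀] [Field κ] {v : DVal F₀ κ} {n : ℤ} {x y : F₀}
    {a b : ℕ} (hx : v.IsV n x) (hy : v.ge a y) (hb : (b : ℤ) ≤ n + a) : v.ge b (x * y) := by
  unfold DVal.ge at *
  obtain ⟨d, hd⟩ := Int.eq_ofNat_of_zero_le (sub_nonneg.2 hb)
  have hπ := v.π_ne
  have e : x * y * v.π⁻¹ ^ b = (x * v.π ^ (-n)) * (y * v.π⁻¹ ^ a) * v.π ^ d := by
    rw [inv_pow, inv_pow, ← zpow_natCast v.π b, ← zpow_natCast v.π a, ← zpow_natCast v.π d,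
      ← zpow_neg, ← zpow_neg]
    have : v.π ^ (-(b : ℤ)) = v.π ^ (-n) * v.π ^ (-(a : ℤ)) * v.π ^ (d : ℤ) := by
      rw [← zpow_add₀ hπ, ← zpow_add₀ hπ]
      congr 1
      omega
    rw [this]
    ring
  rw [e]
  exact v.O.mul_mem (v.O.mul_mem hx.2.1 hy) (v.O.pow_mem v.π_mem d)

/-- after multiplication by a constant the valuations are `≥ 0` -/
theorem Core3.ND.exists_nonneg (X : C.ND) [IsAlgClosed K] {m : ℕ} (hm : 0 < m) {x : F₀}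
    (hx : X.NewH m x) :
    ∃ (x' : F₀) (a₁ a₂ a₃ : ℕ), X.NewH m x' ∧ C.Eqv m x x' ∧ C.v₁.IsV a₁ x' ∧ C.v₂.IsV a₂ x' ∧
      C.v₃.IsV a₃ x' := by
  obtain ⟨n₁, h₁⟩ := X.val₁ x hx.ne
  obtain ⟨n₂, h₂⟩ := X.val₂ x hx.ne
  obtain ⟨n₃, h₃⟩ := X.val₃ x hx.ne
  set t : ℕ := n₁.natAbs + n₂.natAbs + n₃.natAbs with ht
  have hϖ0 : algebraMap K₀ F₀ X.ϖ ^ t ≠ 0 := pow_ne_zero _ ((_root_.map_ne_zero _).2 X.ϖ_ne)
  obtain ⟨w₁, w₂, w₃⟩ := X.isV_ϖ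
  have p₁ := h₁.mul ((w₁.pow t).pow m)
  have p₂ := h₂.mul ((w₂.pow t).pow m)
  have p₃ := h₃.mul ((w₃.pow t).pow m)
  have hm1 : (1 : ℤ) ≤ m := by exact_mod_cast hm
  have he1 : (1 : ℤ) ≤ C.e := by exact_mod_cast C.e_pos
  have ht0 : (0 : ℤ) ≤ t := by positivity
  have k1 : (t : ℤ) ≤ m * (t * 1) := by nlinarith
  have k2 : (t : ℤ) ≤ m * (t * C.e) := by
    have : (t : ℤ) ≤ t * C.e := by nlinarith
    nlinarith
  refine ⟨x * (algebraMap K₀ F₀ X.ϖ ^ t) ^ m, (n₁ + m * (t * 1)).toNat, (n₂ + m * (t * C.e)).toNat,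
    (n₃ + m * (t * 1)).toNat, hx.mul (Core3.ND.NewH.of_pow X m hϖ0), Core3.Eqv.mul_pow C m x hϖ0,
    ?_, ?_, ?_⟩
  · rw [Int.toNat_of_nonneg (by omega)]
    exact p₁
  · rw [Int.toNat_of_nonneg (by omega)]
    exact p₂
  · rw [Int.toNat_of_nonneg (by omega)]
    exact p₃

/-- the two congruences -/
theorem Core3.ND.val_congr (X : C.ND) {m : ℕ} (hm : 0 < m) {x : F₀} (hx : X.NewH m x) {a₁ a₂ a₃ : ℕ}
    (h₁ : C.v₁.IsV a₁ x) (h₂ : C.v₂.IsV a₂ x) (h₃ : C.v₃.IsV a₃ x) :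
    (m : ℤ) ∣ (a₁ : ℤ) + a₂ - (C.e + 1) * a₃ ∧ (m : ℤ) ∣ (a₃ : ℤ) + a₂ - (C.e + 1) * a₁ := by
  have g₁ : C.v₁.ge a₁ x := h₁.ge le_rfl
  have g₂ : C.v₂.ge a₂ x := h₂.ge le_rfl
  have g₃ : C.v₃.ge a₃ x := h₃.ge le_rfl
  have l₁ := h₁.lead_ne_zero
  have l₂ := h₂.lead_ne_zero
  have l₃ := h₃.lead_ne_zero
  have hA1 : C.v₁.IsV ((a₁ + a₂ : ℕ) : ℤ) (X.NA x) := by
    apply DVal.isV_of_lead_ne_zero X.val₁
    rw [(X.NA_lead₁ a₁ a₂ x g₁ g₂).2]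
    exact mul_ne_zero (mul_ne_zero l₁ (pow_ne_zero _ l₂)) (pow_ne_zero _ X.ρ_ne)
  have hA3 : C.v₃.IsV (((C.e + 1) * a₃ : ℕ) : ℤ) (X.NA x) := by
    apply DVal.isV_of_lead_ne_zero X.val₃
    rw [(X.NA_lead₃ a₃ x g₃).2]
    exact pow_ne_zero _ l₃
  have hB1 : C.v₁.IsV (((C.e + 1) * a₁ : ℕ) : ℤ) (X.NB x) := by
    apply DVal.isV_of_lead_ne_zero X.val₁
    rw [(X.NB_lead₁ a₁ x g₁).2]
    exact pow_ne_zero _ l₁
  have hB3 : C.v₃.IsV ((a₃ + a₂ : ℕ) : ℤ) (X.NB x) := by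
    apply DVal.isV_of_lead_ne_zero X.val₃
    rw [(X.NB_lead₃ a₃ a₂ x g₃ g₂).2]
    exact mul_ne_zero (mul_ne_zero l₃ (pow_ne_zero _
      (mul_ne_zero (pow_ne_zero _ (neg_ne_zero.2 one_ne_zero)) l₂))) (pow_ne_zero _ X.ρ_ne)
  have dA := X.val_of_isPow hm hA1.1 hx.powA hA1 hA3
  have dB := X.val_of_isPow hm hB1.1 hx.powB hB1 hB3
  push_cast at dA dB
  refine ⟨dA, ?_⟩
  have h5 := (dvd_neg (a := (m : ℤ))).2 dB
  have e5 : (a₃ : ℤ) + a₂ - (C.e + 1) * a₁ = -(((C.e : ℤ) + 1) * a₁ - ((a₃ : ℤ) + a₂)) := by ring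
  rw [e5]
  exact h5

/-- a uniformizer of `v₂` which is a unit at `v₁`, `v₃` -/
theorem Core3.ND.exists_unif₂ (X : C.ND) : ∃ h : F₀, C.v₁.IsV 0 h ∧ C.v₂.IsV 1 h ∧ C.v₃.IsV 0 h := by
  obtain ⟨E, hE, e₁, e₂, e₃⟩ := X.wa 1 0 1
  have hE' := (C.mem_O E).1 hE
  obtain ⟨p₁, hp₁⟩ := X.val₁ C.v₂.π C.v₂.π_ne
  obtain ⟨p₃, hp₃⟩ := X.val₃ C.v₂.π C.v₂.π_ne
  set N : ℕ := p₁.natAbs + p₃.natAbs + 1 with hN
  have a₁ : C.v₁.IsV 0 E := by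
    have := DVal.isV_of_lead_ne_zero X.val₁ (n := 0) (x := E) (by rw [e₁]; exact one_ne_zero)
    simpa using this
  have a₃ : C.v₃.IsV 0 E := by
    have := DVal.isV_of_lead_ne_zero X.val₃ (n := 0) (x := E) (by rw [e₃]; exact one_ne_zero)
    simpa using this
  have b₁ : C.v₁.ge 1 (1 - E) := by
    have := C.v₁.ge_neg ((C.v₁.S3_lead_eq_one_iff E).1 ⟨hE'.1, e₁⟩)
    rwa [neg_sub] at this
  have b₃ : C.v₃.ge 1 (1 - E) := by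
    have := C.v₃.ge_neg ((C.v₃.S3_lead_eq_one_iff E).1 ⟨hE'.2.2, e₃⟩)
    rwa [neg_sub] at this
  have g₂ : C.v₂.ge 0 E := (C.v₂.ge_zero_iff E).2 hE'.2.1
  have c₂ : C.v₂.ge 1 E := (C.v₂.lead_eq_zero_iff g₂).1 e₂
  have d₂ : C.v₂.IsV 0 (1 - E) := by
    have h10 : C.v₂.ge 0 1 := (C.v₂.ge_zero_iff 1).2 C.v₂.O.one_mem
    have := DVal.isV_of_lead_ne_zero X.val₂ (n := 0) (x := 1 - E) (by
      rw [C.v₂.lead_sub h10 g₂, C.v₂.lead_one, e₂, sub_zero]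
      exact one_ne_zero)
    simpa using this
  refine ⟨C.v₂.π * (1 - E) ^ N + E ^ 2, ?_, ?_, ?_⟩
  · have h1 : C.v₁.ge (0 + 1) (C.v₂.π * (1 - E) ^ N) :=
      DVal.S1_ge_mul hp₁ (C.v₁.ge_pow b₁ N) (by push_cast; omega)
    have h2 : C.v₁.IsV ((0 : ℕ) : ℤ) (E ^ 2) := by
      have := a₁.pow 2
      simpa using this
    have := DVal.IsV.add_of_ge X.val₁ h1 h2
    simpa using this
  · have h1 : C.v₂.ge (1 + 1) (E ^ 2) := by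
      rw [sq]
      exact C.v₂.ge_mul c₂ c₂
    have h2 : C.v₂.IsV ((1 : ℕ) : ℤ) (C.v₂.π * (1 - E) ^ N) := by
      have := C.v₂.isV_pi.mul (d₂.pow N)
      simpa using this
    have := DVal.IsV.add_of_ge X.val₂ h1 h2
    rw [add_comm]
    simpa using this
  · have h1 : C.v₃.ge (0 + 1) (C.v₂.π * (1 - E) ^ N) :=
      DVal.S1_ge_mul hp₃ (C.v₃.ge_pow b₃ N) (by push_cast; omega)
    have h2 : C.v₃.IsV ((0 : ℕ) : ℤ) (E ^ 2) := by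
      have := a₃.pow 2
      simpa using this
    have := DVal.IsV.add_of_ge X.val₃ h1 h2
    simpa using this

theorem Core3.ND.exists_unif₃ (X : C.ND) : ∃ h : F₀, C.v₁.IsV 0 h ∧ C.v₂.IsV 0 h ∧ C.v₃.IsV 1 h := by
  obtain ⟨E, hE, e₁, e₂, e₃⟩ := X.wa 1 1 0
  have hE' := (C.mem_O E).1 hE
  obtain ⟨w₁, w₂, w₃⟩ := X.isV_ϖ
  have a₁ : C.v₁.IsV 0 E := by
    have := DVal.isV_of_lead_ne_zero X.val₁ (n := 0) (x := E) (by rw [e₁]; exact one_ne_zero)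
    simpa using this
  have a₂ : C.v₂.IsV 0 E := by
    have := DVal.isV_of_lead_ne_zero X.val₂ (n := 0) (x := E) (by rw [e₂]; exact one_ne_zero)
    simpa using this
  have g₃ : C.v₃.ge 0 E := (C.v₃.ge_zero_iff E).2 hE'.2.2
  have c₃ : C.v₃.ge 1 E := (C.v₃.lead_eq_zero_iff g₃).1 e₃
  have he1 : (1 : ℤ) ≤ C.e := by exact_mod_cast C.e_pos
  refine ⟨algebraMap K₀ F₀ X.ϖ + E ^ 2, ?_, ?_, ?_⟩
  · have h1 : C.v₁.ge (0 + 1) (algebraMap K₀ F₀ X.ϖ) := w₁.ge (by norm_num)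
    have h2 : C.v₁.IsV ((0 : ℕ) : ℤ) (E ^ 2) := by
      have := a₁.pow 2
      simpa using this
    have := DVal.IsV.add_of_ge X.val₁ h1 h2
    simpa using this
  · have h1 : C.v₂.ge (0 + 1) (algebraMap K₀ F₀ X.ϖ) := w₂.ge (by push_cast; omega)
    have h2 : C.v₂.IsV ((0 : ℕ) : ℤ) (E ^ 2) := by
      have := a₂.pow 2
      simpa using this
    have := DVal.IsV.add_of_ge X.val₂ h1 h2
    simpa using this
  · have h1 : C.v₃.ge (1 + 1) (E ^ 2) := by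
      rw [sq]
      exact C.v₃.ge_mul c₃ c₃
    have h2 : C.v₃.IsV ((1 : ℕ) : ℤ) (algebraMap K₀ F₀ X.ϖ) := by simpa using w₃
    have := DVal.IsV.add_of_ge X.val₃ h1 h2
    rw [add_comm]
    simpa using this

theorem Core3.ND.exists_unit (X : C.ND) [IsAlgClosed K] {m : ℕ} (hm : 0 < m) {x : F₀} (hx : X.NewH m x) :
    ∃ y : F₀, X.NewH m y ∧ C.Eqv m (x ^ (C.e + 2)) y ∧ C.v₁.IsV 0 y ∧ C.v₂.IsV 0 y ∧
      C.v₃.IsV 0 y := by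
  obtain ⟨x', a₁, a₂, a₃, hx', hE, h₁, h₂, h₃⟩ := X.exists_nonneg hm hx
  obtain ⟨cA, cB⟩ := X.val_congr hm hx' h₁ h₂ h₃
  obtain ⟨u₂, p₁, p₂, p₃⟩ := X.exists_unif₂
  obtain ⟨u₃, q₁, q₂, q₃⟩ := X.exists_unif₃
  obtain ⟨w₁, w₂, w₃⟩ := X.isV_ϖ
  have d₃ : (m : ℤ) ∣ ((C.e : ℤ) + 2) * ((a₃ : ℤ) - a₁) := by
    have h5 := dvd_sub cB cA
    have e5 : ((C.e : ℤ) + 2) * ((a₃ : ℤ) - a₁) = (a₃ : ℤ) + a₂ - (C.e + 1) * a₁ -
        ((a₁ : ℤ) + a₂ - (C.e + 1) * a₃) := by ring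
    rw [e5]
    exact h5
  have d₂ : (m : ℤ) ∣ ((C.e : ℤ) + 2) * ((a₂ : ℤ) - C.e * a₁) := by
    have h5 := dvd_sub (Dvd.dvd.mul_left cB ((C.e : ℤ) + 2)) d₃
    have e5 : ((C.e : ℤ) + 2) * ((a₂ : ℤ) - C.e * a₁) =
        ((C.e : ℤ) + 2) * ((a₃ : ℤ) + a₂ - (C.e + 1) * a₁) -
          ((C.e : ℤ) + 2) * ((a₃ : ℤ) - a₁) := by ring
    rw [e5]
    exact h5
  obtain ⟨n₃, hn₃⟩ := d₃
  obtain ⟨n₂, hn₂⟩ := d₂
  have hc : X.ϖ ^ (-(((C.e : ℤ) + 2) * a₁)) ≠ 0 := zpow_ne_zero _ X.ϖ_ne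
  have hh : (u₂ ^ n₂ * u₃ ^ n₃)⁻¹ ≠ 0 :=
    inv_ne_zero (mul_ne_zero (zpow_ne_zero _ p₁.1) (zpow_ne_zero _ q₁.1))
  refine ⟨x' ^ (C.e + 2) * algebraMap K₀ F₀ (X.ϖ ^ (-(((C.e : ℤ) + 2) * a₁))) *
      ((u₂ ^ n₂ * u₃ ^ n₃)⁻¹) ^ m,
    ((hx'.pow _).mul (Core3.ND.NewH.const X hm hc)).mul (Core3.ND.NewH.of_pow X m hh),
    ((hE.pow _).trans (Core3.Eqv.mul_const C hm _ hc)).trans (Core3.Eqv.mul_pow C m _ hh),
    ?_, ?_, ?_⟩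
  · have := ((h₁.pow (C.e + 2)).mul (w₁.zpow (-(((C.e : ℤ) + 2) * a₁)))).mul
      (((p₁.zpow n₂).mul (q₁.zpow n₃)).inv.pow m)
    rw [← map_zpow₀] at this
    convert this using 1
    push_cast
    ring
  · have := ((h₂.pow (C.e + 2)).mul (w₂.zpow (-(((C.e : ℤ) + 2) * a₁)))).mul
      (((p₂.zpow n₂).mul (q₂.zpow n₃)).inv.pow m)
    rw [← map_zpow₀] at this
    convert this using 1
    push_cast
    linear_combination (-1 : ℤ) * hn₂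
  · have := ((h₃.pow (C.e + 2)).mul (w₃.zpow (-(((C.e : ℤ) + 2) * a₁)))).mul
      (((p₃.zpow n₂).mul (q₃.zpow n₃)).inv.pow m)
    rw [← map_zpow₀] at this
    convert this using 1
    push_cast
    linear_combination (-1 : ℤ) * hn₃

end S1

end Fermat.Agent.S36Lib
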