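import Fermat.Agent.S36.New.Defs
import Fermat.Agent.S36.New.IsV
import Fermat.Agent.S36.New.Const
import Fermat.Agent.S36.New.NewH
import Fermat.Agent.S36.New.Root
import Fermat.Agent.S36.New.Val
import Fermat.Agent.S36.New.Red
import Fermat.Agent.S36.New.Nilp
import Fermat.Agent.S36.New.Glue
import Fermat.Agent.S36.New.Rel
import Fermat.Agent.S36.New.Twist
import Fermat.Agent.S36.Core.Rigid

/-!
# S36, block (NEW), (FIN): the abstract theorem `Core3.ND.new_abs`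
-/

set_option autoImplicit false

open AlgebraicCurve IntermediateField Polynomial Fermat.Agent.S24Lib Fermat.Agent.FFLib
  Fermat.Agent.S18Lib Fermat.Agent.S34Lib

namespace Fermat.Agent.S36Lib

variable {K₀ k : Type*} [Field K₀] [Field k] {A₀ : ValuationSubring K₀} {resK : A₀ →+* k}
  {K F₀ F κ Φ : Type*} [Field K] [Field F₀] [Field F] [Field κ] [Algebra K₀ F₀] [Algebra K F]
  [Algebra k κ] [CommRing Φ] [Algebra k Φ] {C : Core3 A₀ resK K F₀ F κ Φ}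

theorem Core3.ND.new_abs (X : C.ND) [IsAlgClosed K] [IsAlgClosed k] [Nontrivial Φ]
    (hF : IsFF K F) (hκ : IsFF k κ) (hres : Function.Surjective resK) {m : ℕ}
    (hm : (m : k) ≠ 0) (hcop : Nat.Coprime (C.e + 1) m) {x : F₀} (hx : X.NewH m x) :
    ∃ g : F, C.ι x ^ ((C.e + 2) * C.e * (C.e * (C.e + 2))) = g ^ m := by
  have hm0 : 0 < m := UU_m_pos hm
  obtain ⟨y, hy, hxy, h₁, h₂, h₃⟩ := X.exists_unit hm0 hx
  obtain ⟨z, hz, hyz, hzO, l₁, l₂, l₃⟩ := X.exists_lead_one hm0 hcop hy h₁ h₂ h₃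
  obtain ⟨r, hrO, r₁, r₂, r₃, hO, hred⟩ := C.exists_red_one hres hm hzO l₁ l₂ l₃
  have hr0 : r ≠ 0 := by
    rintro rfl
    rw [DVal.lead_zero_eq _ (C.v₁.O.zero_mem)] at r₁
    have : (⟨0, C.v₁.O.zero_mem⟩ : C.v₁.O) = 0 := rfl
    rw [this, map_zero] at r₁
    exact zero_ne_one r₁
  have hN : X.NewH m (z * r ^ m) := hz.mul (Core3.ND.NewH.of_pow X m hr0)
  obtain ⟨D, hT⟩ := X.exists_isTw hF hm (f := ⟨z * r ^ m, hO⟩) hred hN.ne hN.kum
  obtain ⟨f', D', hT', hG, hE⟩ := X.exists_GC hF hκ hres hT hN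
  have hfin := C.exists_pow_eq hF hκ hres hT' (X.isTw_zero' hF hm) hG
  have e1 : C.Eqv m (x ^ ((C.e + 2) * C.e * (C.e * (C.e + 2)))) (f' : F₀) := by
    have a1 := (hxy.pow C.e).trans hyz
    have a2 := a1.trans (Core3.Eqv.mul_pow C m z hr0)
    have a3 := (a2.pow (C.e * (C.e + 2))).trans hE
    rw [← pow_mul, ← pow_mul, ← mul_assoc] at a3
    exact a3
  obtain ⟨g, hg⟩ := e1.isPow hfin
  exact ⟨g, by rw [← map_pow]; exact hg⟩

end Fermat.Agent.S36Lib
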