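import Fermat.Agent.S36.New.ModDefs
import Fermat.Agent.S36.New.Abs
import Fermat.Agent.S36.ND.Val
import Fermat.Agent.S36.ND.Fields
import Fermat.Agent.S36.ND.W
import Fermat.Agent.S36.ND.Approx
import Fermat.Agent.S36.ND.Lift
import Fermat.Agent.S36.ND.NA
import Fermat.Agent.S36.Inst.ResK0
import Fermat.Agent.S36.NrmAux
import Fermat.Agent.S36.K0a
import Fermat.Agent.S36.K0d

/-!
# S36, block (NEW), modular side: the term `modND : C.ND` and the output `new_of_modCore`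
-/

set_option autoImplicit false
set_option synthInstance.maxHeartbeats 400000
set_option linter.unusedSectionVars false

open AlgebraicCurve ModularCurve Polynomial CongruenceSubgroup
open scoped IntermediateField

namespace Fermat.Agent.S36Lib

open Fermat.Agent.S18Lib Fermat.Agent.S24Lib Fermat.Agent.S28Lib Fermat.Agent.ESLib
  Fermat.Agent.S34Lib Fermat.Agent.FFLib

noncomputable section

variable {M q : ℕ} [NeZero M] [NeZero q] [hqF : Fact q.Prime] (hqM : ¬ q ∣ M)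
variable {A : ValuationSubring Qb} (hA : A.LiesOverPrime q)
variable {w : FB (q ^ 2 * M) ≃ₐ[Qb] FB (q ^ 2 * M)} {ζ : Qbˣ}
  {i : ℕ → FB (q ^ 2 * M) →ₐ[Qb] LaurentSeries Qb} {ζ₂ : Qbˣ}
variable {H : FT A M} {Φ : Type} [CommRing Φ] [Algebra (kk A) Φ]
  {C : Core3 (A0 A) (resK0 A) Qb (F0 A (q ^ 2 * M)) (FB (q ^ 2 * M)) (FT A M) Φ}

/-- the extra data at level `q² M` -/
def modND (hbase : 2 ∣ M ∨ 3 ∣ M) (B : BrData M q w ζ i ζ₂)
    (hC : IsModCore A M q w (i 1) H C) : C.ND where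
  val₁ := nd_val₁ A hA hC
  val₂ := nd_val₂ A hA hC B
  val₃ := nd_val₃ A hA hC B
  ϖ := (q : K0 A)
  ϖ_ne := Nat.cast_ne_zero.2 (NeZero.ne q)
  π₁_eq := nd_π₁ A hC
  π₃_eq := nd_π₃ A hC
  unif := nd_unif A hqF.out hA
  val₂_ϖ := nd_val₂_ϖ A hA hC B
  wa := nd_wa hqM A hA hC B
  root_desc := nd_root_desc A hC
  rat := nd_rat A hC
  W := WF0 A B.al
  W_W := nd_W_W A B.al
  W_const := nd_W_const A B.al
  W_ge₁ := nd_W_ge₁ A hC B
  W_lead₁ := nd_W_lead₁ A hC B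
  W_ge₂ := nd_W_ge₂ A hA hC B
  W_lead₂ := nd_W_lead₂ A hA hC B
  W_U := nd_W_U A hC B
  NA := NAF0 A (isFix_NAf hqM A)
  NA_const := nd_NA_const hqM A hC
  NA_mem₂ := nd_NA_mem₂ hqM A hA hC B
  ρ := (nd_exists_rho hqM A hA hC B).choose
  ρ_ne := (nd_exists_rho hqM A hA hC B).choose_spec.1
  NA_lead₁ := (nd_exists_rho hqM A hA hC B).choose_spec.2
  NA_lead₃ := nd_NA_lead₃ hqM A hA hC B
  NA_U := nd_NA_U hqM A hC
  lift := nd_lift hqM A hA hC B hbase

theorem modND_NA (hbase : 2 ∣ M ∨ 3 ∣ M) (B : BrData M q w ζ i ζ₂)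
    (hC : IsModCore A M q w (i 1) H C) (x : F0 A (q ^ 2 * M)) :
    C.ι ((modND hqM hA hbase B hC).NA x) = NAf M q (x : FB (q ^ 2 * M)) := by
  rw [hC.ι_eq]
  rfl

theorem modND_NB (hbase : 2 ∣ M ∨ 3 ∣ M) (B : BrData M q w ζ i ζ₂)
    (hC : IsModCore A M q w (i 1) H C) (x : F0 A (q ^ 2 * M)) :
    C.ι ((modND hqM hA hbase B hC).NB x) = NBf M q (x : FB (q ^ 2 * M)) := by
  rw [hC.ι_eq, NBf_eq hqM B]
  rfl

include hqM hA in
/-- **the output of block (NEW)**: a `K₀`-rational Kummer generator at level `q² M` whose two norms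
to level `q M` are `p^n`-th powers is, up to the bounded exponent `p^c`, a `p^n`-th power. -/
theorem new_of_modCore [Nontrivial Φ] (hbase : 2 ∣ M ∨ 3 ∣ M) (B : BrData M q w ζ i ζ₂)
    (hC : IsModCore A M q w (i 1) H C) {p : ℕ}
    (hp : p.Prime) (hqp : q ≠ p) :
    ∃ c : ℕ, ∀ (n : ℕ) (f : FB (q ^ 2 * M)), IsKum (q ^ 2 * M) (p ^ n) f →
      IsFix A (q ^ 2 * M) f →
      (∃ g : FB (q * M), nrm (aHom (Dvd.intro q (hNq M q))) f = g ^ (p ^ n)) →
      (∃ g : FB (q * M), nrm (bHom q (dvd_of_eq (hNq M q))) f = g ^ (p ^ n)) →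
      ∃ g : FB (q ^ 2 * M), f ^ (p ^ c) = g ^ (p ^ n) := by
  have hq := hqF.out
  have hres : Function.Surjective (resK0 A) := resK0_surjective A hq hA
  have he : C.e + 1 = q := NDNA_e A hC
  have hE : (C.e + 2) * C.e * (C.e * (C.e + 2)) ≠ 0 := by
    have := C.e_pos
    positivity
  obtain ⟨c, u, hu, hcu⟩ := Nat.exists_eq_pow_mul_and_not_dvd hE p hp.ne_one
  refine ⟨c, fun n f hK hfix hA' hB' => ?_⟩
  have hk := isAlgClosed_kk A
  have hchar : CharP (kk A) q := charP_kk A hA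
  have hm : ((p ^ n : ℕ) : kk A) ≠ 0 := by
    intro h0
    rw [CharP.cast_eq_zero_iff (kk A) q] at h0
    exact hqp ((Nat.prime_dvd_prime_iff_eq hq hp).1 (hq.dvd_of_dvd_pow h0))
  have hcop : Nat.Coprime (C.e + 1) (p ^ n) := by
    rw [he]
    exact Nat.Coprime.pow_right n ((Nat.coprime_primes hq hp).2 hqp)
  set X := modND hqM hA hbase B hC with hX
  have hN : X.NewH (p ^ n) (⟨f, mem_F0.2 hfix⟩ : F0 A (q ^ 2 * M)) := by
    refine ⟨fun h0 => hK.1 (congrArg Subtype.val h0), fun v => ?_, ?_, ?_⟩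
    · rw [hC.ι_eq]
      exact hK.2 v
    · obtain ⟨g, hg⟩ := hA'
      refine ⟨aHom (Dvd.intro q (hNq M q)) g, ?_⟩
      rw [hX, modND_NA, NAf_apply, hg, map_pow]
    · obtain ⟨g, hg⟩ := hB'
      refine ⟨bHom q (dvd_of_eq (hNq M q)) g, ?_⟩
      rw [hX, modND_NB, NBf_apply, hg, map_pow]
  obtain ⟨g, hg⟩ := X.new_abs (isFF_FB (q ^ 2 * M)) (isFF_FT A M) hres hm hcop hN
  rw [hC.ι_eq, hcu] at hg
  have := AUX_bezout hp (a := c) (u := u) (c := 0) (n := n) hu hK.1 (G := g) (by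
    rw [pow_zero, mul_one]; exact hg)
  simpa using this

end

end Fermat.Agent.S36Lib
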