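import Fermat.Agent.S36.Core.Defs

/-!
# S36, block (NEW): definitions

`NUKummer ⇐ Core3.exists_pow_eq`, abstract part.  Besides `C : Core3 ..` we need

* `DVal.IsV v n x` : `v(x) = n` (`n : ℤ`)
* `Core3.ND C` : the extra data: the three `DVal`s are discrete valuation rings, the constants,
  weak approximation, descent of `m`-th roots, rationality of `L`-spaces, the involution `W`
  (`= w_{q²}`), the multiplicative map `NA` (`= aHom ∘ nrm aHom`), lifts from level `M`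
* `Core3.ND.NB = W ∘ NA ∘ W` (`= bHom q ∘ nrm (bHom q)`)
* `Core3.ND.NewH X m x` : `x` is a Kummer generator killed by the two norms
-/

set_option autoImplicit false

open AlgebraicCurve IntermediateField Polynomial Fermat.Agent.S24Lib Fermat.Agent.FFLib
  Fermat.Agent.S18Lib Fermat.Agent.S34Lib

namespace Fermat.Agent.S36Lib

/-- `v(x) = n` -/
def DVal.IsV {F₀ κ : Type*} [Field F₀] [Field κ] (v : DVal F₀ κ) (n : ℤ) (x : F₀) : Prop :=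
  x ≠ 0 ∧ x * v.π ^ (-n) ∈ v.O ∧ (x * v.π ^ (-n))⁻¹ ∈ v.O

/-- **The extra data of block (NEW).** -/
structure Core3.ND {K₀ k : Type*} [Field K₀] [Field k] {A₀ : ValuationSubring K₀}
    {resK : A₀ →+* k} {K F₀ F κ Φ : Type*} [Field K] [Field F₀] [Field F] [Field κ]
    [Algebra K₀ F₀] [Algebra K F] [Algebra k κ] [CommRing Φ] [Algebra k Φ]
    (C : Core3 A₀ resK K F₀ F κ Φ) where
  /-- the three `DVal`s are discrete valuation rings of `F₀` -/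
  val₁ : ∀ x : F₀, x ≠ 0 → ∃ n : ℤ, C.v₁.IsV n x
  val₂ : ∀ x : F₀, x ≠ 0 → ∃ n : ℤ, C.v₂.IsV n x
  val₃ : ∀ x : F₀, x ≠ 0 → ∃ n : ℤ, C.v₃.IsV n x
  /-- the uniformizer of `A₀` -/
  ϖ : K₀
  ϖ_ne : ϖ ≠ 0
  π₁_eq : C.v₁.π = algebraMap K₀ F₀ ϖ
  π₃_eq : C.v₃.π = algebraMap K₀ F₀ ϖ
  unif : ∀ c : K₀, c ≠ 0 → ∃ t : ℤ, c * ϖ ^ (-t) ∈ A₀ ∧ (c * ϖ ^ (-t))⁻¹ ∈ A₀
  val₂_ϖ : C.v₂.IsV C.e (algebraMap K₀ F₀ ϖ)
  /-- weak approximation -/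
  wa : ∀ u₁ u₂ u₃ : κ, ∃ h : F₀, h ∈ C.R.O ∧ C.v₁.lead 0 h = u₁ ∧ C.v₂.lead 0 h = u₂ ∧
    C.v₃.lead 0 h = u₃
  /-- an `m`-th root of a rational function is a constant times a rational function -/
  root_desc : ∀ (m : ℕ) (x : F₀) (G : F), 0 < m → x ≠ 0 → G ^ m = C.ι x →
    ∃ (c : K) (G₁ : F₀), G = algebraMap K F c * C.ι G₁
  /-- `L(E + D)` has a rational basis if `m D` is the divisor of a rational function -/
  rat : ∀ (m : ℕ) (f : F₀) (D : Divisor K F), 0 < m → f ≠ 0 →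
    (∀ v : Place K F, v.ord (C.ι f) = m * D v) →
    ∀ a b : ℕ, FFLib.ell (maE K (C.ι C.x) a b + D) ≤ Module.finrank K₀ (C.U D a b)
  /-- the involution `w_{q²}` : it exchanges `v₁` and `v₃` and preserves `v₂` -/
  W : F₀ →+* F₀
  W_W : ∀ x, W (W x) = x
  W_const : ∀ c : K₀, W (algebraMap K₀ F₀ c) = algebraMap K₀ F₀ c
  W_ge₁ : ∀ (n : ℕ) (x : F₀), C.v₁.ge n (W x) ↔ C.v₃.ge n x
  W_lead₁ : ∀ (n : ℕ) (x : F₀), C.v₁.lead n (W x) = C.v₃.lead n x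
  W_ge₂ : ∀ (n : ℕ) (x : F₀), C.v₂.ge n x → C.v₂.ge n (W x)
  W_lead₂ : ∀ (n : ℕ) (x : F₀), C.v₂.ge n x → C.v₂.lead n (W x) = (-1) ^ n * C.v₂.lead n x
  W_U : ∀ (n : ℕ) (x : F₀), x ∈ C.U 0 n 0 → ∃ n' : ℕ, W x ∈ C.U 0 n' 0
  /-- `aHom ∘ nrm aHom` -/
  NA : F₀ →* F₀
  NA_const : ∀ c : K₀, NA (algebraMap K₀ F₀ c) = algebraMap K₀ F₀ (c ^ (C.e + 1))
  NA_mem₂ : ∀ x : F₀, x ∈ C.R.O → NA x ∈ C.v₂.O
  /-- the reduction of `q⁻¹ ∏_a i_a (π₂)` -/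
  ρ : κ
  ρ_ne : ρ ≠ 0
  NA_lead₁ : ∀ (a c : ℕ) (x : F₀), C.v₁.ge a x → C.v₂.ge c x → C.v₁.ge (a + c) (NA x) ∧
    C.v₁.lead (a + c) (NA x) = C.v₁.lead a x * C.v₂.lead c x ^ C.e * ρ ^ c
  NA_lead₃ : ∀ (b : ℕ) (x : F₀), C.v₃.ge b x → C.v₃.ge ((C.e + 1) * b) (NA x) ∧
    C.v₃.lead ((C.e + 1) * b) (NA x) = C.v₃.lead b x ^ (C.e + 1)
  NA_U : ∀ (n : ℕ) (x : F₀), x ∈ C.U 0 n 0 → ∃ n' : ℕ, NA x ∈ C.U 0 n' 0
  /-- lifts from level `M` -/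
  lift : ∀ (n : ℕ) (u : κ), u ∈ riemannRochSpace (maE k C.x₁ n 0) →
    ∃ (n' : ℕ) (y : F₀), y ∈ C.U 0 n' 0 ∧ y ∈ C.R.O ∧ C.v₁.lead 0 y = u ∧ C.v₂.lead 0 y = u

section NDDefs

variable {K₀ k : Type*} [Field K₀] [Field k] {A₀ : ValuationSubring K₀} {resK : A₀ →+* k}
  {K F₀ F κ Φ : Type*} [Field K] [Field F₀] [Field F] [Field κ] [Algebra K₀ F₀] [Algebra K F]
  [Algebra k κ] [CommRing Φ] [Algebra k Φ] {C : Core3 A₀ resK K F₀ F κ Φ}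

/-- `bHom q ∘ nrm (bHom q) = W ∘ NA ∘ W` -/
def Core3.ND.NB (X : C.ND) : F₀ →* F₀ :=
  ((X.W : F₀ →* F₀).comp X.NA).comp (X.W : F₀ →* F₀)

theorem Core3.ND.NB_apply (X : C.ND) (x : F₀) : X.NB x = X.W (X.NA (X.W x)) := rfl

/-- `x` is a Kummer generator (exponent `m`) killed by the two norms -/
structure Core3.ND.NewH (X : C.ND) (m : ℕ) (x : F₀) : Prop where
  ne : x ≠ 0
  kum : ∀ v : Place K F, (m : ℤ) ∣ v.ord (C.ι x)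
  powA : ∃ G : F, C.ι (X.NA x) = G ^ m
  powB : ∃ G : F, C.ι (X.NB x) = G ^ m

/-- `x` and `y` differ by an `m`-th power of `F` -/
def Core3.Eqv (C : Core3 A₀ resK K F₀ F κ Φ) (m : ℕ) (x y : F₀) : Prop :=
  ∃ G : F, G ≠ 0 ∧ C.ι x = G ^ m * C.ι y

end NDDefs

end Fermat.Agent.S36Lib
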