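import Fermat.Agent.S36.Dsc
import Fermat.Agent.S36.NrmA2
import Fermat.Agent.S36.NrmA
import Fermat.Agent.S36.ALCompat
import Fermat.Agent.S36.K0d
import Fermat.Agent.S36.Mod.ValV1
import Fermat.Agent.S36.Mod.ValG

/-!
# S36, block (NEW), modular side: the map `NA = aHom ∘ nrm aHom` on the three branches
(series level)
-/

set_option autoImplicit false
set_option synthInstance.maxHeartbeats 400000
set_option linter.style.haveILetI false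
set_option linter.unusedSectionVars false

open AlgebraicCurve ModularCurve

namespace Fermat.Agent.S36Lib

open Fermat.Agent.S18Lib Fermat.Agent.S24Lib Fermat.Agent.S28Lib Fermat.Agent.ESLib
  Fermat.Agent.S34Lib Fermat.Agent.FFLib

noncomputable section

variable {M q : ℕ} [NeZero M] [NeZero q]

theorem NA_h (M q : ℕ) : q * M * q = q ^ 2 * M := by ring

/-- `aHom ∘ nrm aHom` -/
def NAm (M q : ℕ) [NeZero M] [NeZero q] : FB (q ^ 2 * M) →* FB (q ^ 2 * M) :=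
  ((aHom (Dvd.intro q (NA_h M q)) : FB (q * M) →ₐ[Qb] FB (q ^ 2 * M)) :
    FB (q * M) →* FB (q ^ 2 * M)).comp (nrm (aHom (Dvd.intro q (NA_h M q))))

theorem NAm_apply (x : FB (q ^ 2 * M)) :
    NAm M q x = aHom (Dvd.intro q (NA_h M q)) (nrm (aHom (Dvd.intro q (NA_h M q))) x) := rfl

variable {w : FB (q ^ 2 * M) ≃ₐ[Qb] FB (q ^ 2 * M)} {ζ : Qbˣ}
  {i : ℕ → FB (q ^ 2 * M) →ₐ[Qb] LaurentSeries Qb} {ζ₂ : Qbˣ}

theorem eInf_NAm (hq : q.Prime) (B : BrData M q w ζ i ζ₂) (x : FB (q ^ 2 * M)) :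
    eInf (q ^ 2 * M) (NAm M q x) =
      (x : LaurentSeries Qb) * ∏ a : Fin (q - 1), i ((a : ℕ) + 1) x := by
  rw [eInf_apply, NAm_apply, coe_aHom, coe_nrm_aHom hq (NA_h M q) B]

theorem mid_NAm (hq : q.Prime) (B : BrData M q w ζ i ζ₂) {a : ℕ} (ha : ¬ q ∣ a)
    (x : FB (q ^ 2 * M)) :
    i a (NAm M q x) = (x : LaurentSeries Qb) * ∏ a : Fin (q - 1), i ((a : ℕ) + 1) x := by
  rw [← coe_nrm_aHom hq (NA_h M q) B, NAm_apply]
  obtain ⟨y, hy⟩ := nrm (aHom (Dvd.intro q (NA_h M q))) x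
  rw [aHom_eq]
  exact (B.mid a ha).apply_of_mem y hy _

theorem NA_al (B : BrData M q w ζ i ζ₂) : IsAL (q ^ 2 * M) (q * q) M w := by
  have e2 : q * q = q ^ 2 := (sq q).symm
  refine ⟨fun d e hd he h => ?_, B.al.invol, B.al.gal⟩
  rw [e2] at hd ⊢
  exact B.al.gen d e hd he h

theorem w_NAm (hq : q.Prime) (hqM : ¬ q ∣ M) (B : BrData M q w ζ i ζ₂) (x : FB (q ^ 2 * M)) :
    w (NAm M q x) = bHom q (dvd_of_eq (NA_h M q)) (nrm (bHom q (dvd_of_eq (NA_h M q))) (w x)) := by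
  obtain ⟨w', hw'⟩ := exists_isAL (q * M) q M rfl ((Nat.Prime.coprime_iff_not_dvd hq).2 hqM)
  rw [NAm_apply, IsAL.swap' rfl (by ring) (Dvd.intro q (NA_h M q)) (dvd_of_eq (NA_h M q)) hw'
    (NA_al B), nrm_aHom_eq (NA_h M q) rfl hw' (NA_al B), hw'.invol]

theorem NA_fac (hq : q.Prime) (hqM : ¬ q ∣ M) : (q * M).factorization q = 1 := by
  rw [Nat.factorization_mul hq.ne_zero (NeZero.ne M), Finsupp.add_apply, hq.factorization_self,
    Nat.factorization_eq_zero_of_not_dvd hqM]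

theorem zero_NAm (hq : q.Prime) (hqM : ¬ q ∣ M) (B : BrData M q w ζ i ζ₂) (x : FB (q ^ 2 * M)) :
    eZero w (NAm M q x) = prodTwist q ((w x : FB (q ^ 2 * M)) : LaurentSeries Qb) := by
  rw [eZero_apply, w_NAm hq hqM B, coe_bHom, coe_nrm_bHom hq (NA_h M q) (NA_fac hq hqM),
    qExpand_normL q (exists_primitiveRoot_Qb q)]

/-- `W ∘ NA ∘ W = bHom q ∘ nrm (bHom q)` -/
theorem w_NAm_w (hq : q.Prime) (hqM : ¬ q ∣ M) (B : BrData M q w ζ i ζ₂) (x : FB (q ^ 2 * M)) :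
    w (NAm M q (w x)) =
      bHom q (dvd_of_eq (NA_h M q)) (nrm (bHom q (dvd_of_eq (NA_h M q))) x) := by
  rw [w_NAm hq hqM B, B.al.invol]

theorem isFix_NAm {A : ValuationSubring Qb} (hq : q.Prime) (hqM : ¬ q ∣ M) {x : FB (q ^ 2 * M)}
    (hx : IsFix A (q ^ 2 * M) x) : IsFix A (q ^ 2 * M) (NAm M q x) :=
  (isFix_nrm_aHom hq (NA_h M q) (NA_fac hq hqM) hx).aHom (Dvd.intro q (NA_h M q))

/-! ## the middle branches are conjugate under inertia -/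

theorem mid_conj {A : ValuationSubring Qb} (hq : q.Prime) (hA : A.LiesOverPrime q)
    (B : BrData M q w ζ i ζ₂) {a : ℕ} (ha : ¬ q ∣ a) {x : FB (q ^ 2 * M)}
    (hx : IsFix A (q ^ 2 * M) x) :
    ∃ σ ∈ A.inertiaSubgroupIn ℚ, i a x = coeffMap (σ : Qb →+* Qb) (i 1 x) := by
  obtain ⟨σ, hσ, hσζ⟩ := exists_inertia_zeta A hq hA (V1_zeta ζ B.prim) a ha
  refine ⟨σ, hσ, ?_⟩
  have h1 : ¬ q ∣ 1 := fun h => hq.one_lt.ne' (Nat.dvd_one.1 h)
  have h2 : Units.map ((σ : Qb →+* Qb) : Qb →* Qb) (ζ ^ 1) = ζ ^ a := by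
    apply Units.ext
    rw [pow_one]
    simpa using hσζ
  have h3 := IsIMid.gal hq σ (B.mid 1 h1) (h2 ▸ B.mid a ha) x
  rw [h3, hx σ hσ]

theorem mid_mem_gRing {A : ValuationSubring Qb} (hq : q.Prime) (hA : A.LiesOverPrime q)
    (B : BrData M q w ζ i ζ₂) {a : ℕ} (ha : ¬ q ∣ a) {x : FB (q ^ 2 * M)}
    (hx : IsFix A (q ^ 2 * M) x) (h : i 1 x ∈ gRing A) : i a x ∈ gRing A := by
  obtain ⟨σ, hσ, e⟩ := mid_conj hq hA B ha hx
  rw [e]
  exact coeffMap_mem_gRing A hσ h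

theorem gRed_mid {A : ValuationSubring Qb} (hq : q.Prime) (hA : A.LiesOverPrime q)
    (B : BrData M q w ζ i ζ₂) {a : ℕ} (ha : ¬ q ∣ a) {x : FB (q ^ 2 * M)}
    (hx : IsFix A (q ^ 2 * M) x) (h : i 1 x ∈ gRing A) (h' : i a x ∈ gRing A) :
    gRed A ⟨i a x, h'⟩ = gRed A ⟨i 1 x, h⟩ := by
  obtain ⟨σ, hσ, e⟩ := mid_conj hq hA B ha hx
  rw [← gRed_coeffMap A hσ h]
  congr 1
  exact Subtype.ext e

end

end Fermat.Agent.S36Lib
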