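import Fermat.Agent.S36.New.ModNA
import Fermat.Agent.S36.K0c
import Fermat.Agent.S36.K0b

/-!
# S36, block (NEW), modular side: leading terms of `NA = aHom ∘ nrm aHom` (series level)
-/

set_option autoImplicit false
set_option synthInstance.maxHeartbeats 400000
set_option linter.style.haveILetI false
set_option linter.unusedSectionVars false

open AlgebraicCurve ModularCurve

namespace Fermat.Agent.S36Lib

open Fermat.Agent.S18Lib Fermat.Agent.S24Lib Fermat.Agent.S28Lib Fermat.Agent.ESLib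
  Fermat.Agent.S34Lib Fermat.Agent.FFLib

noncomputable section

variable {A : ValuationSubring Qb}

/-! ## generalities on `gRing` -/

theorem NA_pow_unit {q : ℕ} (hq : q.Prime) (hA : A.LiesOverPrime q) {z : Qb} (hz : z ^ q = 1) :
    IsU A z ∧ z - 1 ∈ A.nonunits := by
  have hU : IsU A z := K0b_isU_of_pow A hq.ne_zero (by rw [hz]; exact isU_one A)
  refine ⟨hU, ?_⟩
  haveI := Fact.mk hq
  haveI : CharP (IsLocalRing.ResidueField A) q := K0c_charP A hq hA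
  have h1 : (⟨z - 1, A.sub_mem hU.1 A.one_mem⟩ : A) = (⟨z, hU.1⟩ : A) - 1 := rfl
  rw [← K0c_residue_eq_zero_iff A ⟨z - 1, A.sub_mem hU.1 A.one_mem⟩, h1, map_sub, map_one]
  have h2 : (IsLocalRing.residue A ⟨z, hU.1⟩ - 1) ^ q = 0 := by
    rw [sub_pow_char, one_pow, ← map_pow]
    have : (⟨z, hU.1⟩ : A) ^ q = 1 := Subtype.ext hz
    rw [this, map_one, sub_self]
  exact pow_eq_zero_iff hq.ne_zero |>.1 h2

theorem NA_gRed_prod {ι : Type*} (s : Finset ι) (f : ι → LaurentSeries Qb)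
    (u : LaurentSeries (kk A))
    (hf : ∀ j ∈ s, ∃ h : f j ∈ gRing A, gRed A ⟨f j, h⟩ = u) :
    ∃ h : ∏ j ∈ s, f j ∈ gRing A, gRed A ⟨_, h⟩ = u ^ s.card := by
  classical
  induction s using Finset.induction_on with
  | empty =>
    refine ⟨by rw [Finset.prod_empty]; exact (gRing A).one_mem, ?_⟩
    rw [Finset.card_empty, pow_zero]
    have : (⟨∏ j ∈ (∅ : Finset ι), f j, by rw [Finset.prod_empty]; exact (gRing A).one_mem⟩ :
      gRing A) = 1 := Subtype.ext (by simp)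
    rw [this, map_one]
  | insert a s ha ih =>
    obtain ⟨h1, e1⟩ := ih (fun j hj => hf j (Finset.mem_insert_of_mem hj))
    obtain ⟨h2, e2⟩ := hf a (Finset.mem_insert_self a s)
    have h3 : ∏ j ∈ insert a s, f j = f a * ∏ j ∈ s, f j := Finset.prod_insert ha
    refine ⟨by rw [h3]; exact (gRing A).mul_mem h2 h1, ?_⟩
    have : (⟨∏ j ∈ insert a s, f j, by rw [h3]; exact (gRing A).mul_mem h2 h1⟩ : gRing A) =
      ⟨f a, h2⟩ * ⟨∏ j ∈ s, f j, h1⟩ := Subtype.ext h3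
    rw [this, map_mul, e1, e2, Finset.card_insert_of_notMem ha, pow_succ, mul_comm]

theorem NA_prodTwist {q : ℕ} [NeZero q] (hq : q.Prime) (hA : A.LiesOverPrime q)
    {y : LaurentSeries Qb} (hy : y ∈ gRing A) :
    ∃ h : prodTwist q y ∈ gRing A, gRed A ⟨_, h⟩ = gRed A ⟨y, hy⟩ ^ q := by
  letI : Fintype (rootsOfUnity q Qb) := Fintype.ofFinite _
  have key := NA_gRed_prod (A := A) (Finset.univ : Finset (rootsOfUnity q Qb))
    (fun z => twist (z : Qbˣ) y) (gRed A ⟨y, hy⟩) (fun z _ => by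
      have hz : ((z : Qbˣ) : Qb) ^ q = 1 := by
        have := (mem_rootsOfUnity _ _).1 z.2
        rw [← Units.val_pow_eq_pow_val, this, Units.val_one]
      obtain ⟨h1, h2⟩ := NA_pow_unit hq hA hz
      exact ⟨twist_mem_gRing A _ h1 hy, gRed_twist A _ h1 h2 hy⟩)
  have hcard : (Finset.univ : Finset (rootsOfUnity q Qb)).card = q := by
    obtain ⟨ζ, hζ⟩ := exists_primitiveRoot_Qb q
    rw [Finset.card_univ, ← Nat.card_eq_fintype_card, hζ.card_rootsOfUnity]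
  rw [hcard] at key
  exact key

/-! ## constants -/

variable {M q : ℕ} [NeZero M] [NeZero q]

theorem NAm_const (hq : q.Prime) (c : Qb) :
    NAm M q (algebraMap Qb (FB (q ^ 2 * M)) c) = algebraMap Qb (FB (q ^ 2 * M)) (c ^ q) := by
  rw [NAm_apply]
  have h1 : algebraMap Qb (FB (q ^ 2 * M)) c =
      aHom (Dvd.intro q (NA_h M q)) (algebraMap Qb (FB (q * M)) c) :=
    ((aHom (Dvd.intro q (NA_h M q))).commutes c).symm
  have h2 : nrm (aHom (Dvd.intro q (NA_h M q)))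
      (aHom (Dvd.intro q (NA_h M q)) (algebraMap Qb (FB (q * M)) c)) =
      algebraMap Qb (FB (q * M)) c ^ q := by
    letI := algebraAlong (aHom (Dvd.intro q (NA_h M q)) : FB (q * M) →ₐ[Qb] FB (q ^ 2 * M))
    have h3 := Algebra.norm_algebraMap (R := FB (q * M)) (S := FB (q ^ 2 * M))
      (algebraMap Qb (FB (q * M)) c)
    rw [finrank_aHom hq (NA_h M q) (Dvd.intro _ rfl)] at h3
    exact h3
  rw [h1, h2, map_pow, ← h1, map_pow]

theorem NAm_qF_zpow_mul (hq : q.Prime) (b : ℤ) (x : FB (q ^ 2 * M)) :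
    NAm M q (qF (q ^ 2 * M) q ^ (-b) * x) = qF (q ^ 2 * M) q ^ (-((q : ℤ) * b)) * NAm M q x := by
  rw [map_mul, qF, ← map_zpow₀, NAm_const hq, ← map_zpow₀]
  congr 2
  rw [← zpow_natCast, ← zpow_mul]
  congr 1
  ring

variable {w : FB (q ^ 2 * M) ≃ₐ[Qb] FB (q ^ 2 * M)} {ζ : Qbˣ}
  {i : ℕ → FB (q ^ 2 * M) →ₐ[Qb] LaurentSeries Qb} {ζ₂ : Qbˣ}

/-! ## the branch at `0` -/

theorem NAm_zero_lead (hq : q.Prime) (hqM : ¬ q ∣ M) (hA : A.LiesOverPrime q)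
    (B : BrData M q w ζ i ζ₂) (b : ℤ) {x : FB (q ^ 2 * M)}
    (hx : Ge A (eZero w) (qF (q ^ 2 * M) q) b x) :
    Ge A (eZero w) (qF (q ^ 2 * M) q) ((q : ℤ) * b) (NAm M q x) ∧
      rd A (eZero w) (qF (q ^ 2 * M) q) ((q : ℤ) * b) (NAm M q x) =
        rd A (eZero w) (qF (q ^ 2 * M) q) b x ^ q := by
  obtain ⟨h1, h2⟩ := NA_prodTwist hq hA hx
  have e : eZero w (qF (q ^ 2 * M) q ^ (-((q : ℤ) * b)) * NAm M q x) =
      prodTwist q (eZero w (qF (q ^ 2 * M) q ^ (-b) * x)) := by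
    rw [← NAm_qF_zpow_mul hq, zero_NAm hq hqM B, eZero_apply]
  exact ⟨API_ge_of_eq h1 e, by rw [API_rd_eq h1 e, h2, rd_of_ge hx]⟩

/-! ## the middle branch -/

theorem NAm_mem_mid (hq : q.Prime) (hA : A.LiesOverPrime q) (B : BrData M q w ζ i ζ₂)
    {x : FB (q ^ 2 * M)} (hx : IsFix A (q ^ 2 * M) x)
    (h₁ : eInf (q ^ 2 * M) x ∈ gRing A) (h₂ : i 1 x ∈ gRing A) :
    i 1 (NAm M q x) ∈ gRing A := by
  rw [mid_NAm hq B (fun h => hq.one_lt.ne' (Nat.dvd_one.1 h))]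
  exact (gRing A).mul_mem h₁ (Subring.prod_mem _ fun a _ =>
    mid_mem_gRing hq hA B (NA2_not_dvd a) hx h₂)

/-! ## the branch at `∞` -/

theorem NA_isGU_C {u : Qb} (hu : IsU A u) (hu0 : u ≠ 0) :
    IsGU A (HahnSeries.C u : LaurentSeries Qb) := by
  refine ⟨C_mem_gRing hu.1, fun h0 => ?_⟩
  have h1 : (⟨HahnSeries.C u, C_mem_gRing hu.1⟩ : gRing A) * ⟨HahnSeries.C u⁻¹, C_mem_gRing hu.2⟩
      = 1 := by
    apply Subtype.ext
    show (HahnSeries.C u : LaurentSeries Qb) * HahnSeries.C u⁻¹ = 1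
    rw [← map_mul, mul_inv_cancel₀ hu0, map_one]
  have h2 := congrArg (gRed A) h1
  rw [map_mul, h0, zero_mul, map_one] at h2
  exact zero_ne_one h2

theorem NA_isGU_prod {ι : Type*} (s : Finset ι) (f : ι → LaurentSeries Qb)
    (hf : ∀ j ∈ s, IsGU A (f j)) : IsGU A (∏ j ∈ s, f j) :=
  Finset.prod_induction f (IsGU A) (fun _ _ => IsGU.mul) isGU_one hf

/-- `i_a (j_{q²} - j) = (ζ - 1) × unit` -/
theorem NA_mid_piF (hq : q.Prime) (hA : A.LiesOverPrime q) (B : BrData M q w ζ i ζ₂) {a : ℕ}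
    (ha : ¬ q ∣ a) :
    ∃ Y : LaurentSeries Qb, IsGU A Y ∧ i a (piF M q) = HahnSeries.C ((ζ : Qb) - 1) * Y := by
  have hcop : a.Coprime q := ((Nat.Prime.coprime_iff_not_dvd hq).mpr ha).symm
  obtain ⟨y, hy, hyR⟩ := mid_unif A hq hA M (ζ ^ a) (B.prim.pow_of_coprime a hcop) (B.mid a ha)
  have hζq : (ζ : Qb) ^ q = 1 := by
    rw [← Units.val_pow_eq_pow_val, B.prim.pow_eq_one, Units.val_one]
  obtain ⟨hU, hU1⟩ := NA_pow_unit hq hA hζq
  obtain ⟨g, hgA, hg, hgn⟩ := exists_geom_zpow A hU ζ.ne_zero hU1 (a : ℤ)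
  have haU : IsU A (a : Qb) := K0b_isU_natCast A hq hA ha
  have ha0 : (a : Qb) ≠ 0 := by
    have : a ≠ 0 := by rintro rfl; exact ha (dvd_zero q)
    exact_mod_cast this
  have hg0 : g ≠ 0 := by
    rintro rfl
    rw [zero_sub] at hgn
    have h1 : ((a : ℤ) : Qb) ∈ A.nonunits := by
      rw [ValuationSubring.mem_nonunits_iff] at hgn ⊢
      rwa [Valuation.map_neg] at hgn
    exact ((isU_iff_not_mem_nonunits haU.1 ha0).1 haU) (by simpa using h1)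
  have hgU : IsU A g := by
    rw [isU_iff_not_mem_nonunits hgA hg0]
    intro hgn'
    have h1 : ((a : ℤ) : Qb) ∈ A.nonunits := by
      rw [ValuationSubring.mem_nonunits_iff] at hgn hgn' ⊢
      have e : ((a : ℤ) : Qb) = g - (g - ((a : ℤ) : Qb)) := by ring
      rw [e]
      exact lt_of_le_of_lt (Valuation.map_sub _ _ _) (max_lt hgn' hgn)
    exact ((isU_iff_not_mem_nonunits haU.1 ha0).1 haU) (by simpa using h1)
  refine ⟨HahnSeries.C g * cE A y, (NA_isGU_C hgU hg0).mul (isGU_cE (by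
    rw [hyR]; exact thetaFun_jqModC_ne_zero _)), ?_⟩
  rw [hy, ← mul_assoc, ← map_mul, ← hg]
  congr 2
  rw [Units.val_pow_eq_pow_val, zpow_natCast]

/-- `P = q⁻¹ ∏_a i_a (j_{q²} - j)` is a unit of the Gauss ring -/
theorem NA_P_isGU (hq : q.Prime) (hA : A.LiesOverPrime q) (B : BrData M q w ζ i ζ₂) :
    IsGU A (HahnSeries.C (q : Qb)⁻¹ * ∏ a : Fin (q - 1), i ((a : ℕ) + 1) (piF M q)) := by
  choose Y hY hYe using fun a : Fin (q - 1) => NA_mid_piF (A := A) hq hA B (NA2_not_dvd a)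
  obtain ⟨u, hu, -, hue⟩ := zeta_sub_one_pow A hq (V1_zeta ζ B.prim)
  have hq0 : (q : Qb) ≠ 0 := by exact_mod_cast hq.ne_zero
  have hu0 : u ≠ 0 := by
    rintro rfl
    rw [mul_zero] at hue
    have h1 := pow_eq_zero_iff (by have := hq.two_le; omega) |>.1 hue
    exact (V1_zeta ζ B.prim).ne_one hq.one_lt (sub_eq_zero.1 h1)
  have e : HahnSeries.C (q : Qb)⁻¹ * ∏ a : Fin (q - 1), i ((a : ℕ) + 1) (piF M q) =
      HahnSeries.C u * ∏ a : Fin (q - 1), Y a := by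
    simp_rw [hYe]
    rw [Finset.prod_mul_distrib, Finset.prod_const, Finset.card_univ, Fintype.card_fin, ← map_pow,
      hue, ← mul_assoc, ← map_mul, ← mul_assoc, inv_mul_cancel₀ hq0, one_mul]
  rw [e]
  exact (NA_isGU_C hu hu0).mul (NA_isGU_prod _ _ fun a _ => hY a)

theorem NA_eInf_qF (N q : ℕ) : eInf N (qF N q) = HahnSeries.C (q : Qb) := by
  rw [eInf_apply, qF]
  exact DSC_algebraMap_eq_C _

/-- the algebraic identity behind `NA_lead₁` -/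
theorem NA_inf_identity (hq : q.Prime) (B : BrData M q w ζ i ζ₂) (a c : ℕ) (x : FB (q ^ 2 * M))
    (hP : ∏ a : Fin (q - 1), i ((a : ℕ) + 1) (piF M q) ≠ 0) :
    eInf (q ^ 2 * M) (qF (q ^ 2 * M) q ^ (-((a + c : ℕ) : ℤ)) * NAm M q x) =
      eInf (q ^ 2 * M) (qF (q ^ 2 * M) q ^ (-(a : ℤ)) * x) *
        (∏ b : Fin (q - 1), i ((b : ℕ) + 1) (piF M q ^ (-(c : ℤ)) * x)) *
        (HahnSeries.C (q : Qb)⁻¹ * ∏ a : Fin (q - 1), i ((a : ℕ) + 1) (piF M q)) ^ c := by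
  have hq0 : (HahnSeries.C (q : Qb) : LaurentSeries Qb) ≠ 0 := by
    rw [Ne, map_eq_zero]
    exact_mod_cast hq.ne_zero
  rw [map_mul, map_mul, eInf_NAm hq B, map_zpow₀, map_zpow₀, NA_eInf_qF]
  simp_rw [map_mul, map_zpow₀]
  rw [Finset.prod_mul_distrib, Finset.prod_zpow, mul_pow, map_inv₀]
  set Q := (HahnSeries.C (q : Qb) : LaurentSeries Qb) with hQ
  set PP := ∏ a : Fin (q - 1), i ((a : ℕ) + 1) (piF M q) with hPP
  set X := ∏ a : Fin (q - 1), i ((a : ℕ) + 1) x with hX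
  have e1 : Q ^ (-((a + c : ℕ) : ℤ)) = Q ^ (-(a : ℤ)) * (Q⁻¹) ^ c := by
    rw [inv_pow, ← zpow_natCast Q c, ← zpow_neg, ← zpow_add₀ hq0]
    congr 1
    push_cast
    ring
  have e2 : PP ^ (-(c : ℤ)) * PP ^ c = 1 := by
    rw [← zpow_natCast PP c, ← zpow_add₀ hP, neg_add_cancel, zpow_zero]
  rw [e1]
  calc Q ^ (-(a : ℤ)) * Q⁻¹ ^ c * (eInf (q ^ 2 * M) x * X)
      = Q ^ (-(a : ℤ)) * Q⁻¹ ^ c * (eInf (q ^ 2 * M) x * X) * (PP ^ (-(c : ℤ)) * PP ^ c) := by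
        rw [e2, mul_one]
    _ = _ := by ring

/-- **`NA_lead₁`, series level** -/
theorem exists_rho (hq : q.Prime) (hA : A.LiesOverPrime q) (B : BrData M q w ζ i ζ₂) :
    ∃ ρL : LaurentSeries (kk A), ρL ≠ 0 ∧ ∀ (a c : ℕ) (x : FB (q ^ 2 * M)),
      IsFix A (q ^ 2 * M) x → Ge A (eInf (q ^ 2 * M)) (qF (q ^ 2 * M) q) a x →
      Ge A (i 1 : FB (q ^ 2 * M) →+* LaurentSeries Qb) (piF M q) c x →
      Ge A (eInf (q ^ 2 * M)) (qF (q ^ 2 * M) q) ((a + c : ℕ) : ℤ) (NAm M q x) ∧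
        rd A (eInf (q ^ 2 * M)) (qF (q ^ 2 * M) q) ((a + c : ℕ) : ℤ) (NAm M q x) =
          rd A (eInf (q ^ 2 * M)) (qF (q ^ 2 * M) q) a x *
            rd A (i 1 : FB (q ^ 2 * M) →+* LaurentSeries Qb) (piF M q) c x ^ (q - 1) * ρL ^ c := by
  obtain ⟨hPm, hPr⟩ := NA_P_isGU (A := A) hq hA B
  refine ⟨_, hPr, fun a c x hx h₁ h₂ => ?_⟩
  have hP0 : ∏ a : Fin (q - 1), i ((a : ℕ) + 1) (piF M q) ≠ 0 := by
    intro h0
    have := (NA_P_isGU (A := A) hq hA B).ne_zero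
    rw [h0, mul_zero] at this
    exact this rfl
  have hfix2 : IsFix A (q ^ 2 * M) (piF M q ^ (-(c : ℤ)) * x) :=
    ((isFix_piF M q).zpow _).mul hx
  obtain ⟨hm, hr⟩ := NA_gRed_prod (A := A) (Finset.univ : Finset (Fin (q - 1)))
    (fun b => i ((b : ℕ) + 1) (piF M q ^ (-(c : ℤ)) * x)) (gRed A ⟨_, h₂⟩) (fun b _ =>
      ⟨mid_mem_gRing hq hA B (NA2_not_dvd b) hfix2 h₂,
        gRed_mid hq hA B (NA2_not_dvd b) hfix2 h₂ _⟩)
  rw [Finset.card_univ, Fintype.card_fin] at hr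
  have e := NA_inf_identity hq B a c x hP0
  have hmem := (gRing A).mul_mem ((gRing A).mul_mem h₁ hm) ((gRing A).pow_mem hPm c)
  refine ⟨API_ge_of_eq hmem e, ?_⟩
  rw [API_rd_eq hmem e, API_gRed_mul ((gRing A).mul_mem h₁ hm) ((gRing A).pow_mem hPm c),
    API_gRed_mul h₁ hm, hr, API_gRed_pow hPm, rd_of_ge h₁, rd_of_ge h₂]

end

end Fermat.Agent.S36Lib
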